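import Mathlib

/-!
# MAZ / Abs / (END) : the abstract endgame of S15

`J` an abelian group, `JQ ≤ J` a finitely generated subgroup (`= J₀(N)(ℚ)`, S17), `red2`, `redl` two homomorphisms
(reductions at `2` or `3`, and at `ℓ`) which are injective on `r`-power torsion (S18).

If `y` reduces to `0` under `red2`, `y + cr` reduces to `0` under `redl`, `cr` is of `r`-power order and for every `k ≥ c0` there is an endomorphism
`ε` preserving the two kernels, fixing `cr`, with `ε y ∈ JQ[r^c0] + r^(k - c0) JQ`, then `cr = 0`.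
-/

set_option autoImplicit false

namespace Fermat.Agent.MAZ

/-- **Krull**: in a finitely generated abelian group an element of `r`-power order which is infinitely `r`-divisible is `0`. -/
theorem eq_zero_of_forall_exists_pow_nsmul {G : Type*} [AddCommGroup G] [AddGroup.FG G] {r : ℕ}
    {x : G} {c : ℕ} (hx : r ^ c • x = 0) (hdiv : ∀ n : ℕ, ∃ g : G, x = r ^ n • g) : x = 0 := by
  have : Module.Finite ℤ G := Module.Finite.iff_addGroup_fg.2 inferInstance
  have h1 : x ∈ (⨅ i : ℕ, (Ideal.span {(r : ℤ)}) ^ i • ⊤ : Submodule ℤ G) := by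
    rw [Submodule.mem_iInf]
    intro i
    rw [Ideal.span_singleton_pow, Submodule.ideal_span_singleton_smul,
      Submodule.mem_smul_pointwise_iff_exists]
    obtain ⟨g, hg⟩ := hdiv i
    refine ⟨g, Submodule.mem_top, ?_⟩
    rw [hg, ← natCast_zsmul]
    push_cast
    rfl
  obtain ⟨⟨a, ha⟩, hax⟩ := (Ideal.mem_iInf_smul_pow_eq_bot_iff _ x).1 h1
  obtain ⟨b, rfl⟩ := Ideal.mem_span_singleton'.1 ha
  -- `(b r) x = x`, hence `x = (b r)^c x = b^c r^c x = 0`
  have h2 : ∀ n : ℕ, ((b * (r : ℤ)) ^ n) • x = x := by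
    intro n
    induction n with
    | zero => simp
    | succ n ih => rw [pow_succ, mul_smul, hax, ih]
  have h3 := h2 c
  rw [mul_pow, mul_smul] at h3
  have h4 : ((r : ℤ) ^ c) • x = 0 := by
    rw [← hx, ← natCast_zsmul]
    push_cast
    rfl
  rw [h4, smul_zero] at h3
  exact h3.symm

/-- the same inside the image of a finitely generated subgroup. -/
theorem eq_zero_of_forall_exists_pow_nsmul_map {J G : Type*} [AddCommGroup J] [AddCommGroup G]
    {JQ : AddSubgroup J} (hfg : JQ.FG) (red : J →+ G) {r : ℕ} {x : G} {c : ℕ}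
    (hx : r ^ c • x = 0) (hdiv : ∀ n : ℕ, ∃ p ∈ JQ, x = r ^ n • red p) : x = 0 := by
  classical
  have hfg' : (JQ.map red).FG := by
    obtain ⟨S, hS⟩ := hfg
    exact ⟨S.image red, by rw [Finset.coe_image, ← AddMonoidHom.map_closure, hS]⟩
  have : AddGroup.FG (JQ.map red) := (AddGroup.fg_iff_addSubgroup_fg _).2 hfg'
  obtain ⟨p0, hp0, hx0⟩ := hdiv 0
  have hxm : x ∈ JQ.map red := by
    rw [hx0, pow_zero, one_smul]
    exact ⟨p0, hp0, rfl⟩
  have := eq_zero_of_forall_exists_pow_nsmul (G := JQ.map red) (r := r) (x := ⟨x, hxm⟩) (c := c)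
    (Subtype.ext hx) (fun n => by
      obtain ⟨p, hp, hxp⟩ := hdiv n
      exact ⟨⟨red p, ⟨p, hp, rfl⟩⟩, Subtype.ext hxp⟩)
  exact congrArg Subtype.val this

/-- the `n`-torsion of a finitely generated abelian group is finite. -/
theorem finite_torsion_of_fg {J : Type*} [AddCommGroup J] {JQ : AddSubgroup J} (hfg : JQ.FG)
    {n : ℕ} (hn : n ≠ 0) : {t : J | t ∈ JQ ∧ n • t = 0}.Finite := by
  have : AddGroup.FG JQ := (AddGroup.fg_iff_addSubgroup_fg _).2 hfg
  have : Module.Finite ℤ JQ := Module.Finite.iff_addGroup_fg.2 inferInstance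
  let T : Submodule ℤ JQ := Submodule.torsionBy ℤ JQ (n : ℤ)
  have : Module.Finite ℤ T := Module.IsNoetherian.finite ℤ T
  have : AddGroup.FG T := Module.Finite.iff_addGroup_fg.1 inferInstance
  have hT : Finite T := by
    refine AddCommGroup.finite_of_fg_isAddTorsion T fun t => ?_
    rw [isOfFinAddOrder_iff_nsmul_eq_zero]
    refine ⟨n, Nat.pos_of_ne_zero hn, ?_⟩
    have h := t.2
    rw [Submodule.mem_torsionBy_iff, natCast_zsmul] at h
    exact Subtype.ext h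
  refine (Set.finite_range (fun t : T => (((t : JQ) : J)))).subset ?_
  rintro t ⟨ht, hnt⟩
  refine ⟨⟨⟨t, ht⟩, ?_⟩, rfl⟩
  rw [Submodule.mem_torsionBy_iff, natCast_zsmul]
  exact Subtype.ext hnt

theorem pow_nsmul_split {G : Type*} [AddCommGroup G] (r : ℕ) {n j : ℕ} (g : G) (hnj : n ≤ j) :
    r ^ j • g = r ^ n • (r ^ (j - n) • g) := by
  rw [← mul_nsmul', ← pow_add, Nat.add_sub_of_le hnj]

/-- **(END)** -/
theorem endgame {J J2 Jl : Type*} [AddCommGroup J] [AddCommGroup J2] [AddCommGroup Jl]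
    {JQ : AddSubgroup J} (hfg : JQ.FG) {r : ℕ} (hr : r.Prime) (red2 : J →+ J2) (redl : J →+ Jl)
    (inj2 : ∀ t : J, (∃ n : ℕ, r ^ n • t = 0) → red2 t = 0 → t = 0)
    (injl : ∀ t : J, (∃ n : ℕ, r ^ n • t = 0) → redl t = 0 → t = 0)
    (c0 : ℕ) (y cr : J) (hcr : ∃ n : ℕ, r ^ n • cr = 0) (h2 : red2 y = 0)
    (hl : redl (y + cr) = 0)
    (hdec : ∀ k : ℕ, c0 ≤ k → ∃ ε : AddMonoid.End J,
      (∀ x, red2 x = 0 → red2 (ε x) = 0) ∧ (∀ x, redl x = 0 → redl (ε x) = 0) ∧ ε cr = cr ∧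
      ∃ p ∈ JQ, ∃ t ∈ JQ, r ^ c0 • t = 0 ∧ ε y = t + r ^ (k - c0) • p) : cr = 0 := by
  classical
  choose! ε hε2 hεl hεc p hp t ht htc hdec' using hdec
  have hfin := finite_torsion_of_fg hfg (n := r ^ c0) (pow_ne_zero _ hr.ne_zero)
  let f : ℕ → {t : J | t ∈ JQ ∧ r ^ c0 • t = 0} := fun j =>
    ⟨t (c0 + j), ht _ (Nat.le_add_right _ _), htc _ (Nat.le_add_right _ _)⟩
  have : Finite {t : J | t ∈ JQ ∧ r ^ c0 • t = 0} := hfin
  obtain ⟨t0, ht0⟩ := Finite.exists_infinite_fiber f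
  have hbig : ∀ n : ℕ, ∃ j, n ≤ j ∧ t (c0 + j) = t0 := by
    intro n
    obtain ⟨j, hj, hnj⟩ := (Set.infinite_coe_iff.1 ht0).exists_gt n
    exact ⟨j, hnj.le, congrArg Subtype.val hj⟩
  -- `t0 = 0`
  have h20 : red2 (t0 : J) = 0 := by
    refine eq_zero_of_forall_exists_pow_nsmul_map hfg red2 (r := r) (c := c0) ?_ ?_
    · rw [← map_nsmul, t0.2.2, map_zero]
    · intro n
      obtain ⟨j, hnj, hj⟩ := hbig n
      have hk : c0 ≤ c0 + j := Nat.le_add_right _ _
      have e1 := hε2 (c0 + j) hk y h2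
      rw [hdec' _ hk, hj, map_add, map_nsmul, Nat.add_sub_cancel_left] at e1
      refine ⟨-(r ^ (j - n) • p (c0 + j)), JQ.neg_mem (JQ.nsmul_mem (hp _ hk) _), ?_⟩
      rw [map_neg, map_nsmul, smul_neg, ← pow_nsmul_split r _ hnj]
      exact eq_neg_of_add_eq_zero_left e1
  have ht00 : (t0 : J) = 0 := inj2 _ ⟨c0, t0.2.2⟩ h20
  -- `cr = 0`
  obtain ⟨m, hm⟩ := hcr
  refine injl cr ⟨m, hm⟩ ?_
  refine eq_zero_of_forall_exists_pow_nsmul_map hfg redl (r := r) (c := m) ?_ ?_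
  · rw [← map_nsmul, hm, map_zero]
  · intro n
    obtain ⟨j, hnj, hj⟩ := hbig n
    have hk : c0 ≤ c0 + j := Nat.le_add_right _ _
    have e1 := hεl (c0 + j) hk (y + cr) hl
    rw [map_add, hεc _ hk, hdec' _ hk, hj, ht00, zero_add, map_add, map_nsmul,
      Nat.add_sub_cancel_left] at e1
    refine ⟨-(r ^ (j - n) • p (c0 + j)), JQ.neg_mem (JQ.nsmul_mem (hp _ hk) _), ?_⟩
    rw [map_neg, map_nsmul, smul_neg, ← pow_nsmul_split r _ hnj]
    exact eq_neg_of_add_eq_zero_right e1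

end Fermat.Agent.MAZ
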