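import Fermat.Agent.MAZ.Abs.Fin

/-!
# MAZ / Abs / [EXT] : the extension of `ℤ/n` by `V` attached to a cocycle, and the unwinding of (FIN)

`V` a `G_ℚ`-module killed by `n`, `κ : G_ℚ → V` a 1-cocycle.  `X := V × ZMod n` with
`σ (v, m) = (σ v + m κ(σ), m)`.

In the application `J` is a `G_ℚ`-module, `ε` an equivariant endomorphism which is idempotent on `J[n]`,
`V = ε J[n]`, `y ∈ J(ℚ)`, `n z₀ = y`, `κ σ = ε (σ z₀ - z₀)`; `(v, m) ↦ v + m ε z₀` identifies `X` with a subgroup of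
`{(z, m) : n z = m ε y} / ⟨(ε y, n)⟩`.
-/

set_option autoImplicit false

noncomputable section

namespace Fermat.Agent.MAZ

open Fermat.Agent.FLAT (Qb GQ)

section Ext

variable {V : Type} [AddCommGroup V] (n : ℕ) [NeZero n] (actV : GQ →* AddMonoid.End V)
  (κ : GQ → V)

/-- the underlying additive endomorphism of `σ` on `V × ZMod n`. -/
def extFun (hn : ∀ v : V, n • v = 0) (σ : GQ) : AddMonoid.End (V × ZMod n) where
  toFun p := (actV σ p.1 + p.2.val • κ σ, p.2)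
  map_zero' := by simp
  map_add' p q := by
    have h : (p.2 + q.2).val • κ σ = p.2.val • κ σ + q.2.val • κ σ := by
      rw [← add_nsmul, ZMod.val_add]
      conv_rhs => rw [← Nat.div_add_mod (p.2.val + q.2.val) n]
      rw [add_nsmul, mul_nsmul', hn, zero_add]
    ext
    · simp only [Prod.fst_add, Prod.snd_add, map_add, h]
      abel
    · rfl

/-- the action of `G_ℚ` on `V × ZMod n` attached to the cocycle `κ`. -/
def extAct (hn : ∀ v : V, n • v = 0) (hκ : ∀ σ τ : GQ, κ (σ * τ) = κ σ + actV σ (κ τ)) :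
    GQ →* AddMonoid.End (V × ZMod n) where
  toFun σ := extFun n actV κ hn σ
  map_one' := by
    have h1 : κ 1 = 0 := by
      have := hκ 1 1
      rw [mul_one, map_one] at this
      simpa using this
    ext p
    · change actV 1 p.1 + p.2.val • κ 1 = p.1
      rw [h1, map_one]
      simp
    · rfl
  map_mul' σ τ := by
    ext p
    · change actV (σ * τ) p.1 + p.2.val • κ (σ * τ) =
        actV σ (actV τ p.1 + p.2.val • κ τ) + p.2.val • κ σ
      rw [hκ, map_mul, map_add, map_nsmul, nsmul_add]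
      change actV σ (actV τ p.1) + _ = _
      abel
    · rfl

variable {n actV κ}

@[simp] theorem extAct_apply (hn : ∀ v : V, n • v = 0)
    (hκ : ∀ σ τ : GQ, κ (σ * τ) = κ σ + actV σ (κ τ)) (σ : GQ) (p : V × ZMod n) :
    extAct n actV κ hn hκ σ p = (actV σ p.1 + p.2.val • κ σ, p.2) := rfl

end Ext

end Fermat.Agent.MAZ

namespace Fermat.Agent.MAZ

open Fermat.Agent.FLAT (Qb GQ)

section FinExt

variable {r N : ℕ} {Ar AN : ValuationSubring Qb} {V Vs : Type} [AddCommGroup V]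
  [AddCommGroup Vs] {actV : GQ →* AddMonoid.End V} {acts : GQ →* AddMonoid.End Vs} {k : ℕ}
  [NeZero (r ^ k)] {κ : GQ → V} {e : V → Vs → Qb} {Y : AddSubgroup (V × ZMod (r ^ k))}
  {Ws : AddSubgroup Vs} {τ0 : GQ}

/-- **[EXT]** the structural fields of `FinData` are automatic for `X = V × ZMod (r ^ k)`. -/
theorem finData_ext (hn : ∀ v : V, r ^ k • v = 0)
    (hκ : ∀ σ τ : GQ, κ (σ * τ) = κ σ + actV σ (κ τ))
    (admX : Adm r N Ar AN (extAct (r ^ k) actV κ hn hκ) Y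
      (invI AN (extAct (r ^ k) actV κ hn hκ)))
    (admS : Adm r N Ar AN acts Ws (invI AN acts)) (pair : IsPerfPair actV acts e)
    (τ0_mem : τ0 ∈ AN.inertiaSubgroupIn ℚ)
    (τ0_κ : ∀ (v : V) (m : ℕ), actV τ0 v + m • κ τ0 = v →
      ∀ σ ∈ AN.inertiaSubgroupIn ℚ, actV σ v + m • κ σ = v)
    (τ0_S : ∀ y : Vs, acts τ0 y = y → y ∈ invI AN acts)
    (unipV : ∀ v : V, actV τ0 v - v ∈ invI AN actV) (unipκ : κ τ0 ∈ invI AN actV) :
    FinData r N Ar AN (extAct (r ^ k) actV κ hn hκ) actV acts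
      (AddMonoidHom.inl V (ZMod (r ^ k))) ((0 : V), (1 : ZMod (r ^ k))) k e Y Ws τ0 := by
  have hrange : ∀ x : V × ZMod (r ^ k), x ∈ (AddMonoidHom.inl V (ZMod (r ^ k))).range ↔ x.2 = 0 := by
    intro x
    constructor
    · rintro ⟨v, rfl⟩; rfl
    · intro h; exact ⟨x.1, Prod.ext rfl h.symm⟩
  refine
    { admX := admX
      admS := admS
      inj := fun a b h => congrArg Prod.fst h
      equiv := ?_
      triv := ?_
      gen := ?_
      index := ?_
      pair := pair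
      τ0_mem := τ0_mem
      τ0_X := ?_
      τ0_S := τ0_S
      unipW := ?_ }
  · intro σ v
    rw [extAct_apply]
    simp
  · intro σ x
    rw [hrange, extAct_apply]
    simp
  · intro x
    refine ⟨x.2.val, ?_⟩
    rw [hrange]
    simp
  · have h1 : (AddMonoidHom.inl V (ZMod (r ^ k))).range = (AddMonoidHom.snd V (ZMod (r ^ k))).ker := by
      ext x
      rw [hrange, AddMonoidHom.mem_ker]
      rfl
    rw [h1, AddSubgroup.index_ker,
      AddMonoidHom.range_eq_top.2 (fun m => ⟨((0 : V), m), rfl⟩), AddSubgroup.card_top, Nat.card_zmod]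
  · intro x hx σ hσ
    rw [extAct_apply] at hx ⊢
    have h1 : actV τ0 x.1 + x.2.val • κ τ0 = x.1 := congrArg Prod.fst hx
    exact Prod.ext (τ0_κ x.1 x.2.val h1 σ hσ) rfl
  · intro x
    refine ⟨(actV τ0 x.1 - x.1) + x.2.val • κ τ0,
      (invI AN actV).add_mem (unipV x.1) ((invI AN actV).nsmul_mem unipκ _), ?_⟩
    rw [extAct_apply]
    refine Prod.ext ?_ ?_
    · simp only [AddMonoidHom.inl_apply, Prod.fst_sub]
      abel
    · simp

end FinExt

section Jac

variable {J : Type} [AddCommGroup J] (actJ : GQ →* AddMonoid.End J) (n : ℕ)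
  (ε : AddMonoid.End J)

/-- `V = ε J[n] = {x ∈ J[n] | ε x = x}`. -/
def epsTors : AddSubgroup J where
  carrier := {x | n • x = 0 ∧ ε x = x}
  zero_mem' := ⟨smul_zero n, map_zero ε⟩
  add_mem' := fun {a b} ha hb => ⟨by rw [smul_add, ha.1, hb.1, add_zero], by
    rw [map_add, ha.2, hb.2]⟩
  neg_mem' := fun {a} ha => ⟨by rw [smul_neg, ha.1, neg_zero], by rw [map_neg, ha.2]⟩

variable {actJ n ε}

theorem act_mem_epsTors (hε : ∀ (σ : GQ) (x : J), ε (actJ σ x) = actJ σ (ε x)) (σ : GQ) :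
    ∀ v ∈ epsTors n ε, actJ σ v ∈ epsTors n ε := fun v hv =>
  ⟨by rw [← map_nsmul, hv.1, map_zero], by rw [hε, hv.2]⟩

/-- the action on `V`. -/
def epsAct (hε : ∀ (σ : GQ) (x : J), ε (actJ σ x) = actJ σ (ε x)) :
    GQ →* AddMonoid.End (epsTors n ε) where
  toFun σ := ((actJ σ).comp (epsTors n ε).subtype).codRestrict (epsTors n ε)
    (fun v => act_mem_epsTors hε σ v v.2)
  map_one' := by
    ext v
    change actJ 1 (v : J) = v
    rw [map_one]; rfl
  map_mul' σ τ := by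
    ext v
    change actJ (σ * τ) (v : J) = actJ σ (actJ τ (v : J))
    rw [map_mul]; rfl

@[simp] theorem coe_epsAct (hε : ∀ (σ : GQ) (x : J), ε (actJ σ x) = actJ σ (ε x)) (σ : GQ)
    (v : epsTors n ε) : ((epsAct hε σ v : epsTors n ε) : J) = actJ σ (v : J) := rfl

/-- the Kummer cocycle of `y = n z₀`, projected by `ε`. -/
def epsCoc (hid : ∀ x : J, n • x = 0 → ε (ε x) = ε x) {z0 : J}
    (hz0 : ∀ σ : GQ, actJ σ (n • z0) = n • z0) (σ : GQ) : epsTors n ε :=
  ⟨ε (actJ σ z0 - z0), by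
    have h : n • (actJ σ z0 - z0) = 0 := by
      rw [smul_sub, ← map_nsmul, hz0, sub_self]
    exact ⟨by rw [← map_nsmul, h, map_zero], hid _ h⟩⟩

theorem epsCoc_mul (hε : ∀ (σ : GQ) (x : J), ε (actJ σ x) = actJ σ (ε x))
    (hid : ∀ x : J, n • x = 0 → ε (ε x) = ε x) {z0 : J}
    (hz0 : ∀ σ : GQ, actJ σ (n • z0) = n • z0) (σ τ : GQ) :
    epsCoc hid hz0 (σ * τ) = epsCoc hid hz0 σ + epsAct hε σ (epsCoc hid hz0 τ) := by
  apply Subtype.ext
  change ε (actJ (σ * τ) z0 - z0) = ε (actJ σ z0 - z0) + actJ σ (ε (actJ τ z0 - z0))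
  rw [← hε, ← map_add, map_mul]
  congr 1
  change actJ σ (actJ τ z0) - z0 = _
  rw [map_sub]
  abel

theorem nsmul_epsTors (v : epsTors n ε) : n • v = 0 := Subtype.ext v.2.1

/-- **[UNWIND]** a fixed element of the extension congruent to `r ^ c • x0` gives
`ε y ∈ J(ℚ)[r^c] + r^(k-c) J(ℚ)`. -/
theorem exists_decomp_of_fixed {r k c : ℕ} [NeZero (r ^ k)] (hr : 1 < r) (hc : c ≤ k)
    {ε : AddMonoid.End J}
    (hε : ∀ (σ : GQ) (x : J), ε (actJ σ x) = actJ σ (ε x))
    (hid : ∀ x : J, r ^ k • x = 0 → ε (ε x) = ε x) {z0 : J}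
    (hz0 : ∀ σ : GQ, actJ σ (r ^ k • z0) = r ^ k • z0)
    {x : epsTors (r ^ k) ε × ZMod (r ^ k)}
    (hx : ∀ σ : GQ, extAct (r ^ k) (epsAct hε) (epsCoc hid hz0) nsmul_epsTors
      (epsCoc_mul hε hid hz0) σ x = x)
    (hx' : x - r ^ c • ((0 : epsTors (r ^ k) ε), (1 : ZMod (r ^ k))) ∈
      (AddMonoidHom.inl (epsTors (r ^ k) ε) (ZMod (r ^ k))).range) :
    ∃ p t : J, (∀ σ : GQ, actJ σ p = p) ∧ (∀ σ : GQ, actJ σ t = t) ∧ r ^ c • t = 0 ∧
      ε (r ^ k • z0) = t + r ^ (k - c) • p := by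
  have hεy : ∀ σ : GQ, actJ σ (ε (r ^ k • z0)) = ε (r ^ k • z0) := fun σ => by rw [← hε, hz0]
  rcases hc.eq_or_lt with rfl | hck
  · exact ⟨ε (r ^ c • z0), 0, hεy, fun σ => map_zero _, smul_zero _, by simp⟩
  obtain ⟨v, m⟩ := x
  have hm : m = ((r ^ c : ℕ) : ZMod (r ^ k)) := by
    obtain ⟨w, hw⟩ := hx'
    have := congrArg Prod.snd hw
    simp only [AddMonoidHom.inl_apply, Prod.snd_sub, Prod.smul_snd, nsmul_eq_mul, mul_one] at this
    exact (sub_eq_zero.1 this.symm)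
  have hmv : m.val = r ^ c := by
    rw [hm, ZMod.val_natCast, Nat.mod_eq_of_lt (Nat.pow_lt_pow_right hr hck)]
  have hfix : ∀ σ : GQ, actJ σ (v : J) + r ^ c • ε (actJ σ z0 - z0) = v := by
    intro σ
    have h1 := congrArg Prod.fst (hx σ)
    rw [extAct_apply] at h1
    have h2 := congrArg Subtype.val h1
    simp only [hmv] at h2
    exact h2
  have hp : ∀ σ : GQ, actJ σ ((v : J) + r ^ c • ε z0) = (v : J) + r ^ c • ε z0 := by
    intro σ
    have h1 := hfix σ
    rw [map_sub, smul_sub] at h1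
    rw [map_add, map_nsmul, ← hε]
    rw [← sub_eq_zero] at h1 ⊢
    rw [← h1]
    abel
  refine ⟨(v : J) + r ^ c • ε z0, ε (r ^ k • z0) - r ^ (k - c) • ((v : J) + r ^ c • ε z0), hp, ?_, ?_,
    by abel⟩
  · intro σ
    rw [map_sub, hεy, map_nsmul (actJ σ), hp]
  · have hv : r ^ k • (v : J) = 0 := v.2.1
    have hpow : r ^ c * r ^ (k - c) = r ^ k := by rw [← pow_add, Nat.add_sub_cancel' hc]
    rw [smul_sub, smul_smul, hpow, smul_add, hv, zero_add, map_nsmul, smul_smul, smul_smul, mul_comm,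
      sub_self]

end Jac

end Fermat.Agent.MAZ
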