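import Fermat.Agent.MAZ.Abs.Defs
import Fermat.Agent.Common.PlaceBridgeLocal
import Fermat.Agent.Common.PlaceBridgeKummer
import Fermat.Agent.S36.K0
import Fermat.Agent.S56.Tame.Basic

/-!
# MAZ / Abs / [TAME] : an `r`-group quotient of the inertia group at `N ≠ r` is cyclic

Proof: enlarge `L` to its normal closure `M` (`Bridge.normalHull`), use the two statements of `S56/Tame/Basic.lean`:
`S56.exists_inertia_generator` (`σ σ₀^(-n)` is wild on `M`) and `S56.WildOn.exists_pow_fix` (a wild element has `N`-power order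
on `M`).  So `ρ (σ σ₀^(-n))` has order a power of `N` and a power of `r`, hence is trivial.
-/

set_option autoImplicit false

noncomputable section

namespace Fermat.Agent.MAZ

open Fermat.Agent.FLAT (Qb GQ)

/-- **[TAME]** -/
theorem exists_tame_generator {N r : ℕ} (hN : N.Prime) (hr : r.Prime) (hrN : r ≠ N)
    {A : ValuationSubring Qb} (hA : A.LiesOverPrime N) {P : Type*} [Group P] (ρ : GQ →* P)
    (hsm : ∃ L : IntermediateField ℚ Qb, FiniteDimensional ℚ L ∧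
      ∀ σ : GQ, (∀ y ∈ L, σ y = y) → ρ σ = 1)
    (hp : ∀ σ ∈ A.inertiaSubgroupIn ℚ, ∃ j : ℕ, ρ σ ^ r ^ j = 1) :
    ∃ τ0 ∈ A.inertiaSubgroupIn ℚ, ∀ σ ∈ A.inertiaSubgroupIn ℚ, ∃ i : ℕ, ρ σ = ρ τ0 ^ i := by
  obtain ⟨L, hLfin, hL⟩ := hsm
  set M : IntermediateField ℚ Qb := Bridge.normalHull L with hM
  have hfin : FiniteDimensional ℚ M := normalClosure.is_finiteDimensional ℚ L Qb
  have hnor : Normal ℚ M := normalClosure.normal ℚ L Qb
  obtain ⟨τ0, hτ0, hgen⟩ := S56.exists_inertia_generator hN hA M hnor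
  refine ⟨τ0, hτ0, fun σ hσ => ?_⟩
  obtain ⟨n, hw⟩ := hgen σ hσ
  obtain ⟨a, ha⟩ := S56.WildOn.exists_pow_fix hN hA hnor hw
  obtain ⟨j, hj⟩ := hp _ hw.1
  have h1 : ρ (σ * (τ0 ^ n)⁻¹) ^ N ^ a = 1 := by
    rw [← map_pow]
    exact hL _ fun y hy => ha y (Bridge.le_normalHull L hy)
  have hcop : Nat.Coprime (N ^ a) (r ^ j) :=
    Nat.Coprime.pow _ _ ((Nat.coprime_primes hN hr).2 (Ne.symm hrN))
  have h2 : ρ (σ * (τ0 ^ n)⁻¹) = 1 := by
    have h3 := orderOf_dvd_of_pow_eq_one h1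
    have h4 := orderOf_dvd_of_pow_eq_one hj
    have h5 : orderOf (ρ (σ * (τ0 ^ n)⁻¹)) = 1 :=
      Nat.eq_one_of_dvd_coprimes hcop h3 h4
    exact orderOf_eq_one_iff.1 h5
  refine ⟨n, ?_⟩
  rw [map_mul, map_inv, map_pow, mul_inv_eq_one] at h2
  exact h2

end Fermat.Agent.MAZ
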