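import Mathlib

/-!
# MAZ / Abs / [LINE-A] : existence of stable lines (pure group theory, Mathlib only)
-/

set_option autoImplicit false

noncomputable section

namespace Fermat.Agent.MAZ.LineA

open Polynomial

/-- an endomorphism `f` of a nonzero finite `𝔽_r`-vector space with `f ^ (r-1) = 1` has an
eigenvector. -/
theorem exists_eigen_zmod {r : ℕ} [Fact r.Prime] {V : Type*} [AddCommGroup V] [Module (ZMod r) V]
    [Finite V] [Nontrivial V] (f : Module.End (ZMod r) V) (hf : f ^ (r - 1) = 1) :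
    ∃ (a : ZMod r) (v : V), v ≠ 0 ∧ f v = a • v := by
  have hr : r.Prime := Fact.out
  have : Module.Finite (ZMod r) V := Module.Finite.of_finite
  have h1 : minpoly (ZMod r) f ∣ (X ^ (r - 1) - 1 : (ZMod r)[X]) :=
    minpoly.dvd _ _ (by simp [hf])
  have h2 : (X ^ (r - 1) - 1 : (ZMod r)[X]) ∣ X ^ r - X := by
    refine ⟨X, ?_⟩
    obtain ⟨k, rfl⟩ : ∃ k, r = k + 1 := ⟨r - 1, by have := hr.pos; omega⟩
    simp only [Nat.add_sub_cancel]
    ring
  have h0 : (X ^ r - X : (ZMod r)[X]) ≠ 0 := FiniteField.X_pow_card_sub_X_ne_zero _ hr.one_lt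
  have hs : (minpoly (ZMod r) f).Splits :=
    (GaloisField.splits_zmod_X_pow_sub_X r).of_dvd h0 (h1.trans h2)
  obtain ⟨a, ha⟩ :=
    hs.exists_eval_eq_zero (minpoly.degree_pos (Algebra.IsIntegral.isIntegral f)).ne'
  obtain ⟨v, hv⟩ := (Module.End.hasEigenvalue_of_isRoot ha).exists_hasEigenvector
  exact ⟨a, v, hv.2, Module.End.mem_eigenspace_iff.1 hv.1⟩

/-- eigenvectors on a stable `r`-torsion subgroup (auxiliary form, module structure given). -/
theorem exists_eigen_aux {r : ℕ} [Fact r.Prime] {X : Type*} [AddCommGroup X] [Finite X]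
    (U : AddSubgroup X) [Module (ZMod r) U] [Nontrivial U] (T : AddMonoid.End X)
    (hT : ∀ u ∈ U, T u ∈ U) (hpow : ∀ u ∈ U, (T ^ (r - 1)) u = u) :
    ∃ (a : ℕ) (w : X), w ∈ U ∧ w ≠ 0 ∧ T w = a • w := by
  let T0 : U →+ U := ((T : X →+ X).comp U.subtype).codRestrict U (fun u => hT u u.2)
  let f : Module.End (ZMod r) U := T0.toZModLinearMap r
  have hf0 : ∀ u : U, ((f u : U) : X) = T u := fun u => rfl
  have hfk : ∀ (k : ℕ) (u : U), (((f ^ k) u : U) : X) = (T ^ k) u := by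
    intro k
    induction k with
    | zero => intro u; rfl
    | succ k ih =>
      intro u
      rw [pow_succ, pow_succ, Module.End.mul_apply, ih, hf0]
      rfl
  have hf : f ^ (r - 1) = 1 := by
    ext u
    rw [hfk, hpow u u.2]
    rfl
  obtain ⟨a, v, hv, hav⟩ := exists_eigen_zmod f hf
  refine ⟨a.val, v, v.2, fun h => hv (Subtype.ext h), ?_⟩
  have : f v = a.val • v := by
    rw [hav, ← Nat.cast_smul_eq_nsmul (ZMod r) a.val v, ZMod.natCast_zmod_val]
  rw [← hf0, this]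
  rfl

/-- eigenvectors on a stable `r`-torsion subgroup. -/
theorem exists_eigen {r : ℕ} (hr : r.Prime) {X : Type*} [AddCommGroup X] [Finite X]
    (U : AddSubgroup X) (hU : U ≠ ⊥) (hrU : ∀ u ∈ U, r • u = 0) (T : AddMonoid.End X)
    (hT : ∀ u ∈ U, T u ∈ U) (hpow : ∀ u ∈ U, (T ^ (r - 1)) u = u) :
    ∃ (a : ℕ) (w : X), w ∈ U ∧ w ≠ 0 ∧ T w = a • w := by
  have := Fact.mk hr
  let _ : Module (ZMod r) U :=
    AddCommGroup.zmodModule (fun u => Subtype.ext (by simpa using hrU u u.2))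
  have : Nontrivial U := (AddSubgroup.nontrivial_iff_ne_bot U).2 hU
  exact exists_eigen_aux U T hT hpow

/-- a nonzero vector fixed by a subgroup acting through `r`-power order elements. -/
theorem exists_fixed {Γ : Type*} [Group Γ] {r : ℕ} (hr : r.Prime) {X : Type*}
    [AddCommGroup X] [Finite X] [Nontrivial X] (hX : ∀ v : X, ∃ k : ℕ, r ^ k • v = 0)
    (ρ : Γ →* AddMonoid.End X) (Γ1 : Subgroup Γ)
    (h1 : ∀ g ∈ Γ1, ∃ n : ℕ, ∀ v : X, ρ (g ^ r ^ n) v = v) :
    ∃ b : X, b ≠ 0 ∧ ∀ g ∈ Γ1, ρ g b = b := by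
  have := Fact.mk hr
  let _ : MulAction Γ X := MulAction.compHom X ρ
  let φ : Γ →* Equiv.Perm X := MulAction.toPermHom Γ X
  have hφ : ∀ g v, φ g v = ρ g v := fun _ _ => rfl
  let G : Subgroup (Equiv.Perm X) := Γ1.map φ
  have hG : IsPGroup r G := by
    rintro ⟨_, g, hg, rfl⟩
    obtain ⟨n, hn⟩ := h1 g hg
    refine ⟨n, Subtype.ext ?_⟩
    ext v
    change ((φ g) ^ r ^ n) v = v
    rw [← map_pow, hφ, hn]
  have hcard : r ∣ Nat.card X := by
    have hP : IsPGroup r (Multiplicative X) := by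
      intro g
      obtain ⟨k, hk⟩ := hX (Multiplicative.toAdd g)
      exact ⟨k, by
        apply Multiplicative.toAdd.injective
        simpa using hk⟩
    rcases hP.card_eq_or_dvd with h | h
    · exfalso
      have : Nat.card X = 1 := h
      have h2 : 1 < Nat.card X := Finite.one_lt_card
      omega
    · exact h
  have h0 : (0 : X) ∈ MulAction.fixedPoints G X := by
    rintro ⟨_, g, hg, rfl⟩
    change φ g 0 = 0
    rw [hφ, map_zero]
  obtain ⟨b, hb, hb0⟩ := hG.exists_fixed_point_of_prime_dvd_card_of_fixed_point X hcard h0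
  exact ⟨b, hb0.symm, fun g hg => hb ⟨φ g, g, hg, rfl⟩⟩

/-- **[LINE]**, group theoretic form. -/
theorem exists_stable_line' {Γ : Type*} [Group Γ] {r : ℕ} (hr : r.Prime) {X : Type*}
    [AddCommGroup X] [Finite X] [Nontrivial X] (hX : ∀ v : X, ∃ k : ℕ, r ^ k • v = 0)
    (ρ : Γ →* AddMonoid.End X) (Γ1 : Subgroup Γ) [Γ1.Normal]
    (h1 : ∀ g ∈ Γ1, ∃ n : ℕ, ∀ v : X, ρ (g ^ r ^ n) v = v)
    (hab : ∀ g h : Γ, g * h * g⁻¹ * h⁻¹ ∈ Γ1) (hexp : ∀ g : Γ, g ^ (r - 1) ∈ Γ1) :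
    ∃ F : AddSubgroup X, Nat.card F = r ∧ ∀ g : Γ, ∀ v ∈ F, ρ g v ∈ F := by
  classical
  obtain ⟨b, hb0, hb⟩ := exists_fixed hr hX ρ Γ1 h1
  -- a fixed vector of order `r`
  obtain ⟨b', hb'0, hb'r, hb'⟩ : ∃ b' : X, b' ≠ 0 ∧ r • b' = 0 ∧ ∀ g ∈ Γ1, ρ g b' = b' := by
    have hk := Nat.find_spec (hX b)
    have hk0 : Nat.find (hX b) ≠ 0 := by
      intro h
      rw [h] at hk
      exact hb0 (by simpa using hk)
    obtain ⟨k, hkk⟩ := Nat.exists_eq_succ_of_ne_zero hk0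
    refine ⟨r ^ k • b, ?_, ?_, ?_⟩
    · exact Nat.find_min (hX b) (m := k) (by omega)
    · rw [← mul_smul, ← pow_succ', ← Nat.succ_eq_add_one, ← hkk]
      exact hk
    · intro g hg
      rw [map_nsmul, hb g hg]
  let S : AddSubgroup X → Prop := fun U => U ≠ ⊥ ∧ (∀ u ∈ U, r • u = 0) ∧
    (∀ g ∈ Γ1, ∀ u ∈ U, ρ g u = u) ∧ ∀ g, ∀ u ∈ U, ρ g u ∈ U
  let X1 : AddSubgroup X :=
    { carrier := {u | r • u = 0 ∧ ∀ g ∈ Γ1, ρ g u = u}
      zero_mem' := ⟨smul_zero _, fun g _ => map_zero _⟩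
      add_mem' := fun {a b} ha hb => ⟨by rw [smul_add, ha.1, hb.1, add_zero],
        fun g hg => by rw [map_add, ha.2 g hg, hb.2 g hg]⟩
      neg_mem' := fun {a} ha => ⟨by rw [smul_neg, ha.1, neg_zero],
        fun g hg => by rw [map_neg, ha.2 g hg]⟩ }
  have hX1 : S X1 := by
    refine ⟨?_, fun u hu => hu.1, fun g hg u hu => hu.2 g hg, fun g u hu => ⟨?_, fun h hh => ?_⟩⟩
    · intro h
      have : b' ∈ X1 := ⟨hb'r, hb'⟩
      rw [h, AddSubgroup.mem_bot] at this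
      exact hb'0 this
    · rw [← map_nsmul, hu.1, map_zero]
    · have h2 : g⁻¹ * h * g ∈ Γ1 := by
        have := ‹Γ1.Normal›.conj_mem h hh g⁻¹
        simpa using this
      have h3 : h * g = g * (g⁻¹ * h * g) := by group
      calc ρ h (ρ g u) = ρ (h * g) u := by rw [map_mul]; rfl
        _ = ρ g (ρ (g⁻¹ * h * g) u) := by rw [h3, map_mul]; rfl
        _ = ρ g u := by rw [hu.2 _ h2]
  have hex : ∃ n : ℕ, ∃ U, S U ∧ Nat.card U = n := ⟨_, X1, hX1, rfl⟩
  obtain ⟨U, hU, hUn⟩ := Nat.find_spec hex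
  have hmin : ∀ K : AddSubgroup X, S K → K ≤ U → K = U := by
    intro K hK hKU
    refine AddSubgroup.eq_of_le_of_card_ge hKU ?_
    rw [hUn]
    exact Nat.find_min' hex ⟨K, hK, rfl⟩
  obtain ⟨hU0, hUr, hU1, hUst⟩ := hU
  -- commutation on `U`
  have hcomm : ∀ g h : Γ, ∀ u ∈ U, ρ g (ρ h u) = ρ h (ρ g u) := by
    intro g h u hu
    have h3 : g * h = (g * h * g⁻¹ * h⁻¹) * (h * g) := by group
    calc ρ g (ρ h u) = ρ (g * h) u := by rw [map_mul]; rfl
      _ = ρ ((g * h * g⁻¹ * h⁻¹) * (h * g)) u := by rw [← h3]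
      _ = ρ (g * h * g⁻¹ * h⁻¹) (ρ h (ρ g u)) := by
          rw [map_mul, map_mul ρ h g]; rfl
      _ = ρ h (ρ g u) := hU1 _ (hab g h) _ (hUst h _ (hUst g _ hu))
  -- every `g` is a scalar on `U`
  have hscal : ∀ g : Γ, ∃ a : ℕ, ∀ u ∈ U, ρ g u = a • u := by
    intro g
    obtain ⟨a, w, hwU, hw0, hw⟩ := exists_eigen hr U hU0 hUr (ρ g) (hUst g) (fun u hu => by
      rw [← map_pow]
      exact hU1 _ (hexp g) u hu)
    let K : AddSubgroup X :=
      { carrier := {u | u ∈ U ∧ ρ g u = a • u}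
        zero_mem' := ⟨U.zero_mem, by rw [map_zero, smul_zero]⟩
        add_mem' := fun {x y} hx hy => ⟨U.add_mem hx.1 hy.1, by
          rw [map_add, hx.2, hy.2, smul_add]⟩
        neg_mem' := fun {x} hx => ⟨U.neg_mem hx.1, by rw [map_neg, hx.2, smul_neg]⟩ }
    have hKU : K ≤ U := fun u hu => hu.1
    have hK : S K := by
      refine ⟨?_, fun u hu => hUr u hu.1, fun h hh u hu => hU1 h hh u hu.1,
        fun h u hu => ⟨hUst h u hu.1, ?_⟩⟩
      · intro h
        have : w ∈ K := ⟨hwU, hw⟩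
        rw [h, AddSubgroup.mem_bot] at this
        exact hw0 this
      · rw [hcomm g h u hu.1, hu.2, map_nsmul]
    have := hmin K hK hKU
    refine ⟨a, fun u hu => ?_⟩
    rw [← this] at hu
    exact hu.2
  obtain ⟨u, huU, hu0⟩ : ∃ u : X, u ∈ U ∧ u ≠ 0 := by
    by_contra hcon
    push Not at hcon
    exact hU0 ((AddSubgroup.eq_bot_iff_forall U).2 hcon)
  have := Fact.mk hr
  refine ⟨AddSubgroup.zmultiples u, ?_, ?_⟩
  · rw [Nat.card_zmultiples]
    exact addOrderOf_eq_prime (hUr u huU) hu0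
  · intro g v hv
    obtain ⟨a, ha⟩ := hscal g
    obtain ⟨n, rfl⟩ := AddSubgroup.mem_zmultiples_iff.1 hv
    rw [map_zsmul, ha u huU]
    exact AddSubgroup.zsmul_mem _ (AddSubgroup.nsmul_mem _ (AddSubgroup.mem_zmultiples u) a) n

/-- an element of `r`-power order acts trivially on a stable subgroup of order `r`. -/
theorem eq_self_of_pow_of_card_eq' {r : ℕ} (hr : r.Prime) {X : Type*} [AddCommGroup X]
    (F : AddSubgroup X) (hF : Nat.card F = r) (f : AddMonoid.End X) (hf : ∀ v ∈ F, f v ∈ F)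
    {n : ℕ} (hn : ∀ v ∈ F, (f ^ r ^ n) v = v) : ∀ v ∈ F, f v = v := by
  have := Fact.mk hr
  have hfin : Finite F := Nat.finite_of_card_ne_zero (by rw [hF]; exact hr.ne_zero)
  have hnt : Nontrivial F := Finite.one_lt_card_iff_nontrivial.1 (by rw [hF]; exact hr.one_lt)
  obtain ⟨u, hu⟩ := exists_ne (0 : F)
  have hgen : ∀ v : F, v ∈ AddSubgroup.zmultiples u := fun v => mem_zmultiples_of_prime_card hF hu
  obtain ⟨a, ha⟩ := AddSubgroup.mem_zmultiples_iff.1 (hgen ⟨f u, hf u u.2⟩)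
  have ha' : f (u : X) = a • (u : X) := by
    have := congrArg (Subtype.val) ha
    simpa using this.symm
  have hpow : ∀ k : ℕ, (f ^ k) (u : X) = a ^ k • (u : X) := by
    intro k
    induction k with
    | zero => simp
    | succ k ih =>
      have : (f ^ (k + 1)) (u : X) = f ((f ^ k) (u : X)) := by rw [pow_succ']; rfl
      rw [this, ih, map_zsmul, ha', ← mul_smul, pow_succ]
  have hu0 : (u : X) ≠ 0 := fun h => hu (Subtype.ext h)
  have hur : r • (u : X) = 0 := by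
    have : Nat.card F • u = 0 := card_nsmul_eq_zero'
    rw [hF] at this
    simpa using congrArg Subtype.val this
  have hord : addOrderOf (u : X) = r := addOrderOf_eq_prime hur hu0
  have h1 : (a ^ r ^ n - 1) • (u : X) = 0 := by
    rw [sub_smul, one_smul, ← hpow, hn u u.2, sub_self]
  have h2 : ((r : ℕ) : ℤ) ∣ a ^ r ^ n - 1 := by
    have := addOrderOf_dvd_iff_zsmul_eq_zero.2 h1
    rwa [hord] at this
  have h3 : ((r : ℕ) : ℤ) ∣ a - 1 := by
    rw [← ZMod.intCast_zmod_eq_zero_iff_dvd] at h2 ⊢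
    push_cast at h2 ⊢
    rwa [ZMod.pow_card_pow] at h2
  have h4 : (a - 1) • (u : X) = 0 := by
    rw [← hord] at h3
    exact addOrderOf_dvd_iff_zsmul_eq_zero.1 h3
  have hfu : f (u : X) = u := by
    rw [ha']
    rw [sub_smul, one_smul, sub_eq_zero] at h4
    exact h4
  intro v hv
  obtain ⟨m, hm⟩ := AddSubgroup.mem_zmultiples_iff.1 (hgen ⟨v, hv⟩)
  have hm' : v = m • (u : X) := by
    have := congrArg (Subtype.val) hm
    simpa using this.symm
  rw [hm', map_zsmul, hfu]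

end Fermat.Agent.MAZ.LineA
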