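import Fermat.Agent.MAZ.Abs.Defs
import Fermat.Agent.MAZ.Abs.LineA
import Fermat.Agent.S13.Minkowski
import Fermat.Agent.FLAT.Desc.Teich

/-!
# MAZ / Abs / [LINE] : existence of stable lines

RECIPE `exists_stable_line`.  The image `P` of `Γ1` in the (finite) group of automorphisms of `X` is
a group all of whose elements have `r`-power order, so it is an `r`-group
(`IsPGroup`), hence it has a nonzero fixed vector in `X[r] ≠ 0`
(`IsPGroup.card_modEq_card_fixedPoints` / `IsPGroup.nontrivial_fixedPoints...`).  `X1 := X[r]^{Γ1}` is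
`Γ`-stable (`Γ1` normal).  Take a MINIMAL nonzero `Γ`-stable subgroup `U ≤ X1` (finiteness).  For
`g : Γ`, `ρ g ^ (r-1) = 1` on `U`, and `T^(r-1) - 1 = ∏_{a ∈ 𝔽_r^×} (T - a)`, so some `ρ g - a` has a
nonzero kernel on `U`; this kernel is `Γ`-stable (`ρ g`, `ρ h` commute on `X1` by `hab`), so it is
`U`: every `g` acts on `U` by a scalar; `F := ℤ u` for any `0 ≠ u ∈ U`.
-/

set_option autoImplicit false

noncomputable section

namespace Fermat.Agent.MAZ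

open Fermat.Agent.FLAT (Qb GQ)

/-- **[LINE]**, group theoretic form. -/
theorem exists_stable_line {Γ : Type*} [Group Γ] {r : ℕ} (hr : r.Prime) {X : Type*}
    [AddCommGroup X] [Finite X] [Nontrivial X] (hX : ∀ v : X, ∃ k : ℕ, r ^ k • v = 0)
    (ρ : Γ →* AddMonoid.End X) (Γ1 : Subgroup Γ) [Γ1.Normal]
    (h1 : ∀ g ∈ Γ1, ∃ n : ℕ, ∀ v : X, ρ (g ^ r ^ n) v = v)
    (hab : ∀ g h : Γ, g * h * g⁻¹ * h⁻¹ ∈ Γ1) (hexp : ∀ g : Γ, g ^ (r - 1) ∈ Γ1) :
    ∃ F : AddSubgroup X, Nat.card F = r ∧ ∀ g : Γ, ∀ v ∈ F, ρ g v ∈ F :=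
  LineA.exists_stable_line' hr hX ρ Γ1 h1 hab hexp

/-- an element of `r`-power order acts trivially on a stable subgroup of order `r`
(it acts by a scalar `u ∈ 𝔽_r^×` with `u ^ r ^ n = 1`, so `u = 1`). -/
theorem eq_self_of_pow_of_card_eq {r : ℕ} (hr : r.Prime) {X : Type*} [AddCommGroup X]
    (F : AddSubgroup X) (hF : Nat.card F = r) (f : AddMonoid.End X) (hf : ∀ v ∈ F, f v ∈ F)
    {n : ℕ} (hn : ∀ v ∈ F, (f ^ r ^ n) v = v) : ∀ v ∈ F, f v = v :=
  LineA.eq_self_of_pow_of_card_eq' hr F hF f hf hn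

/-- the subgroup of `G_ℚ` fixing `μ_r`. -/
def fixMu (r : ℕ) : Subgroup GQ where
  carrier := {σ | ∀ ζ : Qb, ζ ^ r = 1 → σ ζ = ζ}
  one_mem' := fun _ _ => rfl
  mul_mem' := fun {a b} ha hb ζ hζ => by
    rw [AlgEquiv.mul_apply, hb ζ hζ, ha ζ hζ]
  inv_mem' := fun {a} ha ζ hζ => by
    rw [AlgEquiv.aut_inv, AlgEquiv.symm_apply_eq, ha ζ hζ]

theorem mem_fixMu {r : ℕ} {σ : GQ} : σ ∈ fixMu r ↔ ∀ ζ : Qb, ζ ^ r = 1 → σ ζ = ζ := Iff.rfl

instance fixMu_normal (r : ℕ) : (fixMu r).Normal := by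
  refine ⟨fun σ hσ g ζ hζ => ?_⟩
  have h1 : (g⁻¹ ζ) ^ r = 1 := by rw [← map_pow, hζ, map_one]
  rw [AlgEquiv.mul_apply, AlgEquiv.mul_apply, hσ _ h1, ← AlgEquiv.mul_apply, mul_inv_cancel]
  rfl

theorem exists_primitiveRoot_Qb {r : ℕ} (hr : r ≠ 0) : ∃ μ : Qb, IsPrimitiveRoot μ r := by
  have : NeZero r := ⟨hr⟩
  have : NeZero (r : Qb) := ⟨Nat.cast_ne_zero.mpr hr⟩
  exact HasEnoughRootsOfUnity.exists_primitiveRoot Qb r

theorem mem_fixMu_iff_autToPow {r : ℕ} [NeZero r] {μ : Qb} (hμ : IsPrimitiveRoot μ r) (σ : GQ) :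
    σ ∈ fixMu r ↔ hμ.autToPow ℚ σ = 1 := by
  have hone : μ ^ (1 : ZMod r).val = μ := by
    rw [ZMod.val_one_eq_one_mod, hμ.eq_orderOf, pow_mod_orderOf, pow_one]
  constructor
  · intro h
    apply Units.ext
    apply ZMod.val_injective
    apply hμ.pow_inj (ZMod.val_lt _) (ZMod.val_lt _)
    rw [hμ.autToPow_spec ℚ σ, h μ hμ.pow_eq_one, Units.val_one, hone]
  · intro h ζ hζ
    have h1 : σ μ = μ := by
      rw [← hμ.autToPow_spec ℚ σ, h, Units.val_one, hone]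
    obtain ⟨i, -, rfl⟩ := hμ.eq_pow_of_pow_eq_one hζ
    rw [map_pow, h1]

theorem commutator_mem_fixMu {r : ℕ} (hr : r ≠ 0) (g h : GQ) :
    g * h * g⁻¹ * h⁻¹ ∈ fixMu r := by
  have : NeZero r := ⟨hr⟩
  obtain ⟨μ, hμ⟩ := exists_primitiveRoot_Qb hr
  rw [mem_fixMu_iff_autToPow hμ]
  simp only [map_mul, map_inv]
  rw [mul_comm (hμ.autToPow ℚ g), mul_inv_cancel_right, mul_inv_cancel]

theorem pow_mem_fixMu {r : ℕ} (hr : r.Prime) (g : GQ) : g ^ (r - 1) ∈ fixMu r := by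
  have : Fact r.Prime := ⟨hr⟩
  obtain ⟨μ, hμ⟩ := exists_primitiveRoot_Qb hr.ne_zero
  rw [mem_fixMu_iff_autToPow hμ, map_pow]
  exact ZMod.units_pow_card_sub_one_eq_one r _

/-- `ℚ(μ_r)` is totally ramified at `r`: every `σ` agrees on `μ_r` with an element of the inertia
group.  (Minkowski `S13.eq_top_of_inertia_le` applied to `H = fixMu r ⊔ (normal closure of) I_A`, or
to `H = {σ | ∃ τ ∈ I_A, σ τ⁻¹ ∈ fixMu r}`, a subgroup because `G_ℚ / fixMu r` is abelian; for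
`q ≠ r` the inertia at `q` fixes `μ_r` : `FLAT.inertia_apply_eq_of_pow_eq_one`.) -/
theorem exists_inertia_mul_mem_fixMu {r : ℕ} (hr : r.Prime) {A : ValuationSubring Qb}
    (hA : A.LiesOverPrime r) (σ : GQ) : ∃ τ ∈ A.inertiaSubgroupIn ℚ, σ * τ⁻¹ ∈ fixMu r := by
  have : Fact r.Prime := ⟨hr⟩
  obtain ⟨μ, hμ⟩ := exists_primitiveRoot_Qb hr.ne_zero
  set χ := hμ.autToPow ℚ with hχ
  let H : Subgroup GQ := ((A.inertiaSubgroupIn ℚ).map χ).comap χ
  have : H.Normal := Subgroup.Normal.comap (Subgroup.normal_of_isMulCommutative _) χ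
  have hfix : fixMu r ≤ H := by
    intro κ hκ
    rw [Subgroup.mem_comap, (mem_fixMu_iff_autToPow hμ κ).mp hκ]
    exact Subgroup.one_mem _
  have hH : H = ⊤ := by
    apply S13.eq_top_of_inertia_le
    · refine ⟨IntermediateField.adjoin ℚ {μ}, ?_, ?_⟩
      · exact IntermediateField.adjoin.finiteDimensional
          ((hμ.isIntegral hr.pos).tower_top (A := ℚ))
      · intro κ hκ
        apply hfix
        intro ζ hζ
        obtain ⟨i, -, rfl⟩ := hμ.eq_pow_of_pow_eq_one hζ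
        rw [map_pow]
        congr 1
        exact (IntermediateField.mem_fixingSubgroup_iff _ _).mp hκ μ
          (IntermediateField.mem_adjoin_simple_self ℚ μ)
    · intro ℓ hℓ
      by_cases hℓr : ℓ = r
      · subst hℓr
        exact ⟨A, hA, fun τ hτ => Subgroup.mem_comap.mpr (Subgroup.mem_map_of_mem χ hτ)⟩
      · obtain ⟨B, hB⟩ := S13.exists_place ℓ hℓ
        have : Fact ℓ.Prime := ⟨hℓ⟩
        refine ⟨B, hB, fun τ hτ => hfix fun ζ hζ => ?_⟩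
        exact FLAT.inertia_apply_eq_of_pow_eq_one hB ((Nat.coprime_primes hℓ hr).mpr hℓr) hζ hτ
  have hσ : σ ∈ H := by rw [hH]; trivial
  obtain ⟨τ, hτ, hτσ⟩ := Subgroup.mem_map.mp (Subgroup.mem_comap.mp hσ)
  refine ⟨τ, hτ, ?_⟩
  rw [mem_fixMu_iff_autToPow hμ, map_mul, map_inv, ← hχ, hτσ, mul_inv_cancel]

variable {X : Type} [AddCommGroup X] {r N : ℕ} {Ar AN : ValuationSubring Qb}
  {act : GQ →* AddMonoid.End X} {X0 Xf : AddSubgroup X}

/-- **[LINE]** for admissible modules. -/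
theorem Adm.exists_line (hr : r.Prime) (h : Adm r N Ar AN act X0 Xf) [Nontrivial X] :
    ∃ F : AddSubgroup X, Nat.card F = r ∧ ∀ σ : GQ, ∀ v ∈ F, act σ v ∈ F := by
  have := h.finite
  exact exists_stable_line hr h.rgroup act (fixMu r) (fun g hg => h.unip g hg)
    (commutator_mem_fixMu hr.ne_zero) (pow_mem_fixMu hr)

/-- `fixMu r` acts trivially on a stable line. -/
theorem Adm.act_eq_of_mem_fixMu (hr : r.Prime) (h : Adm r N Ar AN act X0 Xf) {F : AddSubgroup X}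
    (hF : Nat.card F = r) (hst : ∀ σ : GQ, ∀ v ∈ F, act σ v ∈ F) {σ : GQ} (hσ : σ ∈ fixMu r) :
    ∀ v ∈ F, act σ v = v := by
  obtain ⟨n, hn⟩ := h.unip σ hσ
  refine eq_self_of_pow_of_card_eq hr F hF (act σ) (hst σ) (n := n) (fun v _ => ?_)
  rw [← map_pow]
  exact hn v

/-- a stable line in `X0` is `μ_r` : every character is `G_ℚ`-equivariant on it. -/
theorem Adm.char_equivariant_of_le (hr : r.Prime) (hAr : Ar.LiesOverPrime r)
    (h : Adm r N Ar AN act X0 Xf) {F : AddSubgroup X} (hF : Nat.card F = r)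
    (hst : ∀ σ : GQ, ∀ v ∈ F, act σ v ∈ F) (hF0 : F ≤ X0) (lam : AddChar X Qb) (σ : GQ) :
    ∀ v ∈ F, lam (act σ v) = σ (lam v) := by
  intro v hv
  obtain ⟨τ, hτ, hκ⟩ := exists_inertia_mul_mem_fixMu hr hAr σ
  have hσ : σ = (σ * τ⁻¹) * τ := by rw [inv_mul_cancel_right]
  have hrv : r • v = 0 := by
    have h1 : r • (⟨v, hv⟩ : F) = 0 := by
      rw [← hF]
      exact card_nsmul_eq_zero'
    exact congrArg Subtype.val h1
  have hlam : (τ (lam v)) ^ r = 1 := by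
    rw [← map_pow, ← AddChar.map_nsmul_eq_pow, hrv, AddChar.map_zero_eq_one, map_one]
  have h1 : act σ v = act τ v := by
    conv_lhs => rw [hσ, map_mul]
    exact h.act_eq_of_mem_fixMu hr hF hst hκ _ (hst τ v hv)
  have h2 : σ (lam v) = τ (lam v) := by
    conv_lhs => rw [hσ, AlgEquiv.mul_apply]
    exact hκ _ hlam
  rw [h1, h2]
  exact h.mult τ hτ v (hF0 hv) lam

/-- a stable line meeting `X0` trivially is `ℤ/r` : `G_ℚ` acts trivially on it. -/
theorem Adm.act_eq_of_inf_eq_bot (hr : r.Prime) (hAr : Ar.LiesOverPrime r)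
    (h : Adm r N Ar AN act X0 Xf) {F : AddSubgroup X} (hF : Nat.card F = r)
    (hst : ∀ σ : GQ, ∀ v ∈ F, act σ v ∈ F) (hF0 : F ⊓ X0 = ⊥) (σ : GQ) :
    ∀ v ∈ F, act σ v = v := by
  intro v hv
  obtain ⟨τ, hτ, hκ⟩ := exists_inertia_mul_mem_fixMu hr hAr σ
  have hσ : σ = (σ * τ⁻¹) * τ := by rw [inv_mul_cancel_right]
  have h1 : act τ v = v := by
    have h2 : act τ v - v ∈ F ⊓ X0 := ⟨F.sub_mem (hst τ v hv) hv, h.conn τ hτ v⟩
    rw [hF0, AddSubgroup.mem_bot] at h2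
    exact sub_eq_zero.mp h2
  conv_lhs => rw [hσ, map_mul]
  change act (σ * τ⁻¹) (act τ v) = v
  rw [h1]
  exact h.act_eq_of_mem_fixMu hr hF hst hκ v hv

end Fermat.Agent.MAZ
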