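import Fermat.Agent.MAZ.Abs.Ext
import Fermat.Agent.MAZ.Abs.Tame
import Fermat.Agent.MAZ.Loc.Main

/-!
# MAZ / Abs / (JAC) : the `J`-level master statement of (FIN)

`J` : an abelian group with `G_ℚ`-action (`= J₀(N)(ℚ̄)`), `ε` an equivariant endomorphism, idempotent on `J[r^k]`
(`= ∏_{ℓ ∈ S_k} (1 - η_ℓ^M)`, `η_ℓ = T_ℓ - 1 - ℓ`), `V = epsTors (r^k) ε = ε J[r^k]`, `S ≤ J[r^k]` a stable subgroup in perfect
duality with `V` under the Weil pairing `w` (`S = (ker ε)^⊥`).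

`JacHyp` = the list of geometric inputs:
* `smooth`, `fin` ;
* `unr`   [UNR-W]  : division points of rational points are unramified outside `r N` ;
* `unip`  [ES-Q]   : `σ` fixing `μ_r` acts on `V` with `r`-power order ;
* `unipN` [UNIP-W] : `(σ' - 1)(σ - 1) z = 0` for `σ, σ' ∈ I_N`, `r^k z ∈ J(ℚ)` ;
* `hopfX`, `hopfS` : Hopf orders over `ℤ_(r)` on the extension `X = V × ℤ/r^k` (twisted by the Kummer cocycle) and on `S`.

CONCLUSION `JacHyp.decomp` : `ε y ∈ J(ℚ)[r^c] + r^(k-c) J(ℚ)` for `y = r^k z₀ ∈ J(ℚ)`, `c = 1 + a + b + a`,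
`#J(ℚ)[r^k] ≤ r^a`, `#J[r] ≤ r^b`.
-/

set_option autoImplicit false

noncomputable section

namespace Fermat.Agent.MAZ

open Fermat.Agent.FLAT (Qb GQ Zl IsHopfOrder)


section JacAux

variable {J : Type} [AddCommGroup J]

/-- a common field of definition of finitely many elements. -/
theorem jac_exists_field {actJ : GQ →* AddMonoid.End J}
    (hsm : ∀ z : J, ∃ L : IntermediateField ℚ Qb, FiniteDimensional ℚ L ∧
      ∀ σ : GQ, (∀ y ∈ L, σ y = y) → actJ σ z = z) {T : Set J} (hT : T.Finite) :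
    ∃ L : IntermediateField ℚ Qb, FiniteDimensional ℚ L ∧
      ∀ σ : GQ, (∀ y ∈ L, σ y = y) → ∀ z ∈ T, actJ σ z = z := by
  choose L hL hLs using hsm
  have := hT.to_subtype
  have : ∀ z : T, FiniteDimensional ℚ (L z) := fun z => hL z
  refine ⟨⨆ z : T, L z, IntermediateField.finiteDimensional_iSup_of_finite,
    fun σ hσ z hz => hLs z σ fun y hy => hσ y ?_⟩
  exact (le_iSup (fun z : T => L z) ⟨z, hz⟩) hy

theorem jac_act_mul (act : GQ →* AddMonoid.End J) (σ τ : GQ) (x : J) :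
    act (σ * τ) x = act σ (act τ x) := by
  rw [map_mul]; rfl

theorem jac_act_one (act : GQ →* AddMonoid.End J) (x : J) : act 1 x = x := by
  rw [map_one]; rfl

theorem jac_act_pow_fix (act : GQ →* AddMonoid.End J) {σ : GQ} {x : J} (h : act σ x = x) (n : ℕ) :
    act (σ ^ n) x = x := by
  induction n with
  | zero => rw [pow_zero, jac_act_one]
  | succ n ih => rw [pow_succ', jac_act_mul, ih, h]

/-- `(σ - 1)^2 z = 0 ⟹ σ^i z = z + i (σ - 1) z`. -/
theorem jac_act_pow_of_sq (act : GQ →* AddMonoid.End J) {σ : GQ} {z : J}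
    (h : act σ (act σ z - z) = act σ z - z) (i : ℕ) :
    act (σ ^ i) z = z + i • (act σ z - z) := by
  induction i with
  | zero => rw [pow_zero, jac_act_one, zero_smul, add_zero]
  | succ n ih =>
    rw [pow_succ', jac_act_mul, ih, map_add, map_nsmul, h, succ_nsmul]
    abel

theorem jac_pow_fix {σ : GQ} {x : Qb} (h : σ x = x) (n : ℕ) : (σ ^ n) x = x := by
  induction n with
  | zero => rw [pow_zero]; rfl
  | succ n ih => rw [pow_succ', AlgEquiv.mul_apply, ih, h]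

/-- `σ` trivial on `μ_r` ⟹ `σ ^ r ^ j` trivial on `μ_{r^j}`. -/
theorem jac_fix_roots {r : ℕ} {σ : GQ} (hσ : ∀ ζ : Qb, ζ ^ r = 1 → σ ζ = ζ) (j : ℕ) :
    ∀ ζ : Qb, ζ ^ r ^ j = 1 → (σ ^ r ^ j) ζ = ζ := by
  by_cases hr : r = 0
  · intro ζ _
    exact jac_pow_fix (hσ ζ (by rw [hr, pow_zero])) _
  induction j with
  | zero =>
    intro ζ hζ
    rw [pow_zero, pow_one] at hζ
    rw [hζ, map_one]
  | succ j ih =>
    intro ζ hζ
    set τ : GQ := σ ^ r ^ j with hτ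
    have hζ0 : ζ ≠ 0 := by
      rintro rfl
      rw [zero_pow (pow_ne_zero _ hr)] at hζ
      exact zero_ne_one hζ
    have h1 : τ (ζ ^ r) = ζ ^ r := ih _ (by rw [← pow_mul, ← pow_succ']; exact hζ)
    set η : Qb := τ ζ / ζ with hη
    have hηr : η ^ r = 1 := by
      rw [hη, div_pow, ← map_pow, h1, div_self (pow_ne_zero _ hζ0)]
    have hτη : τ η = η := jac_pow_fix (hσ η hηr) _
    have hτζ : τ ζ = η * ζ := by rw [hη, div_mul_cancel₀ _ hζ0]
    have h2 : ∀ i : ℕ, (τ ^ i) ζ = η ^ i * ζ := by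
      intro i
      induction i with
      | zero => rw [pow_zero, pow_zero, one_mul]; rfl
      | succ i ihi =>
        rw [pow_succ', AlgEquiv.mul_apply, ihi, map_mul, map_pow, hτη, hτζ]
        ring
    have h3 : σ ^ r ^ (j + 1) = τ ^ r := by rw [hτ, ← pow_mul, ← pow_succ]
    rw [h3, h2, hηr, one_mul]

end JacAux

section PairAux

variable {V Vs : Type} [AddCommGroup V] [AddCommGroup Vs] {actV : GQ →* AddMonoid.End V}
  {acts : GQ →* AddMonoid.End Vs} {e : V → Vs → Qb}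

theorem IsPerfPair.jac_zero_left (P : IsPerfPair actV acts e) (y : Vs) : e 0 y = 1 := by
  have h := P.add_left 0 0 y
  rw [add_zero] at h
  exact (mul_eq_left₀ (P.ne_zero 0 y)).1 h.symm

theorem IsPerfPair.jac_nsmul_left (P : IsPerfPair actV acts e) (n : ℕ) (x : V) (y : Vs) :
    e (n • x) y = e x y ^ n := by
  induction n with
  | zero => rw [zero_smul, pow_zero, P.jac_zero_left]
  | succ n ih => rw [succ_nsmul, P.add_left, ih, pow_succ]

theorem IsPerfPair.jac_sub_right (P : IsPerfPair actV acts e) (x : V) (y y' : Vs)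
    (h : e x y = e x y') : e x (y - y') = 1 := by
  have h1 := P.add_right x (y - y') y'
  rw [sub_add_cancel, h] at h1
  exact (mul_eq_right₀ (P.ne_zero x y')).1 h1.symm

end PairAux

/-- the geometric inputs of (FIN) at level `r ^ k`. -/
structure JacHyp (r N : ℕ) (Ar AN : ValuationSubring Qb) {J : Type} [AddCommGroup J]
    (actJ : GQ →* AddMonoid.End J) (k : ℕ) [NeZero (r ^ k)] (ε : AddMonoid.End J)
    (S : AddSubgroup J) (w : J → J → Qb) : Prop where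
  comm : ∀ (σ : GQ) (x : J), ε (actJ σ x) = actJ σ (ε x)
  idem : ∀ x : J, r ^ k • x = 0 → ε (ε x) = ε x
  fin : {x : J | r ^ k • x = 0}.Finite
  smooth : ∀ z : J, ∃ L : IntermediateField ℚ Qb, FiniteDimensional ℚ L ∧
    ∀ σ : GQ, (∀ y ∈ L, σ y = y) → actJ σ z = z
  unr : ∀ q : ℕ, q.Prime → q ≠ r → q ≠ N → ∃ B : ValuationSubring Qb, B.LiesOverPrime q ∧
    ∀ σ ∈ B.inertiaSubgroupIn ℚ, ∀ z : J, (∀ τ : GQ, actJ τ (r ^ k • z) = r ^ k • z) →
      actJ σ z = z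
  S_tors : ∀ s ∈ S, r ^ k • s = 0
  S_stable : ∀ σ : GQ, ∀ s ∈ S, actJ σ s ∈ S
  pair : IsPerfPair (epsAct comm) (subAct actJ S S_stable)
    (fun (v : epsTors (r ^ k) ε) (s : S) => w v s)
  unip : ∀ σ : GQ, (∀ ζ : Qb, ζ ^ r = 1 → σ ζ = ζ) →
    ∃ m : ℕ, ∀ v ∈ epsTors (r ^ k) ε, actJ (σ ^ r ^ m) v = v
  unipN : ∀ σ ∈ AN.inertiaSubgroupIn ℚ, ∀ σ' ∈ AN.inertiaSubgroupIn ℚ, ∀ z : J,
    (∀ τ : GQ, actJ τ (r ^ k • z) = r ^ k • z) → actJ σ' (actJ σ z - z) = actJ σ z - z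
  hopfX : ∀ (z0 : J) (hz0 : ∀ σ : GQ, actJ σ (r ^ k • z0) = r ^ k • z0),
    ∃ H : Subalgebra (Zl r) ((epsTors (r ^ k) ε × ZMod (r ^ k)) → Qb),
      IsHopfOrder r (extAct (r ^ k) (epsAct comm) (epsCoc idem hz0) nsmul_epsTors
        (epsCoc_mul comm idem hz0)) H
  hopfS : ∃ H : Subalgebra (Zl r) (S → Qb), IsHopfOrder r (subAct actJ S S_stable) H

variable {r N : ℕ} {Ar AN : ValuationSubring Qb} {J : Type} [AddCommGroup J]
  {actJ : GQ →* AddMonoid.End J} {k : ℕ} [NeZero (r ^ k)] {ε : AddMonoid.End J}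
  {S : AddSubgroup J} {w : J → J → Qb}

/-- the action on the extension attached to `z0`. -/
abbrev JacHyp.actX (h : JacHyp r N Ar AN actJ k ε S w) {z0 : J}
    (hz0 : ∀ σ : GQ, actJ σ (r ^ k • z0) = r ^ k • z0) :
    GQ →* AddMonoid.End (epsTors (r ^ k) ε × ZMod (r ^ k)) :=
  extAct (r ^ k) (epsAct h.comm) (epsCoc h.idem hz0) nsmul_epsTors (epsCoc_mul h.comm h.idem hz0)


theorem JacHyp.rat_zero (_h : JacHyp r N Ar AN actJ k ε S w) {z : J} (hz : r ^ k • z = 0) :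
    ∀ τ : GQ, actJ τ (r ^ k • z) = r ^ k • z := fun τ => by rw [hz, map_zero]

theorem JacHyp.finite_V (h : JacHyp r N Ar AN actJ k ε S w) : Finite (epsTors (r ^ k) ε) :=
  (h.fin.subset (fun x (hx : x ∈ epsTors (r ^ k) ε) => hx.1)).to_subtype

theorem JacHyp.finite_S (h : JacHyp r N Ar AN actJ k ε S w) : Finite S :=
  (h.fin.subset (fun x (hx : x ∈ S) => h.S_tors x hx)).to_subtype

/-- an element fixing `V` and `z0` acts trivially on `X`. -/
theorem JacHyp.actX_eq_self (h : JacHyp r N Ar AN actJ k ε S w) {z0 : J}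
    (hz0 : ∀ σ : GQ, actJ σ (r ^ k • z0) = r ^ k • z0) {σ : GQ}
    (hV : ∀ v ∈ epsTors (r ^ k) ε, actJ σ v = v) (hz : actJ σ z0 = z0)
    (x : epsTors (r ^ k) ε × ZMod (r ^ k)) : h.actX hz0 σ x = x := by
  rw [extAct_apply]
  have h1 : epsCoc h.idem hz0 σ = 0 := by
    apply Subtype.ext
    change ε (actJ σ z0 - z0) = 0
    rw [hz, sub_self, map_zero]
  have h2 : epsAct h.comm σ x.1 = x.1 := Subtype.ext (hV x.1 x.1.2)
  rw [h1, h2, smul_zero, add_zero]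

theorem JacHyp.smoothX (h : JacHyp r N Ar AN actJ k ε S w) {z0 : J}
    (hz0 : ∀ σ : GQ, actJ σ (r ^ k • z0) = r ^ k • z0) :
    ∃ L : IntermediateField ℚ Qb, FiniteDimensional ℚ L ∧
      ∀ σ : GQ, (∀ y ∈ L, σ y = y) → ∀ x, h.actX hz0 σ x = x := by
  obtain ⟨L, hL, hLs⟩ := jac_exists_field h.smooth (h.fin.insert z0)
  exact ⟨L, hL, fun σ hσ x => h.actX_eq_self hz0
    (fun v hv => hLs σ hσ v (Set.mem_insert_of_mem _ hv.1)) (hLs σ hσ z0 (Set.mem_insert _ _)) x⟩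

theorem JacHyp.smoothS (h : JacHyp r N Ar AN actJ k ε S w) :
    ∃ L : IntermediateField ℚ Qb, FiniteDimensional ℚ L ∧
      ∀ σ : GQ, (∀ y ∈ L, σ y = y) → ∀ x, subAct actJ S h.S_stable σ x = x := by
  obtain ⟨L, hL, hLs⟩ := jac_exists_field h.smooth h.fin
  exact ⟨L, hL, fun σ hσ x => Subtype.ext (hLs σ hσ x (h.S_tors x x.2))⟩

/-- if `g` is trivial on `V` then `g ^ r ^ k` is trivial on `X`. -/
theorem JacHyp.actX_pow_eq_self (h : JacHyp r N Ar AN actJ k ε S w) {z0 : J}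
    (hz0 : ∀ σ : GQ, actJ σ (r ^ k • z0) = r ^ k • z0) {g : GQ}
    (hV : ∀ v ∈ epsTors (r ^ k) ε, actJ g v = v)
    (x : epsTors (r ^ k) ε × ZMod (r ^ k)) : h.actX hz0 (g ^ r ^ k) x = x := by
  have h2 : ∀ v : epsTors (r ^ k) ε, epsAct h.comm g v = v := fun v => Subtype.ext (hV v v.2)
  have key : ∀ i : ℕ, h.actX hz0 (g ^ i) x = (x.1 + i • (x.2.val • epsCoc h.idem hz0 g), x.2) := by
    intro i
    induction i with
    | zero => rw [pow_zero, jac_act_one, zero_smul, add_zero]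
    | succ i ih =>
      rw [pow_succ', jac_act_mul, ih, extAct_apply, h2, succ_nsmul, add_assoc]
  rw [key, nsmul_epsTors, add_zero]

/-- **[JAC-X]** admissibility of the extension.
(`adm_of_isHopfOrder`; finiteness from `fin`; `(U)` : if `g = σ ^ r ^ m` is trivial on `V` then
`g ^ i (v, j) = (v + (i j) κ g, j)`, so `σ ^ r ^ (m + k)` is trivial on `X`; smooth: compositum of the fields of the
finitely many `v ∈ V` and of `z0`; unramified: `unr` for `v` and `z0`.) -/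
theorem JacHyp.admX [Fact r.Prime] (hAr : Ar.LiesOverPrime r) (h : JacHyp r N Ar AN actJ k ε S w)
    {z0 : J} (hz0 : ∀ σ : GQ, actJ σ (r ^ k • z0) = r ^ k • z0) :
    ∃ Y : AddSubgroup (epsTors (r ^ k) ε × ZMod (r ^ k)),
      Adm r N Ar AN (h.actX hz0) Y (invI AN (h.actX hz0)) := by
  obtain ⟨H, hH⟩ := h.hopfX z0 hz0
  have := h.finite_V
  refine ⟨conn Ar H, adm_of_isHopfOrder hAr hH (fun v => ⟨k, ?_⟩) (h.smoothX hz0) ?_ ?_ _
    (fun σ hσ v hv => hv σ hσ)⟩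
  · refine Prod.ext (nsmul_epsTors _) ?_
    change r ^ k • v.2 = 0
    rw [nsmul_eq_mul, ZMod.natCast_self, zero_mul]
  · intro q hq hqr hqN
    obtain ⟨B, hB, hBs⟩ := h.unr q hq hqr hqN
    exact ⟨B, hB, fun σ hσ x => h.actX_eq_self hz0
      (fun v hv => hBs σ hσ v (h.rat_zero hv.1)) (hBs σ hσ z0 hz0) x⟩
  · intro σ hσ
    obtain ⟨m, hm⟩ := h.unip σ hσ
    refine ⟨m + k, fun x => ?_⟩
    rw [pow_add, pow_mul]
    exact h.actX_pow_eq_self hz0 hm x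

/-- **[JAC-S]** admissibility of `S`.
(`(U)` by duality: let `σ` fix `μ_r`; `g = σ ^ r ^ m` with `m` large is trivial on `V` and on `μ_{r^k}`
(`χ(σ) ≡ 1 mod r ⟹ χ(σ)^(r^(k-1)) ≡ 1 mod r^k`), so `w v (g s) = g (w (g⁻¹ v) s) = w v s` for all `v`, so `g s = s`.) -/
theorem JacHyp.admS [Fact r.Prime] (hAr : Ar.LiesOverPrime r) (h : JacHyp r N Ar AN actJ k ε S w) :
    ∃ Ws : AddSubgroup S,
      Adm r N Ar AN (subAct actJ S h.S_stable) Ws (invI AN (subAct actJ S h.S_stable)) := by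
  obtain ⟨H, hH⟩ := h.hopfS
  have := h.finite_S
  refine ⟨conn Ar H, adm_of_isHopfOrder hAr hH (fun v => ⟨k, Subtype.ext (h.S_tors v v.2)⟩)
    h.smoothS ?_ ?_ _ (fun σ hσ v hv => hv σ hσ)⟩
  · intro q hq hqr hqN
    obtain ⟨B, hB, hBs⟩ := h.unr q hq hqr hqN
    exact ⟨B, hB, fun σ hσ x => Subtype.ext (hBs σ hσ x (h.rat_zero (h.S_tors x x.2)))⟩
  · intro σ hσ
    obtain ⟨m, hm⟩ := h.unip σ hσ
    refine ⟨m + k, fun s => ?_⟩
    set g : GQ := σ ^ r ^ (m + k) with hg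
    have hgV : ∀ v : epsTors (r ^ k) ε, epsAct h.comm g v = v := by
      intro v
      apply Subtype.ext
      change actJ g v = v
      rw [hg, pow_add, pow_mul]
      exact jac_act_pow_fix actJ (hm v v.2) _
    have hgμ : ∀ ζ : Qb, ζ ^ r ^ k = 1 → g ζ = ζ := by
      intro ζ hζ
      rw [hg, pow_add, mul_comm, pow_mul]
      exact jac_pow_fix (jac_fix_roots hσ k ζ hζ) _
    rw [← sub_eq_zero]
    refine h.pair.nondeg_right _ fun v => h.pair.jac_sub_right _ _ _ ?_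
    have h1 := h.pair.equivariant g v s
    rw [hgV] at h1
    rw [h1]
    refine hgμ _ ?_
    rw [← h.pair.jac_nsmul_left, nsmul_epsTors, h.pair.jac_zero_left]

/-- **[JAC-N]** the conditions at `N`.
(`exists_tame_generator` for `ρ = ((h.actX hz0).prod (subAct ..)).toHomUnits`; `unipN` gives `(σ - 1)^2 = 0`, so
`σ ^ r ^ k = 1 + r ^ k (σ - 1) = 1` on `X` and on `S`.) -/
theorem JacHyp.exists_tau0 (hr : r.Prime) (hN : N.Prime) (hrN : r ≠ N) (hAN : AN.LiesOverPrime N)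
    (h : JacHyp r N Ar AN actJ k ε S w) {z0 : J}
    (hz0 : ∀ σ : GQ, actJ σ (r ^ k • z0) = r ^ k • z0) :
    ∃ τ0 ∈ AN.inertiaSubgroupIn ℚ,
      (∀ (v : epsTors (r ^ k) ε) (m : ℕ), epsAct h.comm τ0 v + m • epsCoc h.idem hz0 τ0 = v →
        ∀ σ ∈ AN.inertiaSubgroupIn ℚ, epsAct h.comm σ v + m • epsCoc h.idem hz0 σ = v) ∧
      (∀ y : S, subAct actJ S h.S_stable τ0 y = y → y ∈ invI AN (subAct actJ S h.S_stable)) ∧
      (∀ v : epsTors (r ^ k) ε, epsAct h.comm τ0 v - v ∈ invI AN (epsAct h.comm)) ∧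
      epsCoc h.idem hz0 τ0 ∈ invI AN (epsAct h.comm) := by
  -- `σ ^ r ^ k` fixes every division point of a rational point
  have hpow : ∀ σ ∈ AN.inertiaSubgroupIn ℚ, ∀ z : J,
      (∀ τ : GQ, actJ τ (r ^ k • z) = r ^ k • z) → actJ (σ ^ r ^ k) z = z := by
    intro σ hσ z hz
    rw [jac_act_pow_of_sq actJ (h.unipN σ hσ σ hσ z hz), smul_sub, ← map_nsmul, hz, sub_self,
      add_zero]
  set ρ : GQ →* (AddMonoid.End (epsTors (r ^ k) ε × ZMod (r ^ k)))ˣ × (AddMonoid.End S)ˣ :=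
    (h.actX hz0).toHomUnits.prod (subAct actJ S h.S_stable).toHomUnits with hρ
  have hρ1 : ∀ σ : GQ, ρ σ = 1 ↔ (∀ x, h.actX hz0 σ x = x) ∧
      ∀ x, subAct actJ S h.S_stable σ x = x := by
    intro σ
    rw [hρ, MonoidHom.prod_apply, Prod.mk_eq_one, Units.ext_iff, Units.ext_iff,
      MonoidHom.coe_toHomUnits, MonoidHom.coe_toHomUnits, Units.val_one, Units.val_one]
    constructor
    · rintro ⟨h1, h2⟩
      exact ⟨fun x => by rw [h1]; rfl, fun x => by rw [h2]; rfl⟩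
    · rintro ⟨h1, h2⟩
      exact ⟨AddMonoidHom.ext h1, AddMonoidHom.ext h2⟩
  have hsm : ∃ L : IntermediateField ℚ Qb, FiniteDimensional ℚ L ∧
      ∀ σ : GQ, (∀ y ∈ L, σ y = y) → ρ σ = 1 := by
    obtain ⟨L1, hL1, h1⟩ := h.smoothX hz0
    obtain ⟨L2, hL2, h2⟩ := h.smoothS
    refine ⟨L1 ⊔ L2, IntermediateField.finiteDimensional_sup L1 L2, fun σ hσ => (hρ1 σ).2
      ⟨h1 σ fun y hy => hσ y ((le_sup_left : L1 ≤ L1 ⊔ L2) hy),
        h2 σ fun y hy => hσ y ((le_sup_right : L2 ≤ L1 ⊔ L2) hy)⟩⟩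
  have hp : ∀ σ ∈ AN.inertiaSubgroupIn ℚ, ∃ j : ℕ, ρ σ ^ r ^ j = 1 := by
    intro σ hσ
    refine ⟨k, ?_⟩
    rw [← map_pow, hρ1]
    exact ⟨fun x => h.actX_eq_self hz0 (fun v hv => hpow σ hσ v (h.rat_zero hv.1))
      (hpow σ hσ z0 hz0) x, fun x => Subtype.ext (hpow σ hσ x (h.rat_zero (h.S_tors x x.2)))⟩
  obtain ⟨τ0, hτ0, hgen⟩ := exists_tame_generator hN hr hrN hAN ρ hsm hp
  have hgenX : ∀ σ ∈ AN.inertiaSubgroupIn ℚ, ∀ x, h.actX hz0 τ0 x = x → h.actX hz0 σ x = x := by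
    intro σ hσ x hx
    obtain ⟨i, hi⟩ := hgen σ hσ
    rw [← map_pow] at hi
    have h1 : h.actX hz0 σ = h.actX hz0 (τ0 ^ i) := by
      have := congrArg (fun u => (u.1 : AddMonoid.End (epsTors (r ^ k) ε × ZMod (r ^ k)))) hi
      exact this
    rw [h1]
    exact jac_act_pow_fix _ hx i
  have hgenS : ∀ σ ∈ AN.inertiaSubgroupIn ℚ, ∀ x, subAct actJ S h.S_stable τ0 x = x →
      subAct actJ S h.S_stable σ x = x := by
    intro σ hσ x hx
    obtain ⟨i, hi⟩ := hgen σ hσ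
    rw [← map_pow] at hi
    have h1 : subAct actJ S h.S_stable σ = subAct actJ S h.S_stable (τ0 ^ i) := by
      have := congrArg (fun u => (u.2 : AddMonoid.End S)) hi
      exact this
    rw [h1]
    exact jac_act_pow_fix _ hx i
  refine ⟨τ0, hτ0, ?_, fun y hy σ hσ => hgenS σ hσ y hy, ?_, ?_⟩
  · intro v m hv σ hσ
    have hval : ∀ c : epsTors (r ^ k) ε, ((m : ZMod (r ^ k))).val • c = m • c := by
      intro c
      rw [ZMod.val_natCast]
      conv_rhs => rw [← Nat.div_add_mod m (r ^ k)]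
      rw [add_nsmul, mul_nsmul', nsmul_epsTors, zero_add]
    have h1 : h.actX hz0 τ0 (v, (m : ZMod (r ^ k))) = (v, (m : ZMod (r ^ k))) := by
      rw [extAct_apply]
      exact Prod.ext (by rw [hval]; exact hv) rfl
    have h2 := congrArg Prod.fst (hgenX σ hσ _ h1)
    rw [extAct_apply] at h2
    change epsAct h.comm σ v + ((m : ZMod (r ^ k))).val • epsCoc h.idem hz0 σ = v at h2
    rwa [hval] at h2
  · intro v σ hσ
    apply Subtype.ext
    exact h.unipN τ0 hτ0 σ hσ v (h.rat_zero v.2.1)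
  · intro σ hσ
    apply Subtype.ext
    change actJ σ (ε (actJ τ0 z0 - z0)) = ε (actJ τ0 z0 - z0)
    rw [← h.comm, h.unipN τ0 hτ0 σ hσ z0 hz0]

/-- **[JAC-B]** the three cardinality bounds. -/
theorem JacHyp.bounds (h : JacHyp r N Ar AN actJ k ε S w) {a b : ℕ}
    (ha : ∀ T : AddSubgroup J, (∀ t ∈ T, r ^ k • t = 0 ∧ ∀ σ : GQ, actJ σ t = t) →
      Nat.card T ≤ r ^ a)
    (hb : ∀ T : AddSubgroup J, (∀ t ∈ T, r • t = 0) → Nat.card T ≤ r ^ b) :
    Nat.card (fixedIn (subAct actJ S h.S_stable) ⊤) ≤ r ^ a ∧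
      Nat.card (fixedIn (epsAct (n := r ^ k) h.comm) ⊤) ≤ r ^ a ∧
      Nat.card (nsmulAddMonoidHom (α := S) r).ker ≤ r ^ b := by
  refine ⟨?_, ?_, ?_⟩
  · rw [← AddSubgroup.card_map_of_injective (f := S.subtype) S.subtype_injective]
    refine ha _ ?_
    rintro _ ⟨t, ht, rfl⟩
    exact ⟨h.S_tors t t.2, fun σ => congrArg Subtype.val (ht.2 σ)⟩
  · rw [← AddSubgroup.card_map_of_injective (f := (epsTors (r ^ k) ε).subtype)
      (epsTors (r ^ k) ε).subtype_injective]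
    refine ha _ ?_
    rintro _ ⟨t, ht, rfl⟩
    exact ⟨t.2.1, fun σ => congrArg Subtype.val (ht.2 σ)⟩
  · rw [← AddSubgroup.card_map_of_injective (f := S.subtype) S.subtype_injective]
    refine hb _ ?_
    rintro _ ⟨t, ht, rfl⟩
    exact congrArg Subtype.val (AddMonoidHom.mem_ker.1 ht)

/-- **(JAC)** -/
theorem JacHyp.decomp [Fact r.Prime] (hN : N.Prime) (hrN : r ≠ N) (hAr : Ar.LiesOverPrime r)
    (hAN : AN.LiesOverPrime N) (h : JacHyp r N Ar AN actJ k ε S w) {a b : ℕ}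
    (ha : ∀ T : AddSubgroup J, (∀ t ∈ T, r ^ k • t = 0 ∧ ∀ σ : GQ, actJ σ t = t) →
      Nat.card T ≤ r ^ a)
    (hb : ∀ T : AddSubgroup J, (∀ t ∈ T, r • t = 0) → Nat.card T ≤ r ^ b)
    (hk : 1 + a + b + a ≤ k) {z0 : J} (hz0 : ∀ σ : GQ, actJ σ (r ^ k • z0) = r ^ k • z0) :
    ∃ p t : J, (∀ σ : GQ, actJ σ p = p) ∧ (∀ σ : GQ, actJ σ t = t) ∧
      r ^ (1 + a + b + a) • t = 0 ∧ ε (r ^ k • z0) = t + r ^ (k - (1 + a + b + a)) • p := by
  have hr : r.Prime := Fact.out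
  obtain ⟨Y, hY⟩ := h.admX hAr hz0
  obtain ⟨Ws, hWs⟩ := h.admS hAr
  obtain ⟨τ0, hτ0, h1, h2, h3, h4⟩ := h.exists_tau0 hr hN hrN hAN hz0
  obtain ⟨hb1, hb2, hb3⟩ := h.bounds ha hb
  have D := finData_ext (N := N) (Ar := Ar) (AN := AN) nsmul_epsTors
    (epsCoc_mul h.comm h.idem hz0) hY hWs h.pair hτ0 h1 h2 h3 h4
  obtain ⟨x, hx, hx'⟩ := D.exists_fixed hr hN hrN hAr hAN hb1 hb2 hb3
  exact exists_decomp_of_fixed hr.one_lt hk h.comm h.idem hz0 hx hx'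

end Fermat.Agent.MAZ
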