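import Fermat.Agent.MAZ.Abs.Line

/-!
# MAZ / Abs / [ETALE] : the step of (COUNT) for a line `F ≅ ℤ/r`

RECIPE.  `w ∈ preFix act F Xf`.  `G_ℚ` acts trivially on `F` (`Adm.act_eq_of_inf_eq_bot`), so
`c : σ ↦ act σ w - w` is a homomorphism `G_ℚ → F` (write it as `GQ →* Multiplicative F`).  It is
trivial on an open subgroup (`h.smooth`), on the inertia at `q ∉ {r, N}` (`h.unram`), at `N`
(`w ∈ Xf`, `h.fixN`) and at `r` (`h.conn` : `c σ ∈ X0 ⊓ F = ⊥`).  Minkowski:
`S13.hom_eq_one_of_unramified`.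
-/

set_option autoImplicit false

noncomputable section

namespace Fermat.Agent.MAZ

open Fermat.Agent.FLAT (Qb GQ)

variable {X : Type} [AddCommGroup X] {r N : ℕ} {Ar AN : ValuationSubring Qb}
  {act : GQ →* AddMonoid.End X} {X0 Xf : AddSubgroup X}

/-- **[ETALE]** -/
theorem Adm.preFix_le_fixedIn (hr : r.Prime) (hN : N.Prime) (hAr : Ar.LiesOverPrime r)
    (hAN : AN.LiesOverPrime N) (h : Adm r N Ar AN act X0 Xf) {F : AddSubgroup X}
    (hF : Nat.card F = r) (hst : ∀ σ : GQ, ∀ v ∈ F, act σ v ∈ F) (hF0 : F ⊓ X0 = ⊥) :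
    preFix act F Xf ≤ fixedIn act Xf := by
  intro w hw
  rw [mem_preFix] at hw
  obtain ⟨hwf, hwF⟩ := hw
  have htriv : ∀ σ : GQ, ∀ v ∈ F, act σ v = v := fun σ =>
    h.act_eq_of_inf_eq_bot hr hAr hF hst hF0 σ
  -- the cocycle is a homomorphism
  let χ : GQ →* Multiplicative X :=
    { toFun := fun σ => Multiplicative.ofAdd (act σ w - w)
      map_one' := by
        rw [map_one]
        show Multiplicative.ofAdd (w - w) = 1
        rw [sub_self]; rfl
      map_mul' := fun σ τ => by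
        rw [← ofAdd_add]
        congr 1
        rw [map_mul]
        show act σ (act τ w) - w = _
        have h1 : act σ (act τ w - w) = act τ w - w := htriv σ _ (hwF τ)
        rw [map_sub] at h1
        have h2 : act σ (act τ w) = act τ w - w + act σ w := by
          rw [← h1]; abel
        rw [h2]; abel }
  have hχ : ∀ σ : GQ, χ σ = 1 ↔ act σ w = w := by
    intro σ
    show Multiplicative.ofAdd (act σ w - w) = 1 ↔ _
    rw [ofAdd_eq_one, sub_eq_zero]
  refine mem_fixedIn.2 ⟨hwf, fun σ => (hχ σ).1 ?_⟩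
  refine Fermat.Agent.S13.hom_eq_one_of_unramified χ ?_ ?_ σ
  · obtain ⟨L, hL, hfix⟩ := h.smooth
    exact ⟨L, hL, fun σ hσ => (hχ σ).2 (hfix σ hσ w)⟩
  · intro ℓ hℓ
    by_cases h1 : ℓ = r
    · subst h1
      refine ⟨Ar, hAr, fun σ hσ => (hχ σ).2 ?_⟩
      have h2 : act σ w - w ∈ F ⊓ X0 := ⟨hwF σ, h.conn σ hσ w⟩
      rw [hF0, AddSubgroup.mem_bot, sub_eq_zero] at h2
      exact h2
    · by_cases h2 : ℓ = N
      · subst h2
        exact ⟨AN, hAN, fun σ hσ => (hχ σ).2 (h.fixN σ hσ w hwf)⟩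
      · obtain ⟨B, hB, hfix⟩ := h.unram ℓ hℓ h1 h2
        exact ⟨B, hB, fun σ hσ => (hχ σ).2 (hfix σ hσ w)⟩

end Fermat.Agent.MAZ
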