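import Fermat.Agent.MAZ.Abs.Line
import Fermat.Agent.CFT.Coh.H90
import Fermat.Agent.CFT.Recip.Val
import Fermat.Agent.S36.K0

/-!
# MAZ / Abs / [KUMMER] : the step of (COUNT) for a line `F ≅ μ_r`

RECIPE.  Fix a character `lam` of `X` which is injective on `F` (characters separate points:
`CommGroup.exists_apply_ne_one_of_hasEnoughRootsOfUnity`; `F` has prime order).  For
`w ∈ preFix act F Xf` put `u_w σ := lam (act σ w - w) ∈ μ_r`.
1. `u_w (σ τ) = u_w σ * σ (u_w τ)` (`Adm.char_equivariant_of_le`), `u_w` is trivial on an open normal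
   subgroup; Hilbert 90 (`CFT.hilbert90_mul`) : `u_w σ = σ b / b`, `b ≠ 0`  [`exists_kummer_gen`].
2. `a := b ^ r` is `G_ℚ`-fixed, so rational.
3. for every prime `q` there is a place `B | q` with `B.valuation b = B.valuation q ^ n`:
   `q ∉ {r, N}` : `h.unram`; `q = N` : `h.fixN`, so `b` is fixed by the inertia group
   (`S36.exists_zpow_of_inertia_fixed`); `q = r` : `h.peu w lam` gives a unit `β` with
   `σ β = u_w σ * β` on `I`, so `b / β` is inertia-fixed.
4. so `r ∣ v_q(a)` for all `q` : `a = ± c ^ r`, `c ∈ ℚ^×` [`rat_eq_pow_of_forall_dvd`]; replacing `b`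
   by `b / c` : `b ^ r = ± 1`, so `b ^ (2 r) = 1`  [`exists_root_of_unity`].
5. Let `ξ` be a primitive `2r`-th root of unity; `b = ξ ^ i`; `- 1 = ξ ^ r`, so
   `u_w σ = σ (ξ ^ j) / ξ ^ j` with `j = i % r < r`.  If `w, w'` have the same `j` then `u_w = u_w'`, so
   `act σ (w - w') = w - w'` (`lam` injective on `F`), i.e. `w - w' ∈ fixedIn act Xf`.
   So `preFix / fixedIn` injects into `Fin r`.
-/

set_option autoImplicit false

noncomputable section

namespace Fermat.Agent.MAZ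

open Fermat.Agent.FLAT (Qb GQ)

/-- Hilbert 90 over `ℚ̄ / ℚ` for cocycles which are trivial on an open subgroup. -/
theorem exists_kummer_gen (u : GQ → Qb) (hu0 : ∀ σ, u σ ≠ 0)
    (hu : ∀ σ τ : GQ, u (σ * τ) = u σ * σ (u τ))
    (hopen : ∃ L : IntermediateField ℚ Qb, FiniteDimensional ℚ L ∧
      ∀ σ : GQ, (∀ y ∈ L, σ y = y) → u σ = 1) :
    ∃ b : Qb, b ≠ 0 ∧ ∀ σ : GQ, σ b = u σ * b := by
  obtain ⟨L, hL, hL1⟩ := hopen
  have hgal := CFT.isGalois_Qb
  let L' : IntermediateField ℚ Qb := IntermediateField.normalClosure ℚ L Qb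
  have hL'fd : FiniteDimensional ℚ L' := normalClosure.is_finiteDimensional ℚ L Qb
  have hL'n : Normal ℚ L' := normalClosure.normal ℚ L Qb
  have hle : L ≤ L' := IntermediateField.le_normalClosure L
  have hN : L'.fixingSubgroup.Normal := CFT.fixingSubgroup_normal L' hL'n
  have hFI : L'.fixingSubgroup.FiniteIndex := CFT.fixingSubgroup_finiteIndex L' hL'fd
  have hmem : ∀ s : GQ, s ∈ L'.fixingSubgroup ↔ ∀ y ∈ L', s y = y := fun s =>
    IntermediateField.mem_fixingSubgroup_iff _ _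
  have h1 : ∀ s ∈ L'.fixingSubgroup, u s = 1 := fun s hs =>
    hL1 s fun y hy => (hmem s).1 hs y (hle hy)
  obtain ⟨b, hb0, -, hb⟩ := CFT.hilbert90_mul (G := GQ) (Ω := Qb) (U := L'.fixingSubgroup)
    (by
      intro g hg
      rw [hmem]
      intro y hy
      exact hg y fun s hs => (hmem s).1 hs y hy)
    u hu0 (fun g h => hu g h)
    (by
      intro g s hs
      rw [hu, h1 s hs, map_one, mul_one])
  refine ⟨b, hb0, fun σ => ?_⟩
  rw [hb σ, div_mul_cancel₀ _ hb0]
  rfl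

theorem nat_eq_pow_of_forall_dvd {r : ℕ} (hr : 0 < r) {n : ℕ} (hn : n ≠ 0)
    (h : ∀ q : ℕ, q.Prime → r ∣ n.factorization q) : ∃ c : ℕ, c ≠ 0 ∧ n = c ^ r := by
  refine ⟨Nat.floorRoot r n, Nat.floorRoot_ne_zero.2 ⟨hr.ne', hn⟩, ?_⟩
  refine Nat.eq_of_factorization_eq hn
    (pow_ne_zero _ (Nat.floorRoot_ne_zero.2 ⟨hr.ne', hn⟩)) fun q => ?_
  rw [Nat.factorization_pow, Nat.factorization_floorRoot]
  simp only [Finsupp.smul_apply, Finsupp.floorDiv_apply, smul_eq_mul, Nat.floorDiv_eq_div]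
  by_cases hq : q.Prime
  · exact (Nat.mul_div_cancel' (h q hq)).symm
  · simp [Nat.factorization_eq_zero_of_not_prime n hq]

/-- a rational number all of whose valuations are divisible by `r` is `±` an `r`-th power. -/
theorem rat_eq_pow_of_forall_dvd {r : ℕ} (hr : 0 < r) {a : ℚ} (ha : a ≠ 0)
    (h : ∀ q : ℕ, q.Prime → (r : ℤ) ∣ padicValRat q a) :
    ∃ c : ℚ, c ≠ 0 ∧ (a = c ^ r ∨ a = - c ^ r) := by
  have hnum : a.num.natAbs ≠ 0 := by
    rw [Int.natAbs_ne_zero]; exact Rat.num_ne_zero.2 ha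
  have hcop : Nat.Coprime a.num.natAbs a.den := a.reduced
  have hkey : ∀ q : ℕ, q.Prime →
      r ∣ a.num.natAbs.factorization q ∧ r ∣ a.den.factorization q := by
    intro q hq
    have hq' : Fact q.Prime := ⟨hq⟩
    have h1 := h q hq
    rw [padicValRat_def, padicValInt] at h1
    rw [Nat.factorization_def _ hq, Nat.factorization_def _ hq]
    by_cases hd : q ∣ a.den
    · have hn : ¬ q ∣ a.num.natAbs := fun hn =>
        hq.one_lt.ne' (Nat.eq_one_of_dvd_coprimes hcop hn hd)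
      rw [padicValNat.eq_zero_of_not_dvd hn] at h1 ⊢
      refine ⟨dvd_zero _, ?_⟩
      have : (r : ℤ) ∣ (padicValNat q a.den : ℤ) := by simpa using h1
      exact_mod_cast this
    · rw [padicValNat.eq_zero_of_not_dvd hd] at h1 ⊢
      refine ⟨?_, dvd_zero _⟩
      have : (r : ℤ) ∣ (padicValNat q a.num.natAbs : ℤ) := by simpa using h1
      exact_mod_cast this
  obtain ⟨c₁, hc₁, h₁⟩ := nat_eq_pow_of_forall_dvd hr hnum fun q hq => (hkey q hq).1
  obtain ⟨c₂, hc₂, h₂⟩ := nat_eq_pow_of_forall_dvd hr a.den_ne_zero fun q hq => (hkey q hq).2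
  refine ⟨(c₁ : ℚ) / c₂, div_ne_zero (by exact_mod_cast hc₁) (by exact_mod_cast hc₂), ?_⟩
  have hden : (a.den : ℚ) = (c₂ : ℚ) ^ r := by exact_mod_cast h₂
  have habs : ((a.num.natAbs : ℕ) : ℚ) = (c₁ : ℚ) ^ r := by exact_mod_cast h₁
  rw [div_pow, ← hden, ← habs]
  rcases Int.natAbs_eq a.num with h0 | h0
  · left
    conv_lhs => rw [← Rat.num_div_den a, h0]
    simp
  · right
    conv_lhs => rw [← Rat.num_div_den a, h0]
    simp [neg_div]

/-- valuations of rational numbers at a place of `ℚ̄`. -/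
theorem valuation_rat_eq_zpow {q : ℕ} (hq : q.Prime) {B : ValuationSubring Qb}
    (hB : B.LiesOverPrime q) {a : ℚ} (ha : a ≠ 0) :
    B.valuation (algebraMap ℚ Qb a) = B.valuation (q : Qb) ^ (padicValRat q a) :=
  CFT.Recip.valuation_ratCast hq hB ha

/-- global Kummer theory over `ℚ`. -/
theorem exists_root_of_unity {r : ℕ} (hr : 0 < r) {b : Qb} (hb : b ≠ 0)
    (hfix : ∀ σ : GQ, σ (b ^ r) = b ^ r)
    (hval : ∀ q : ℕ, q.Prime → ∃ B : ValuationSubring Qb, B.LiesOverPrime q ∧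
      ∃ n : ℤ, B.valuation b = B.valuation (q : Qb) ^ n) :
    ∃ (c : ℚ) (ξ : Qb), c ≠ 0 ∧ ξ ^ (2 * r) = 1 ∧ b = ξ * algebraMap ℚ Qb c := by
  have hgal := CFT.isGalois_Qb
  obtain ⟨a, ha⟩ : ∃ a : ℚ, algebraMap ℚ Qb a = b ^ r :=
    (InfiniteGalois.mem_range_algebraMap_iff_fixed (b ^ r)).2 hfix
  have ha0 : a ≠ 0 := by
    rintro rfl
    rw [map_zero] at ha
    exact pow_ne_zero r hb ha.symm
  obtain ⟨c, hc0, hc⟩ := rat_eq_pow_of_forall_dvd hr ha0 (by
    intro q hq
    obtain ⟨B, hB, n, hn⟩ := hval q hq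
    have h1 := valuation_rat_eq_zpow hq hB ha0
    rw [ha, map_pow, hn, ← zpow_natCast, ← zpow_mul] at h1
    have h2 : n * (r : ℤ) = padicValRat q a :=
      Bridge.zpow_valuation_natCast_injective hq hB h1
    exact ⟨n, by rw [← h2, mul_comm]⟩)
  have hc0' : algebraMap ℚ Qb c ≠ 0 := by simpa using hc0
  refine ⟨c, b / algebraMap ℚ Qb c, hc0, ?_, (div_mul_cancel₀ _ hc0').symm⟩
  have h3 : (b / algebraMap ℚ Qb c) ^ r = 1 ∨ (b / algebraMap ℚ Qb c) ^ r = -1 := by
    rw [div_pow, ← ha, ← map_pow]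
    rcases hc with hc | hc
    · left
      rw [hc, div_self (by simpa using pow_ne_zero r hc0)]
    · right
      rw [hc, map_neg, neg_div, div_self (by simpa using pow_ne_zero r hc0)]
  rw [mul_comm, pow_mul]
  rcases h3 with h3 | h3 <;> rw [h3] <;> simp

variable {X : Type} [AddCommGroup X] {r N : ℕ} {Ar AN : ValuationSubring Qb}
  {act : GQ →* AddMonoid.End X} {X0 Xf : AddSubgroup X}

theorem nsmul_eq_zero_of_card {F : AddSubgroup X} (hF : Nat.card F = r) {v : X} (hv : v ∈ F) :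
    r • v = 0 := by
  have h : Nat.card F • (⟨v, hv⟩ : F) = 0 := card_nsmul_eq_zero'
  rw [hF] at h
  exact congrArg Subtype.val h

/-- steps 1-4. -/
theorem Adm.exists_root_of_unity_of_mem_preFix (hr : r.Prime) (hN : N.Prime)
    (hAr : Ar.LiesOverPrime r) (hAN : AN.LiesOverPrime N) (h : Adm r N Ar AN act X0 Xf)
    {F : AddSubgroup X} (hF : Nat.card F = r) (hst : ∀ σ : GQ, ∀ v ∈ F, act σ v ∈ F)
    (hF0 : F ≤ X0) (lam : AddChar X Qb) {w : X} (hw : w ∈ preFix act F Xf) :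
    ∃ ξ : Qb, ξ ^ (2 * r) = 1 ∧ ∀ σ : GQ, σ ξ = lam (act σ w - w) * ξ := by
  obtain ⟨hwf, hwF⟩ := mem_preFix.1 hw
  set u : GQ → Qb := fun σ => lam (act σ w - w) with hu
  have hu0 : ∀ σ, u σ ≠ 0 := fun σ => (lam.val_isUnit _).ne_zero
  have hcoc : ∀ σ τ : GQ, u (σ * τ) = u σ * σ (u τ) := by
    intro σ τ
    have h1 : act (σ * τ) w - w = (act σ w - w) + act σ (act τ w - w) := by
      rw [map_mul, map_sub]
      change act σ (act τ w) - w = _
      abel
    simp only [hu]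
    rw [h1, lam.map_add_eq_mul,
      h.char_equivariant_of_le hr hAr hF hst hF0 lam σ _ (hwF τ)]
  have hopen : ∃ L : IntermediateField ℚ Qb, FiniteDimensional ℚ L ∧
      ∀ σ : GQ, (∀ y ∈ L, σ y = y) → u σ = 1 := by
    obtain ⟨L, hL, hL1⟩ := h.smooth
    refine ⟨L, hL, fun σ hσ => ?_⟩
    simp only [hu]
    rw [hL1 σ hσ w, sub_self, lam.map_zero_eq_one]
  obtain ⟨b, hb0, hb⟩ := exists_kummer_gen u hu0 hcoc hopen
  have hur : ∀ σ, u σ ^ r = 1 := by
    intro σ
    simp only [hu]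
    rw [← lam.map_nsmul_eq_pow, nsmul_eq_zero_of_card hF (hwF σ), lam.map_zero_eq_one]
  have hfix : ∀ σ : GQ, σ (b ^ r) = b ^ r := by
    intro σ
    rw [map_pow, hb σ, mul_pow, hur σ, one_mul]
  have hval : ∀ q : ℕ, q.Prime → ∃ B : ValuationSubring Qb, B.LiesOverPrime q ∧
      ∃ n : ℤ, B.valuation b = B.valuation (q : Qb) ^ n := by
    intro q hq
    by_cases hqN : q = N
    · subst hqN
      refine ⟨AN, hAN, S36.exists_zpow_of_inertia_fixed hq hAN hb0 fun σ hσ => ?_⟩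
      rw [hb σ]
      simp only [hu]
      rw [h.fixN σ hσ w hwf, sub_self, lam.map_zero_eq_one, one_mul]
    by_cases hqr : q = r
    · subst hqr
      obtain ⟨β, hβ1, hβ⟩ := h.peu w lam
      have hβ0 : β ≠ 0 := by
        rintro rfl
        rw [map_zero] at hβ1
        exact zero_ne_one hβ1
      obtain ⟨n, hn⟩ := S36.exists_zpow_of_inertia_fixed hq hAr (div_ne_zero hb0 hβ0)
        (fun σ hσ => by
          rw [map_div₀, hb σ, hβ σ hσ]
          exact mul_div_mul_left _ _ (hu0 σ))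
      refine ⟨Ar, hAr, n, ?_⟩
      rwa [map_div₀, hβ1, div_one] at hn
    · obtain ⟨B, hB, hB1⟩ := h.unram q hq hqr hqN
      refine ⟨B, hB, S36.exists_zpow_of_inertia_fixed hq hB hb0 fun σ hσ => ?_⟩
      rw [hb σ]
      simp only [hu]
      rw [hB1 σ hσ w, sub_self, lam.map_zero_eq_one, one_mul]
  obtain ⟨c, ξ, hc0, hξ, hbξ⟩ := exists_root_of_unity hr.pos hb0 hfix hval
  have hc0' : algebraMap ℚ Qb c ≠ 0 := by simpa using hc0
  refine ⟨ξ, hξ, fun σ => ?_⟩
  have h1 := hb σ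
  rw [hbξ, map_mul, AlgEquiv.commutes, ← mul_assoc] at h1
  exact mul_right_cancel₀ hc0' h1

/-- a character which is injective on a subgroup of prime order. -/
theorem exists_addChar_injOn [Finite X] (hr : r.Prime) {F : AddSubgroup X} (hF : Nat.card F = r) :
    ∃ lam : AddChar X Qb, ∀ v ∈ F, lam v = 1 → v = 0 := by
  classical
  have hfact : Fact r.Prime := ⟨hr⟩
  have hnt : Nontrivial F := by
    rw [← Finite.one_lt_card_iff_nontrivial, hF]
    exact hr.one_lt
  obtain ⟨v₀, hv₀⟩ := exists_ne (0 : F)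
  have hv₀' : (v₀ : X) ≠ 0 := fun h0 => hv₀ (Subtype.ext h0)
  have hexp : NeZero (Monoid.exponent (Multiplicative X)) :=
    ⟨(Monoid.exponent_ne_zero_of_finite)⟩
  obtain ⟨φ, hφ⟩ := CommGroup.exists_apply_ne_one_of_hasEnoughRootsOfUnity (Multiplicative X) Qb
    (a := Multiplicative.ofAdd (v₀ : X)) (by simpa using hv₀')
  let lam : AddChar X Qb := AddChar.toMonoidHomEquiv.symm ((Units.coeHom Qb).comp φ)
  have hlam : ∀ x : X, lam x = (φ (Multiplicative.ofAdd x) : Qb) := fun x => rfl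
  refine ⟨lam, fun v hv h1 => ?_⟩
  by_contra hv0
  have hv0' : (⟨v, hv⟩ : F) ≠ 0 := fun h0 => hv0 (congrArg Subtype.val h0)
  have hmem : v₀ ∈ AddSubgroup.zmultiples (⟨v, hv⟩ : F) :=
    mem_zmultiples_of_prime_card hF hv0'
  obtain ⟨k, hk⟩ := AddSubgroup.mem_zmultiples_iff.1 hmem
  apply hφ
  have h2 : lam (v₀ : X) = 1 := by
    rw [← hk]
    simp only [AddSubgroup.coe_zsmul]
    rw [lam.map_zsmul_eq_zpow, h1, one_zpow]
  rw [hlam] at h2
  exact Units.ext h2

/-- **[KUMMER]** -/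
theorem Adm.card_preFix_le (hr : r.Prime) (hN : N.Prime) (hAr : Ar.LiesOverPrime r)
    (hAN : AN.LiesOverPrime N) (h : Adm r N Ar AN act X0 Xf) {F : AddSubgroup X}
    (hF : Nat.card F = r) (hst : ∀ σ : GQ, ∀ v ∈ F, act σ v ∈ F) (hF0 : F ≤ X0) :
    Nat.card (preFix act F Xf) ≤ r * Nat.card (fixedIn act Xf) := by
  classical
  have hfin := h.finite
  obtain ⟨lam, hlam⟩ := exists_addChar_injOn hr hF
  have hex : ∀ w : preFix act F Xf, ∃ ξ : Qb, ξ ^ (2 * r) = 1 ∧
      ∀ σ : GQ, σ ξ = lam (act σ (w : X) - w) * ξ := fun w =>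
    h.exists_root_of_unity_of_mem_preFix hr hN hAr hAN hF hst hF0 lam w.2
  choose ξ hξ1 hξ using hex
  have hξ0 : ∀ w, ξ w ≠ 0 := fun w h0 => by
    have := hξ1 w
    rw [h0, zero_pow (by have := hr.pos; omega)] at this
    exact zero_ne_one this
  -- the key implication
  have hkey : ∀ w w' : preFix act F Xf, ξ w ^ 2 = ξ w' ^ 2 → (w : X) - w' ∈ fixedIn act Xf := by
    intro w w' hww
    refine mem_fixedIn.2 ⟨Xf.sub_mem w.2.1 w'.2.1, fun σ => ?_⟩
    have hpm : ξ w = ξ w' ∨ ξ w = - ξ w' := sq_eq_sq_iff_eq_or_eq_neg.1 hww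
    have hu : lam (act σ (w : X) - w) = lam (act σ (w' : X) - w') := by
      have h1 := hξ w σ
      have h2 := hξ w' σ
      rcases hpm with hpm | hpm
      · rw [hpm, h2] at h1
        exact (mul_right_cancel₀ (hξ0 w') h1).symm
      · rw [hpm, map_neg, h2, mul_neg, neg_inj] at h1
        exact (mul_right_cancel₀ (hξ0 w') h1).symm
    have h3 : (act σ (w : X) - w) - (act σ (w' : X) - w') = 0 := by
      refine hlam _ (F.sub_mem (w.2.2 σ) (w'.2.2 σ)) ?_
      rw [lam.map_sub_eq_div, hu, div_self (lam.val_isUnit _).ne_zero]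
    rw [map_sub]
    have h4 : act σ (w : X) - act σ (w' : X) - ((w : X) - w') =
      (act σ (w : X) - w) - (act σ (w' : X) - w') := by abel
    rw [← sub_eq_zero, h4, h3]
  have hle : fixedIn act Xf ≤ preFix act F Xf := fun v hv =>
    mem_preFix.2 ⟨hv.1, fun σ => by rw [hv.2 σ, sub_self]; exact F.zero_mem⟩
  set B' : AddSubgroup (preFix act F Xf) := (fixedIn act Xf).addSubgroupOf (preFix act F Xf)
    with hB'
  have hcardB : Nat.card B' = Nat.card (fixedIn act Xf) :=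
    Nat.card_congr (AddSubgroup.addSubgroupOfEquivOfLe hle).toEquiv
  have hr0 : 0 < r := hr.pos
  let T : Finset Qb := Polynomial.nthRootsFinset r (1 : Qb)
  have hT : T.card ≤ r :=
    (Multiset.toFinset_card_le _).trans (Polynomial.card_nthRoots r 1)
  let j : (preFix act F Xf ⧸ B') → T := fun q =>
    ⟨ξ q.out ^ 2, (Polynomial.mem_nthRootsFinset hr0 _).2 (by rw [← pow_mul]; exact hξ1 _)⟩
  have hj : Function.Injective j := by
    intro q q' hq
    have h1 : ξ q.out ^ 2 = ξ q'.out ^ 2 := congrArg Subtype.val hq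
    have h2 := hkey _ _ h1
    rw [← QuotientAddGroup.out_eq' q, ← QuotientAddGroup.out_eq' q', QuotientAddGroup.eq]
    generalize Quotient.out q = a at h2 ⊢
    generalize Quotient.out q' = a' at h2 ⊢
    change ((-a + a' : preFix act F Xf) : X) ∈ fixedIn act Xf
    have h3 : ((-a + a' : preFix act F Xf) : X) = -((a : X) - a') := by
      push_cast
      abel
    rw [h3]
    exact (fixedIn act Xf).neg_mem h2
  have hq : Nat.card (preFix act F Xf ⧸ B') ≤ r := by
    refine (Nat.card_le_card_of_injective j hj).trans ?_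
    rw [Nat.card_eq_fintype_card, Fintype.card_coe]
    exact hT
  rw [AddSubgroup.card_eq_card_quotient_mul_card_addSubgroup B', hcardB]
  exact Nat.mul_le_mul_right _ hq

end Fermat.Agent.MAZ
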