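import Fermat.Agent.MAZ.Abs.Quot
import Fermat.Agent.MAZ.Abs.Etale
import Fermat.Agent.MAZ.Abs.Kummer

/-!
# MAZ / Abs / (COUNT)

`#(X / X0) ≤ #(X^{G_ℚ} ∩ Xf) * #(X / Xf)` for admissible `X` (Mazur, Eisenstein ideal I.1.7, in the
form `h⁰ ≥ α - δ`), by induction on `#X`: divide by a stable line.
-/

set_option autoImplicit false

noncomputable section

namespace Fermat.Agent.MAZ

open Fermat.Agent.FLAT (Qb GQ)

theorem count_aux {r N : ℕ} {Ar AN : ValuationSubring Qb} (hr : r.Prime) (hN : N.Prime)
    (hAr : Ar.LiesOverPrime r) (hAN : AN.LiesOverPrime N) (n : ℕ) :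
    ∀ (X : Type) [AddCommGroup X] (act : GQ →* AddMonoid.End X) (X0 Xf : AddSubgroup X),
      Adm r N Ar AN act X0 Xf → Nat.card X = n →
      X0.index ≤ Nat.card (fixedIn act Xf) * Xf.index := by
  induction n using Nat.strong_induction_on with
  | _ n ih =>
    intro X _ act X0 Xf h hn
    have hfin := h.finite
    by_cases hX : Nontrivial X
    · obtain ⟨F, hF, hst⟩ := h.exists_line hr
      have hcardq : Nat.card (X ⧸ F) * r = n := by
        rw [← hn, ← hF, mul_comm]
        exact (AddSubgroup.card_eq_card_quotient_mul_card_addSubgroup F).symm ▸ (mul_comm _ _)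
      have hnpos : 0 < n := hn ▸ Nat.card_pos
      have hlt : Nat.card (X ⧸ F) < n := by
        have h2 := hr.two_le
        have hq : 0 < Nat.card (X ⧸ F) := Nat.card_pos
        nlinarith
      have IH := ih _ hlt (X ⧸ F) (quotAct act F hst) (X0.map (QuotientAddGroup.mk' F))
        (Xf.map (QuotientAddGroup.mk' F)) (h.quot F hst) rfl
      set a' := (X0.map (QuotientAddGroup.mk' F)).index with ha'
      set d' := (Xf.map (QuotientAddGroup.mk' F)).index with hd'
      set η' := Nat.card (fixedIn (quotAct act F hst) (Xf.map (QuotientAddGroup.mk' F))) with hη'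
      set φ := Nat.card (F ⊓ Xf : AddSubgroup X) with hφ
      have hφpos : 0 < φ := Nat.card_pos
      have hπ : Nat.card (preFix act F Xf) = η' * φ := card_preFix F hst
      have hd : d' * r = Xf.index * φ := by
        have := index_map_mk_mul F Xf
        rwa [hF] at this
      -- `a' * r ≤ π * d`
      have key : a' * r ≤ Nat.card (preFix act F Xf) * Xf.index := by
        have h1 : a' * r * φ ≤ (η' * φ * Xf.index) * φ := by
          calc a' * r * φ ≤ (η' * d') * r * φ := by gcongr
            _ = η' * (d' * r) * φ := by ring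
            _ = η' * (Xf.index * φ) * φ := by rw [hd]
            _ = (η' * φ * Xf.index) * φ := by ring
        rw [hπ]
        exact Nat.le_of_mul_le_mul_right h1 hφpos
      -- dichotomy
      have hdich : F ≤ X0 ∨ F ⊓ X0 = ⊥ := by
        by_cases hb : F ⊓ X0 = ⊥
        · exact Or.inr hb
        · left
          have hcard : Nat.card (F ⊓ X0 : AddSubgroup X) ∣ r := by
            rw [← hF]
            exact AddSubgroup.card_dvd_of_le inf_le_left
          rcases (Nat.dvd_prime hr).mp hcard with h1 | h1
          · exact absurd ((AddSubgroup.card_eq_one).mp h1) hb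
          · have : F ⊓ X0 = F := by
              apply AddSubgroup.eq_of_le_of_card_ge inf_le_left
              rw [h1, hF]
            exact this ▸ inf_le_right
      rcases hdich with hF0 | hF0
      · have h1 : a' = X0.index := index_map_mk_of_le hF0
        have h2 := h.card_preFix_le hr hN hAr hAN hF hst hF0
        have h3 : X0.index * r ≤ (Nat.card (fixedIn act Xf) * Xf.index) * r := by
          calc X0.index * r = a' * r := by rw [h1]
            _ ≤ Nat.card (preFix act F Xf) * Xf.index := key
            _ ≤ (r * Nat.card (fixedIn act Xf)) * Xf.index := by gcongr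
            _ = (Nat.card (fixedIn act Xf) * Xf.index) * r := by ring
        exact Nat.le_of_mul_le_mul_right h3 hr.pos
      · have h1 : a' * r = X0.index := by
          have := index_map_mk_mul F X0
          rw [hF, hF0] at this
          simpa using this
        have h2 : Nat.card (preFix act F Xf) ≤ Nat.card (fixedIn act Xf) :=
          AddSubgroup.card_le_of_le (h.preFix_le_fixedIn hr hN hAr hAN hF hst hF0)
        calc X0.index = a' * r := h1.symm
          _ ≤ Nat.card (preFix act F Xf) * Xf.index := key
          _ ≤ Nat.card (fixedIn act Xf) * Xf.index := by gcongr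
    · rw [not_nontrivial_iff_subsingleton] at hX
      have h1 : X0.index = 1 := by
        rw [AddSubgroup.index_eq_one]
        exact Subsingleton.elim _ _
      rw [h1]
      have h2 : 0 < Nat.card (fixedIn act Xf) := Nat.card_pos
      have h3 : 0 < Xf.index := Nat.pos_of_ne_zero (AddSubgroup.index_ne_zero_of_finite)
      exact Nat.mul_pos h2 h3

/-- **(COUNT)** -/
theorem Adm.count {X : Type} [AddCommGroup X] {r N : ℕ} {Ar AN : ValuationSubring Qb}
    {act : GQ →* AddMonoid.End X} {X0 Xf : AddSubgroup X} (hr : r.Prime) (hN : N.Prime)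
    (hAr : Ar.LiesOverPrime r) (hAN : AN.LiesOverPrime N) (h : Adm r N Ar AN act X0 Xf) :
    X0.index ≤ Nat.card (fixedIn act Xf) * Xf.index :=
  count_aux hr hN hAr hAN _ X act X0 Xf h rfl

end Fermat.Agent.MAZ
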