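import Mathlib
import Fermat.Agent.FLAT.Defs

/-!
# MAZ (S15, S12, S09) / abstract part: definitions for the counting lemma (COUNT)

`X` is a finite abelian `r`-group with an action `act` of `G_ℚ`.  `Adm r N Ar AN act X0 Xf` packages
* smoothness, unramifiedness outside `{r, N}`;
* `(U)`   : every `σ` fixing `μ_r` acts through an element of `r`-power order;
* at `N`  : `Xf` is ANY subgroup of the `I_N`-invariants (`AN` = a place above `N`);
* at `r`  : (`Ar` = a place above `r`, `I = I_{Ar}`) a subgroup `X0` ("connected part") such that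
  `conn` : `(σ - 1) X ⊆ X0`,
  `mult` : `σ` acts on `X0` through the cyclotomic character, written with characters:
           `lam (σ v) = σ (lam v)` for every character `lam : X → ℚ̄ˣ`,
  `peu`  : the extension of `X / X0` by `X0` is "peu ramifiee": for every `w` and every character
           `lam` the cocycle `σ ↦ lam (σ w - w)` on `I` is `σ ↦ σ β / β` for a UNIT `β` of `Ar`.

(COUNT) (`Abs/Count.lean`) :  `#(X / X0) ≤ #(X^{G_ℚ} ∩ Xf) * #(X / Xf)`.
-/

set_option autoImplicit false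

noncomputable section

namespace Fermat.Agent.MAZ

open Fermat.Agent.FLAT (Qb GQ)

variable {X : Type} [AddCommGroup X]

/-- the `G_ℚ`-fixed elements of `Xf`. -/
def fixedIn (act : GQ →* AddMonoid.End X) (Xf : AddSubgroup X) : AddSubgroup X where
  carrier := {v | v ∈ Xf ∧ ∀ σ : GQ, act σ v = v}
  zero_mem' := ⟨Xf.zero_mem, fun σ => map_zero (act σ)⟩
  add_mem' := fun {a b} ha hb =>
    ⟨Xf.add_mem ha.1 hb.1, fun σ => by rw [map_add, ha.2 σ, hb.2 σ]⟩
  neg_mem' := fun {a} ha => ⟨Xf.neg_mem ha.1, fun σ => by rw [map_neg, ha.2 σ]⟩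

theorem mem_fixedIn {act : GQ →* AddMonoid.End X} {Xf : AddSubgroup X} {v : X} :
    v ∈ fixedIn act Xf ↔ v ∈ Xf ∧ ∀ σ : GQ, act σ v = v := Iff.rfl

/-- the elements of `Xf` which are `G_ℚ`-fixed modulo `F`. -/
def preFix (act : GQ →* AddMonoid.End X) (F Xf : AddSubgroup X) : AddSubgroup X where
  carrier := {v | v ∈ Xf ∧ ∀ σ : GQ, act σ v - v ∈ F}
  zero_mem' := ⟨Xf.zero_mem, fun σ => by rw [map_zero, sub_zero]; exact F.zero_mem⟩
  add_mem' := fun {a b} ha hb =>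
    ⟨Xf.add_mem ha.1 hb.1, fun σ => by
      rw [map_add, add_sub_add_comm]; exact F.add_mem (ha.2 σ) (hb.2 σ)⟩
  neg_mem' := fun {a} ha => ⟨Xf.neg_mem ha.1, fun σ => by
    have h : act σ (-a) - -a = -(act σ a - a) := by rw [map_neg]; abel
    rw [h]; exact F.neg_mem (ha.2 σ)⟩

theorem mem_preFix {act : GQ →* AddMonoid.End X} {F Xf : AddSubgroup X} {v : X} :
    v ∈ preFix act F Xf ↔ v ∈ Xf ∧ ∀ σ : GQ, act σ v - v ∈ F := Iff.rfl

/-- the induced action on a quotient by a stable subgroup. -/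
def quotAct (act : GQ →* AddMonoid.End X) (F : AddSubgroup X)
    (hF : ∀ σ : GQ, ∀ v ∈ F, act σ v ∈ F) : GQ →* AddMonoid.End (X ⧸ F) where
  toFun σ := QuotientAddGroup.map F F (act σ) (fun v hv => hF σ v hv)
  map_one' := by
    ext v
    induction v using QuotientAddGroup.induction_on with
    | H v =>
      change (((act 1) v : X) : X ⧸ F) = v
      rw [map_one]; rfl
  map_mul' σ τ := by
    ext v
    induction v using QuotientAddGroup.induction_on with
    | H v =>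
      change (((act (σ * τ)) v : X) : X ⧸ F) = ((act σ (act τ v) : X) : X ⧸ F)
      rw [map_mul]; rfl

@[simp] theorem quotAct_mk (act : GQ →* AddMonoid.End X) (F : AddSubgroup X)
    (hF : ∀ σ : GQ, ∀ v ∈ F, act σ v ∈ F) (σ : GQ) (v : X) :
    quotAct act F hF σ (v : X ⧸ F) = ((act σ v : X) : X ⧸ F) := rfl

/-- the hypotheses of (COUNT). -/
structure Adm (r N : ℕ) (Ar AN : ValuationSubring Qb) (act : GQ →* AddMonoid.End X)
    (X0 Xf : AddSubgroup X) : Prop where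
  finite : Finite X
  rgroup : ∀ v : X, ∃ k : ℕ, r ^ k • v = 0
  smooth : ∃ L : IntermediateField ℚ Qb, FiniteDimensional ℚ L ∧
    ∀ σ : GQ, (∀ y ∈ L, σ y = y) → ∀ v : X, act σ v = v
  unram : ∀ q : ℕ, q.Prime → q ≠ r → q ≠ N → ∃ B : ValuationSubring Qb, B.LiesOverPrime q ∧
    ∀ σ ∈ B.inertiaSubgroupIn ℚ, ∀ v : X, act σ v = v
  unip : ∀ σ : GQ, (∀ ζ : Qb, ζ ^ r = 1 → σ ζ = ζ) → ∃ n : ℕ, ∀ v : X, act (σ ^ r ^ n) v = v
  fixN : ∀ σ ∈ AN.inertiaSubgroupIn ℚ, ∀ v ∈ Xf, act σ v = v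
  conn : ∀ σ ∈ Ar.inertiaSubgroupIn ℚ, ∀ v : X, act σ v - v ∈ X0
  mult : ∀ σ ∈ Ar.inertiaSubgroupIn ℚ, ∀ v ∈ X0, ∀ lam : AddChar X Qb, lam (act σ v) = σ (lam v)
  peu : ∀ (w : X) (lam : AddChar X Qb), ∃ β : Qb, Ar.valuation β = 1 ∧
    ∀ σ ∈ Ar.inertiaSubgroupIn ℚ, σ β = lam (act σ w - w) * β

end Fermat.Agent.MAZ
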