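import Fermat.Agent.MAZ.Abs.FinSteps

/-!
# MAZ / Abs / (FIN), abstract form

`r ^ (1 + a₁ + b + a₂) • x0` is congruent modulo `ι V` to a `G_ℚ`-fixed element of `X`.
-/

set_option autoImplicit false

noncomputable section

namespace Fermat.Agent.MAZ

open Fermat.Agent.FLAT (Qb GQ)

variable {r N : ℕ} {Ar AN : ValuationSubring Qb} {X V Vs : Type} [AddCommGroup X]
  [AddCommGroup V] [AddCommGroup Vs] {act : GQ →* AddMonoid.End X}
  {actV : GQ →* AddMonoid.End V} {acts : GQ →* AddMonoid.End Vs} {ι : V →+ X} {x0 : X} {k : ℕ}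
  {e : V → Vs → Qb} {Y : AddSubgroup X} {Ws : AddSubgroup Vs} {τ0 : GQ}

theorem FinData.pow_le (hr : r.Prime) (hN : N.Prime) (hrN : r ≠ N) (hAr : Ar.LiesOverPrime r)
    (hAN : AN.LiesOverPrime N) (D : FinData r N Ar AN act actV acts ι x0 k e Y Ws τ0) {a₁ b : ℕ}
    (ha₁ : Nat.card (fixedIn acts ⊤) ≤ r ^ a₁)
    (hb : Nat.card (nsmulAddMonoidHom (α := Vs) r).ker ≤ r ^ b) :
    r ^ k ≤ Nat.card (fixedIn act (invI AN act)) * r ^ (1 + a₁ + b) := by
  have hfX := D.admX.finite
  have hfS := D.admS.finite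
  have hfV := D.finite_V
  set S := Nat.card (fixedIn act (invI AN act)) with hS
  set v := Nat.card V with hv
  set w := Nat.card (Y.comap ι) with hw
  set ws := Nat.card Ws with hws
  set t := Nat.card (nsmulAddMonoidHom (α := Vs) r).ker with ht
  set i := Nat.card (invI AN actV) with hi
  set j := (invI AN acts).index with hj
  have hvpos : 0 < v := Nat.card_pos
  have hwspos : 0 < ws := Nat.card_pos
  have hjpos : 0 < j := Nat.pos_of_ne_zero AddSubgroup.index_ne_zero_of_finite
  have hij : i * j = v := D.card_invI_mul_index hr hN hrN hAN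
  have hcardX : Nat.card X = r ^ k * v := by
    have h1 := AddSubgroup.index_mul_card ι.range
    rw [D.index] at h1
    rw [← h1, hv]
    congr 1
    exact Nat.card_congr (AddMonoidHom.ofInjective D.inj).symm.toEquiv
  have hcX := D.admX.count hr hN hAr hAN
  have hcS := D.admS.count hr hN hAr hAN
  have hY : Y.index * Nat.card Y = r ^ k * v := by rw [AddSubgroup.index_mul_card, hcardX]
  have hWs : Ws.index * ws = v := by
    rw [AddSubgroup.index_mul_card, hv]
    exact (D.pair.card_eq).symm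
  have hYle := D.card_Y_le hr hAr
  have hwws := D.card_W_mul_card_Ws_le hr hAr
  have hidx := D.index_invI_le
  have hfixS : Nat.card (fixedIn acts (invI AN acts)) ≤ r ^ a₁ := by
    have hle : fixedIn acts (invI AN acts) ≤ fixedIn acts ⊤ := fun x hx => ⟨trivial, hx.2⟩
    exact le_trans (AddSubgroup.card_le_of_le hle) ha₁
  -- `i ≤ r ^ a₁ * ws`
  have h1 : i ≤ r ^ a₁ * ws := by
    have : i * j ≤ (r ^ a₁ * ws) * j := by
      calc i * j = v := hij
        _ = Ws.index * ws := hWs.symm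
        _ ≤ (Nat.card (fixedIn acts (invI AN acts)) * j) * ws := by gcongr
        _ ≤ (r ^ a₁ * j) * ws := by gcongr
        _ = (r ^ a₁ * ws) * j := by ring
    exact Nat.le_of_mul_le_mul_right this hjpos
  -- `r ^ k * ws ≤ S * i * r * t`
  have h2 : r ^ k * ws ≤ S * i * r * t := by
    have : (r ^ k * ws) * v ≤ (S * i * r * t) * v := by
      calc (r ^ k * ws) * v = (r ^ k * v) * ws := by ring
        _ = (Y.index * Nat.card Y) * ws := by rw [hY]
        _ ≤ ((S * (invI AN act).index) * (r * w)) * ws := by gcongr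
        _ ≤ ((S * i) * (r * w)) * ws := by gcongr
        _ = (S * i * r) * (w * ws) := by ring
        _ ≤ (S * i * r) * (v * t) := by gcongr
        _ = (S * i * r * t) * v := by ring
    exact Nat.le_of_mul_le_mul_right this hvpos
  have h3 : r ^ k * ws ≤ (S * r ^ (1 + a₁ + b)) * ws := by
    calc r ^ k * ws ≤ S * i * r * t := h2
      _ ≤ S * (r ^ a₁ * ws) * r * r ^ b := by gcongr
      _ = (S * r ^ (1 + a₁ + b)) * ws := by ring
  exact Nat.le_of_mul_le_mul_right h3 hwspos

/-- **(FIN), abstract form.** -/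
theorem FinData.exists_fixed (hr : r.Prime) (hN : N.Prime) (hrN : r ≠ N)
    (hAr : Ar.LiesOverPrime r) (hAN : AN.LiesOverPrime N)
    (D : FinData r N Ar AN act actV acts ι x0 k e Y Ws τ0) {a₁ a₂ b : ℕ}
    (ha₁ : Nat.card (fixedIn acts ⊤) ≤ r ^ a₁) (ha₂ : Nat.card (fixedIn actV ⊤) ≤ r ^ a₂)
    (hb : Nat.card (nsmulAddMonoidHom (α := Vs) r).ker ≤ r ^ b) :
    ∃ x : X, (∀ σ : GQ, act σ x = x) ∧ x - r ^ (1 + a₁ + b + a₂) • x0 ∈ ι.range := by
  have hfV := D.finite_V
  have h1 := D.pow_le hr hN hrN hAr hAN ha₁ hb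
  have h2 : Nat.card ((fixedIn act (invI AN act)).comap ι) ≤ r ^ a₂ := by
    have hle : (fixedIn act (invI AN act)).comap ι ≤ fixedIn actV ⊤ := by
      intro x hx
      refine ⟨trivial, fun σ => ?_⟩
      apply D.inj
      rw [D.equiv]
      exact hx.2 σ
    exact le_trans (AddSubgroup.card_le_of_le hle) ha₂
  obtain ⟨x, hx, hx'⟩ := D.exists_mem_of_card hr _ h1 h2
  exact ⟨x, hx.2, hx'⟩

end Fermat.Agent.MAZ
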