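import Fermat.Agent.MAZ.Abs.FinDefs

/-!
# MAZ / Abs / (FIN) : the "cyclic quotient" argument (MAZ-FIN-CYC)

Pure group theory: `R ≤ X` of index `r ^ k`, `S ≤ X` with `r ^ k ≤ #S * r ^ c`, `#(S ∩ R) ≤ r ^ a`.
Then `[X : S + R] ∣ r ^ (c + a)`, hence `r ^ (c + a) • x ∈ S + R` for every `x`.
-/

set_option autoImplicit false

namespace Fermat.Agent.MAZ

theorem exists_mem_sub_mem_range_of_card {X V : Type*} [AddCommGroup X] [AddCommGroup V]
    {r k : ℕ} (hr : r.Prime) (ι : V →+ X) (hι : Function.Injective ι)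
    (hidx : ι.range.index = r ^ k) (S : AddSubgroup X) {c a : ℕ}
    (h1 : r ^ k ≤ Nat.card S * r ^ c) (h2 : Nat.card (S.comap ι) ≤ r ^ a) (x0 : X) :
    ∃ x ∈ S, x - r ^ (c + a) • x0 ∈ ι.range := by
  set R := ι.range with hR
  -- `#(S ∩ R) = #(S.comap ι)`
  have hcard : Nat.card (R.addSubgroupOf S) = Nat.card (S.comap ι) := by
    refine (Nat.card_congr (Equiv.ofBijective
      (fun v : S.comap ι => (⟨⟨ι v.1, v.2⟩, ⟨v.1, rfl⟩⟩ : R.addSubgroupOf S)) ⟨?_, ?_⟩)).symm
    · intro v w hvw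
      apply Subtype.ext
      apply hι
      exact congrArg (fun z : R.addSubgroupOf S => ((z : S) : X)) hvw
    · rintro ⟨⟨x, hxS⟩, v, hv⟩
      have hv' : ι v = x := hv
      refine ⟨⟨v, ?_⟩, ?_⟩
      · show ι v ∈ S
        rw [hv']; exact hxS
      · apply Subtype.ext
        apply Subtype.ext
        exact hv'
  have hm : Nat.card (R.addSubgroupOf S) * R.relIndex S = Nat.card S :=
    AddSubgroup.card_mul_index _
  have hd : R.relIndex S * (R ⊔ S).index = r ^ k := by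
    rw [← hidx, ← AddSubgroup.relIndex_sup_left, AddSubgroup.relIndex_mul_index le_sup_left]
  have hpos : 0 < r ^ k := pow_pos hr.pos k
  have hmpos : 0 < R.relIndex S := by
    rcases Nat.eq_zero_or_pos (R.relIndex S) with h | h
    · rw [h, zero_mul] at hd; omega
    · exact h
  have hle : (R ⊔ S).index ≤ r ^ (c + a) := by
    have h3 : R.relIndex S * (R ⊔ S).index ≤ R.relIndex S * r ^ (c + a) := by
      rw [hd]
      calc r ^ k ≤ Nat.card S * r ^ c := h1
        _ = Nat.card (S.comap ι) * R.relIndex S * r ^ c := by rw [← hm, hcard]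
        _ ≤ r ^ a * R.relIndex S * r ^ c := by gcongr
        _ = R.relIndex S * r ^ (c + a) := by rw [pow_add]; ring
    exact Nat.le_of_mul_le_mul_left h3 hmpos
  obtain ⟨i, -, hi⟩ := (Nat.dvd_prime_pow hr).1 (Dvd.intro_left _ hd)
  have hia : i ≤ c + a := by
    rw [hi] at hle
    exact (Nat.pow_le_pow_iff_right hr.one_lt).1 hle
  have hmem : r ^ (c + a) • x0 ∈ R ⊔ S := by
    have h4 : r ^ i • x0 ∈ R ⊔ S := by
      rw [← hi]
      exact AddSubgroup.nsmul_index_mem _ x0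
    obtain ⟨t, ht⟩ := Nat.exists_eq_add_of_le hia
    rw [ht, pow_add, mul_comm, mul_smul]
    exact (R ⊔ S).nsmul_mem h4 _
  obtain ⟨v, hv, x, hx, hvx⟩ := AddSubgroup.mem_sup.1 hmem
  refine ⟨x, hx, ?_⟩
  rw [← hvx]
  have : x - (v + x) = -v := by abel
  rw [this]
  exact R.neg_mem hv

end Fermat.Agent.MAZ
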