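import Fermat.Agent.MAZ.Abs.Count

/-!
# MAZ / Abs / (FIN), abstract form : definitions

`X ⊇ ι V` : an extension of `ℤ/r^k` (trivial action, generated by `x0`) by the `G_ℚ`-module `V`;
`Vs` : a second module with a perfect equivariant pairing `e : V × Vs → ℚ̄ˣ`.
In the application `V = ε J[r^k]`, `Vs = (ker ε)^⊥ ⊆ J[r^k]`, `e` = Weil pairing,
`X = V + ℤ (ε z₀, 1) ⊆ {(z, m) : r^k z = m ε y} / ⟨(ε y, r^k)⟩`, `r^k z₀ = y ∈ J(ℚ)`.

RESULT (`Abs/Fin.lean`) : `r ^ (1 + b + a₁ + a₂) • x0` is congruent modulo `V` to a `G_ℚ`-fixed element of `X`,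
where `#Vs[r] ≤ r^b`, `#Vs^G ≤ r^a₁`, `#V^G ≤ r^a₂`  (independent of `k`).
-/

set_option autoImplicit false

noncomputable section

namespace Fermat.Agent.MAZ

open Fermat.Agent.FLAT (Qb GQ)

/-- the invariants of the inertia group of `A`. -/
def invI {X : Type} [AddCommGroup X] (A : ValuationSubring Qb) (act : GQ →* AddMonoid.End X) :
    AddSubgroup X where
  carrier := {v | ∀ σ ∈ A.inertiaSubgroupIn ℚ, act σ v = v}
  zero_mem' := fun σ _ => map_zero (act σ)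
  add_mem' := fun {a b} ha hb σ hσ => by rw [map_add, ha σ hσ, hb σ hσ]
  neg_mem' := fun {a} ha σ hσ => by rw [map_neg, ha σ hσ]

theorem mem_invI {X : Type} [AddCommGroup X] {A : ValuationSubring Qb}
    {act : GQ →* AddMonoid.End X} {v : X} :
    v ∈ invI A act ↔ ∀ σ ∈ A.inertiaSubgroupIn ℚ, act σ v = v := Iff.rfl

/-- a perfect `G_ℚ`-equivariant pairing with values in `ℚ̄ˣ`. -/
structure IsPerfPair {V Vs : Type} [AddCommGroup V] [AddCommGroup Vs]
    (actV : GQ →* AddMonoid.End V) (acts : GQ →* AddMonoid.End Vs) (e : V → Vs → Qb) : Prop where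
  ne_zero : ∀ x y, e x y ≠ 0
  add_left : ∀ x x' y, e (x + x') y = e x y * e x' y
  add_right : ∀ x y y', e x (y + y') = e x y * e x y'
  nondeg_left : ∀ x, (∀ y, e x y = 1) → x = 0
  nondeg_right : ∀ y, (∀ x, e x y = 1) → y = 0
  equivariant : ∀ (σ : GQ) x y, e (actV σ x) (acts σ y) = σ (e x y)

/-- the data of (FIN). -/
structure FinData (r N : ℕ) (Ar AN : ValuationSubring Qb) {X V Vs : Type} [AddCommGroup X]
    [AddCommGroup V] [AddCommGroup Vs] (act : GQ →* AddMonoid.End X)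
    (actV : GQ →* AddMonoid.End V) (acts : GQ →* AddMonoid.End Vs) (ι : V →+ X) (x0 : X) (k : ℕ)
    (e : V → Vs → Qb) (Y : AddSubgroup X) (Ws : AddSubgroup Vs) (τ0 : GQ) : Prop where
  admX : Adm r N Ar AN act Y (invI AN act)
  admS : Adm r N Ar AN acts Ws (invI AN acts)
  inj : Function.Injective ι
  equiv : ∀ (σ : GQ) (v : V), ι (actV σ v) = act σ (ι v)
  triv : ∀ (σ : GQ) (x : X), act σ x - x ∈ ι.range
  gen : ∀ x : X, ∃ m : ℕ, x - m • x0 ∈ ι.range
  index : ι.range.index = r ^ k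
  pair : IsPerfPair actV acts e
  τ0_mem : τ0 ∈ AN.inertiaSubgroupIn ℚ
  τ0_X : ∀ x : X, act τ0 x = x → x ∈ invI AN act
  τ0_S : ∀ y : Vs, acts τ0 y = y → y ∈ invI AN acts
  unipW : ∀ x : X, ∃ v ∈ invI AN actV, ι v = act τ0 x - x

end Fermat.Agent.MAZ
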