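import Fermat.Agent.MAZ.Abs.Line

/-!
# MAZ / Abs / (FIN) [F1] : an inertia element at `r` acting on `μ_{r^m}` by `ζ ↦ ζ^(1+r)`
-/

set_option autoImplicit false

noncomputable section

namespace Fermat.Agent.MAZ

open Fermat.Agent.FLAT (Qb GQ)

/-- the cyclotomic character is onto: for `a` prime to `n` some `σ ∈ G_ℚ` raises the primitive
`n`-th root of unity `μ` to the power `a`. -/
theorem exists_galois_pow_of_coprime {n : ℕ} (hn : 0 < n) {μ : Qb} (hμ : IsPrimitiveRoot μ n)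
    {a : ℕ} (ha : a.Coprime n) : ∃ σ : GQ, σ μ = μ ^ a := by
  have h1 : minpoly ℤ μ = minpoly ℤ (μ ^ a) := hμ.minpoly_eq_pow_coprime ha
  have hi : IsIntegral ℤ μ := hμ.isIntegral hn
  have hi' : IsIntegral ℤ (μ ^ a) := hi.pow a
  have h2 : IsConjRoot ℚ (μ ^ a) μ := by
    rw [isConjRoot_def, minpoly.isIntegrallyClosed_eq_field_fractions' ℚ hi,
      minpoly.isIntegrallyClosed_eq_field_fractions' ℚ hi', h1]
  exact h2.exists_algEquiv

/-- `ℚ(μ_{r^m})` is totally ramified at `r` : every `σ` agrees on `μ_{r^m}` with an element of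
the inertia group. -/
theorem exists_inertia_eq_on_mu_pow {r : ℕ} (hr : r.Prime) {A : ValuationSubring Qb}
    (hA : A.LiesOverPrime r) (m : ℕ) (σ : GQ) :
    ∃ τ ∈ A.inertiaSubgroupIn ℚ, ∀ ζ : Qb, ζ ^ r ^ m = 1 → τ ζ = σ ζ := by
  have : Fact r.Prime := ⟨hr⟩
  have hn : r ^ m ≠ 0 := pow_ne_zero _ hr.ne_zero
  have : NeZero (r ^ m) := ⟨hn⟩
  obtain ⟨μ, hμ⟩ := exists_primitiveRoot_Qb hn
  set χ := hμ.autToPow ℚ with hχ
  let H : Subgroup GQ := ((A.inertiaSubgroupIn ℚ).map χ).comap χ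
  have : H.Normal := Subgroup.Normal.comap (Subgroup.normal_of_isMulCommutative _) χ
  have hfix : fixMu (r ^ m) ≤ H := by
    intro κ hκ
    rw [Subgroup.mem_comap, (mem_fixMu_iff_autToPow hμ κ).mp hκ]
    exact Subgroup.one_mem _
  have hH : H = ⊤ := by
    apply S13.eq_top_of_inertia_le
    · refine ⟨IntermediateField.adjoin ℚ {μ}, ?_, ?_⟩
      · exact IntermediateField.adjoin.finiteDimensional
          ((hμ.isIntegral (Nat.pos_of_ne_zero hn)).tower_top (A := ℚ))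
      · intro κ hκ
        apply hfix
        intro ζ hζ
        obtain ⟨i, -, rfl⟩ := hμ.eq_pow_of_pow_eq_one hζ
        rw [map_pow]
        congr 1
        exact (IntermediateField.mem_fixingSubgroup_iff _ _).mp hκ μ
          (IntermediateField.mem_adjoin_simple_self ℚ μ)
    · intro ℓ hℓ
      by_cases hℓr : ℓ = r
      · subst hℓr
        exact ⟨A, hA, fun τ hτ => Subgroup.mem_comap.mpr (Subgroup.mem_map_of_mem χ hτ)⟩
      · obtain ⟨B, hB⟩ := S13.exists_place ℓ hℓ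
        have : Fact ℓ.Prime := ⟨hℓ⟩
        refine ⟨B, hB, fun τ hτ => hfix fun ζ hζ => ?_⟩
        exact FLAT.inertia_apply_eq_of_pow_eq_one hB
          (((Nat.coprime_primes hℓ hr).mpr hℓr).pow_right m) hζ hτ
  have hσ : σ ∈ H := by rw [hH]; trivial
  obtain ⟨τ, hτ, hτσ⟩ := Subgroup.mem_map.mp (Subgroup.mem_comap.mp hσ)
  refine ⟨τ, hτ, fun ζ hζ => ?_⟩
  obtain ⟨i, -, rfl⟩ := hμ.eq_pow_of_pow_eq_one hζ
  rw [map_pow, map_pow, ← hμ.autToPow_spec ℚ τ, ← hμ.autToPow_spec ℚ σ, ← hχ, hτσ]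

/-- **[F1]** -/
theorem exists_inertia_one_add' {r : ℕ} (hr : r.Prime) {A : ValuationSubring Qb}
    (hA : A.LiesOverPrime r) (m : ℕ) :
    ∃ s ∈ A.inertiaSubgroupIn ℚ, ∀ ζ : Qb, ζ ^ r ^ m = 1 → s ζ = ζ ^ (1 + r) := by
  have hn : r ^ m ≠ 0 := pow_ne_zero _ hr.ne_zero
  have : NeZero (r ^ m) := ⟨hn⟩
  obtain ⟨μ, hμ⟩ := exists_primitiveRoot_Qb hn
  have hcop : (1 + r).Coprime (r ^ m) := by
    apply Nat.Coprime.pow_right
    simp
  obtain ⟨σ, hσ⟩ := exists_galois_pow_of_coprime (Nat.pos_of_ne_zero hn) hμ hcop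
  obtain ⟨τ, hτ, h⟩ := exists_inertia_eq_on_mu_pow hr hA m σ
  refine ⟨τ, hτ, fun ζ hζ => ?_⟩
  rw [h ζ hζ]
  obtain ⟨i, -, rfl⟩ := hμ.eq_pow_of_pow_eq_one hζ
  rw [map_pow, hσ, ← pow_mul, ← pow_mul, mul_comm]

end Fermat.Agent.MAZ
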