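import Fermat.Agent.MAZ.Abs.FinDefs

/-!
# MAZ / Abs / (FIN) : steps [F2], [F3]  (WP MAZ-FIN-F2F3)
-/

set_option autoImplicit false

noncomputable section

namespace Fermat.Agent.MAZ.F23

open Fermat.Agent.FLAT (Qb GQ)

/-- characters of a finite abelian group separate points. -/
theorem exists_addChar_ne_one {X : Type} [AddCommGroup X] [Finite X] {x : X} (hx : x ≠ 0) :
    ∃ lam : AddChar X Qb, lam x ≠ 1 := by
  have hexp : NeZero (Monoid.exponent (Multiplicative X)) :=
    ⟨(Monoid.exponent_ne_zero_of_finite)⟩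
  obtain ⟨φ, hφ⟩ := CommGroup.exists_apply_ne_one_of_hasEnoughRootsOfUnity (Multiplicative X) Qb
    (a := Multiplicative.ofAdd x) (by simpa using hx)
  let lam : AddChar X Qb := AddChar.toMonoidHomEquiv.symm ((Units.coeHom Qb).comp φ)
  have hlam : ∀ x : X, lam x = (φ (Multiplicative.ofAdd x) : Qb) := fun x => rfl
  refine ⟨lam, fun h => hφ (Units.ext ?_)⟩
  rw [← hlam, h]
  rfl

/-- **[F2]** -/
theorem act_eq_one_add_smul' {r N : ℕ} {Ar AN : ValuationSubring Qb} {X : Type}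
    [AddCommGroup X] {act : GQ →* AddMonoid.End X} {X0 Xf : AddSubgroup X}
    (h : Adm r N Ar AN act X0 Xf) {m : ℕ} (hm : ∀ v : X, r ^ m • v = 0) {s : GQ}
    (hs : s ∈ Ar.inertiaSubgroupIn ℚ) (hs' : ∀ ζ : Qb, ζ ^ r ^ m = 1 → s ζ = ζ ^ (1 + r)) :
    ∀ v ∈ X0, act s v = (1 + r) • v := by
  intro v hv
  have := h.finite
  by_contra hne
  obtain ⟨lam, hlam⟩ := exists_addChar_ne_one (sub_ne_zero.2 hne)
  apply hlam
  have h1 : lam (act s v) = lam ((1 + r) • v) := by
    rw [h.mult s hs v hv lam, AddChar.map_nsmul_eq_pow]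
    apply hs'
    rw [← AddChar.map_nsmul_eq_pow, hm, AddChar.map_zero_eq_one]
  have h2 : lam (act s v) = lam (act s v - (1 + r) • v) * lam ((1 + r) • v) := by
    rw [← AddChar.map_add_eq_mul, sub_add_cancel]
  rw [h1] at h2
  have h3 : lam ((1 + r) • v) ≠ 0 := (AddChar.val_isUnit lam _).ne_zero
  exact (mul_right_cancel₀ h3 (by rw [one_mul]; exact h2)).symm

/-- a finite `r`-group is killed by a power of `r`. -/
theorem exists_pow_smul_eq_zero' {r N : ℕ} {Ar AN : ValuationSubring Qb} {X : Type}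
    [AddCommGroup X] {act : GQ →* AddMonoid.End X} {X0 Xf : AddSubgroup X}
    (h : Adm r N Ar AN act X0 Xf) : ∃ m : ℕ, ∀ v : X, r ^ m • v = 0 := by
  have := h.finite
  have := Fintype.ofFinite X
  choose k hk using h.rgroup
  refine ⟨Finset.univ.sup k, fun v => ?_⟩
  have hle : k v ≤ Finset.univ.sup k := Finset.le_sup (Finset.mem_univ v)
  obtain ⟨d, hd⟩ := Nat.exists_eq_add_of_le hle
  rw [hd, pow_add, mul_comm, mul_smul, hk, smul_zero]

section pairing

variable {V Vs : Type} [AddCommGroup V] [AddCommGroup Vs] {actV : GQ →* AddMonoid.End V}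
  {acts : GQ →* AddMonoid.End Vs} {e : V → Vs → Qb}

theorem zero_left (P : IsPerfPair actV acts e) (y : Vs) : e 0 y = 1 := by
  have h := P.add_left 0 0 y
  rw [add_zero] at h
  exact (mul_right_cancel₀ (P.ne_zero 0 y) (by rw [one_mul]; exact h)).symm

theorem zero_right (P : IsPerfPair actV acts e) (x : V) : e x 0 = 1 := by
  have h := P.add_right x 0 0
  rw [add_zero] at h
  exact (mul_right_cancel₀ (P.ne_zero x 0) (by rw [one_mul]; exact h)).symm

theorem nsmul_left (P : IsPerfPair actV acts e) (n : ℕ) (x : V) (y : Vs) :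
    e (n • x) y = e x y ^ n := by
  induction n with
  | zero => rw [zero_smul, pow_zero, zero_left P]
  | succ n ih => rw [succ_nsmul, P.add_left, ih, pow_succ]

theorem nsmul_right (P : IsPerfPair actV acts e) (n : ℕ) (x : V) (y : Vs) :
    e x (n • y) = e x y ^ n := by
  induction n with
  | zero => rw [zero_smul, pow_zero, zero_right P]
  | succ n ih => rw [succ_nsmul, P.add_right, ih, pow_succ]

end pairing

variable {r N : ℕ} {Ar AN : ValuationSubring Qb} {X V Vs : Type} [AddCommGroup X]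
  [AddCommGroup V] [AddCommGroup Vs] {act : GQ →* AddMonoid.End X}
  {actV : GQ →* AddMonoid.End V} {acts : GQ →* AddMonoid.End Vs} {ι : V →+ X} {x0 : X} {k : ℕ}
  {e : V → Vs → Qb} {Y : AddSubgroup X} {Ws : AddSubgroup Vs} {τ0 : GQ}

/-- **[F3]**, with [F1] as a hypothesis. -/
theorem pow_eq_one' (hr : r.Prime)
    (hF1 : ∀ m : ℕ, ∃ s ∈ Ar.inertiaSubgroupIn ℚ, ∀ ζ : Qb, ζ ^ r ^ m = 1 → s ζ = ζ ^ (1 + r))
    (D : FinData r N Ar AN act actV acts ι x0 k e Y Ws τ0) {x : V} (hx : ι x ∈ Y) {y : Vs}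
    (hy : y ∈ Ws) : e x y ^ r = 1 := by
  obtain ⟨m1, hm1⟩ := exists_pow_smul_eq_zero' D.admX
  obtain ⟨m2, hm2⟩ := exists_pow_smul_eq_zero' D.admS
  have hX : ∀ v : X, r ^ (m1 + m2) • v = 0 := fun v => by
    rw [pow_add, mul_comm, mul_smul, hm1, smul_zero]
  have hS : ∀ v : Vs, r ^ (m1 + m2) • v = 0 := fun v => by
    rw [pow_add, mul_smul, hm2, smul_zero]
  obtain ⟨s, hs, hs'⟩ := hF1 (m1 + m2)
  have h1 : actV s x = (1 + r) • x := by
    apply D.inj
    rw [D.equiv, act_eq_one_add_smul' D.admX hX hs hs' _ hx, map_nsmul]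
  have h2 : acts s y = (1 + r) • y := act_eq_one_add_smul' D.admS hS hs hs' _ hy
  have hz : e x y ^ r ^ (m1 + m2) = 1 := by
    rw [← nsmul_right D.pair, hS, zero_right D.pair]
  have h3 := D.pair.equivariant s x y
  rw [h1, h2, nsmul_left D.pair, nsmul_right D.pair, hs' _ hz, ← pow_mul] at h3
  have h4 : e x y ^ ((1 + r) * r) = 1 := by
    have h5 : e x y ^ ((1 + r) * r) * e x y ^ (1 + r) = 1 * e x y ^ (1 + r) := by
      rw [← pow_add, one_mul]
      have : (1 + r) * r + (1 + r) = (1 + r) * (1 + r) := by ring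
      rw [this]
      exact h3
    exact mul_right_cancel₀ (pow_ne_zero _ (D.pair.ne_zero x y)) h5
  have h6 : orderOf (e x y) ∣ (1 + r) * r := orderOf_dvd_of_pow_eq_one h4
  have h7 : orderOf (e x y) ∣ r ^ (m1 + m2) := orderOf_dvd_of_pow_eq_one hz
  have h8 : Nat.Coprime (orderOf (e x y)) (1 + r) := by
    refine Nat.Coprime.coprime_dvd_left h7 (Nat.Coprime.pow_left _ ?_)
    simp
  exact orderOf_dvd_iff_pow_eq_one.1 (h8.dvd_of_dvd_mul_left h6)

end Fermat.Agent.MAZ.F23
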