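import Fermat.Agent.MAZ.Abs.FinDefs

/-!
# MAZ / Abs / (FIN) : the counting steps [F4], [F5] (from [F1]-[F3] and the orthogonality bound,
which are hypotheses here; the final statements are in `Abs/FinSteps.lean`).
-/

set_option autoImplicit false

noncomputable section

namespace Fermat.Agent.MAZ

open Fermat.Agent.FLAT (Qb GQ)

namespace F45

theorem card_le_card_map_mul_card_ker {G H : Type*} [AddCommGroup G] [AddCommGroup H] [Finite G]
    (f : G →+ H) (S : AddSubgroup G) :
    Nat.card S ≤ Nat.card (S.map f) * Nat.card f.ker := by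
  let g : S →+ H := f.comp S.subtype
  have h1 : Nat.card g.ker * g.ker.index = Nat.card S := g.ker.card_mul_index
  have h2 : g.ker.index = Nat.card (S.map f) := by
    rw [AddSubgroup.index_ker]
    have : g.range = S.map f := by
      rw [AddMonoidHom.range_eq_map, ← AddSubgroup.map_map, ← AddMonoidHom.range_eq_map,
        AddSubgroup.range_subtype]
    rw [this]
  have h3 : Nat.card g.ker ≤ Nat.card f.ker := by
    refine Nat.card_le_card_of_injective (fun x => ⟨x.1.1, x.2⟩) ?_
    intro x y hxy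
    have := congrArg Subtype.val hxy
    exact Subtype.ext (Subtype.ext this)
  rw [← h1, h2, mul_comm]
  exact Nat.mul_le_mul_left _ h3

variable {V Vs : Type} [AddCommGroup V] [AddCommGroup Vs]
  {actV : GQ →* AddMonoid.End V} {acts : GQ →* AddMonoid.End Vs} {e : V → Vs → Qb}

theorem map_zero_right (P : IsPerfPair actV acts e) (x : V) : e x 0 = 1 := by
  have h := P.add_right x 0 0
  rw [add_zero] at h
  exact (mul_eq_left₀ (P.ne_zero x 0)).1 h.symm

theorem map_nsmul_right (P : IsPerfPair actV acts e) (x : V) (y : Vs) (n : ℕ) :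
    e x (n • y) = e x y ^ n := by
  induction n with
  | zero => rw [zero_smul, pow_zero, map_zero_right P]
  | succ n ih => rw [succ_nsmul, P.add_right, ih, pow_succ]

/-- [F4], abstract form. -/
theorem card_mul_card_le [Finite V] [Finite Vs] (P : IsPerfPair actV acts e) (r : ℕ)
    (W : AddSubgroup V) (Ws : AddSubgroup Vs)
    (hpow : ∀ x ∈ W, ∀ y ∈ Ws, e x y ^ r = 1)
    (hperp : ∀ (B : AddSubgroup Vs) (C : AddSubgroup V), (∀ x ∈ C, ∀ y ∈ B, e x y = 1) →
      Nat.card C * Nat.card B ≤ Nat.card V) :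
    Nat.card W * Nat.card Ws ≤ Nat.card V * Nat.card (nsmulAddMonoidHom (α := Vs) r).ker := by
  have h1 := card_le_card_map_mul_card_ker (nsmulAddMonoidHom (α := Vs) r) Ws
  have h2 := hperp (Ws.map (nsmulAddMonoidHom (α := Vs) r)) W (by
    rintro x hx _ ⟨y, hy, rfl⟩
    show e x (r • y) = 1
    rw [map_nsmul_right P, hpow x hx y hy])
  calc Nat.card W * Nat.card Ws
      ≤ Nat.card W * (Nat.card (Ws.map (nsmulAddMonoidHom (α := Vs) r)) *
          Nat.card (nsmulAddMonoidHom (α := Vs) r).ker) := Nat.mul_le_mul_left _ h1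
    _ = (Nat.card W * Nat.card (Ws.map (nsmulAddMonoidHom (α := Vs) r))) *
          Nat.card (nsmulAddMonoidHom (α := Vs) r).ker := by ring
    _ ≤ _ := Nat.mul_le_mul_right _ h2

/-- [F5], abstract form. -/
theorem card_le_mul_card_comap {X : Type} [AddCommGroup X] [Finite X] [Finite V] (ι : V →+ X)
    (x0 : X)
    (gen : ∀ x : X, ∃ m : ℕ, x - m • x0 ∈ ι.range) {r : ℕ} (hr : 0 < r) (Y : AddSubgroup X)
    (h : ∀ x ∈ Y, r • x ∈ ι.range) : Nat.card Y ≤ r * Nat.card (Y.comap ι) := by
  classical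
  let g : Y →+ X ⧸ ι.range := (QuotientAddGroup.mk' ι.range).comp Y.subtype
  have h1 : Nat.card g.ker * g.ker.index = Nat.card Y := g.ker.card_mul_index
  rw [AddSubgroup.index_ker] at h1
  have hcyc : IsAddCyclic (X ⧸ ι.range) := by
    refine ⟨⟨QuotientAddGroup.mk' ι.range x0, ?_⟩⟩
    intro q
    obtain ⟨x, rfl⟩ := QuotientAddGroup.mk'_surjective ι.range q
    obtain ⟨m, hm⟩ := gen x
    refine ⟨(m : ℤ), ?_⟩
    show (m : ℤ) • QuotientAddGroup.mk' ι.range x0 = QuotientAddGroup.mk' ι.range x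
    rw [natCast_zsmul, ← map_nsmul, eq_comm, ← sub_eq_zero, ← map_sub]
    exact (QuotientAddGroup.eq_zero_iff _).2 hm
  have h2 : Nat.card g.range ≤ r := by
    let _ : Fintype (X ⧸ ι.range) := Fintype.ofFinite _
    refine le_trans ?_ (IsAddCyclic.card_nsmul_eq_zero_le (α := X ⧸ ι.range) hr)
    rw [← Fintype.card_subtype, ← Nat.card_eq_fintype_card]
    refine Nat.card_le_card_of_injective (fun q => ⟨q.1, ?_⟩) ?_
    · obtain ⟨y, hy⟩ := q.2
      rw [← hy]
      show r • QuotientAddGroup.mk' ι.range (y : X) = 0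
      rw [← map_nsmul]
      exact (QuotientAddGroup.eq_zero_iff _).2 (h y y.2)
    · intro q q' hqq'
      have h4 : (q : X ⧸ ι.range) = q' := (Subtype.mk.injEq _ _ _ _).mp hqq'
      exact Subtype.ext h4
  have h3 : Nat.card g.ker ≤ Nat.card (Y.comap ι) := by
    refine Nat.card_le_card_of_surjective
      (fun v : Y.comap ι => (⟨⟨ι v.1, v.2⟩, ?_⟩ : g.ker)) ?_
    · show QuotientAddGroup.mk' ι.range (ι v.1) = 0
      exact (QuotientAddGroup.eq_zero_iff _).2 ⟨v.1, rfl⟩
    · rintro ⟨⟨x, hx⟩, hxk⟩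
      have hx' : x ∈ ι.range := (QuotientAddGroup.eq_zero_iff _).1 hxk
      obtain ⟨v, rfl⟩ := hx'
      exact ⟨⟨v, hx⟩, rfl⟩
  rw [← h1, mul_comm]
  exact Nat.mul_le_mul h2 h3

end F45

end Fermat.Agent.MAZ
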