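import Fermat.Agent.MAZ.Abs.FinDefs

/-!
# MAZ / Abs / (FIN) : perfect pairings of finite abelian groups (WP MAZ-FIN-PAIR)

Characters with values in `ℚ̄ˣ`, written as additive homomorphisms `A →+ Additive ℚ̄ˣ`.
-/

set_option autoImplicit false

noncomputable section

namespace Fermat.Agent.MAZ

open Fermat.Agent.FLAT (Qb GQ)

/-- a finite abelian group has as many characters as elements. -/
theorem card_addHom_units (A : Type) [AddCommGroup A] [Finite A] :
    Nat.card (A →+ Additive Qbˣ) = Nat.card A := by
  have hexp : NeZero (Monoid.exponent (Multiplicative A)) :=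
    ⟨Monoid.exponent_ne_zero_of_finite⟩
  rw [Nat.card_congr (AddMonoidHom.toMultiplicativeLeft (α := A) (β := Qbˣ)),
    CommGroup.card_monoidHom_of_hasEnoughRootsOfUnity (Multiplicative A) Qb]
  exact Nat.card_congr Multiplicative.toAdd

instance finite_addHom_units (A : Type) [AddCommGroup A] [Finite A] :
    Finite (A →+ Additive Qbˣ) := by
  apply Nat.finite_of_card_ne_zero
  rw [card_addHom_units]
  exact Nat.card_pos.ne'

variable {V Vs : Type} [AddCommGroup V] [AddCommGroup Vs] {actV : GQ →* AddMonoid.End V}
  {acts : GQ →* AddMonoid.End Vs} {e : V → Vs → Qb}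

/-- `x ↦ e x ·`. -/
def IsPerfPair.homL (P : IsPerfPair actV acts e) : V →+ (Vs →+ Additive Qbˣ) :=
  AddMonoidHom.mk' (fun x => AddMonoidHom.mk'
    (fun y => Additive.ofMul (Units.mk0 (e x y) (P.ne_zero x y)))
    (fun y y' => by
      rw [← ofMul_mul]
      congr 1
      exact Units.ext (P.add_right x y y')))
    (fun x x' => by
      refine AddMonoidHom.ext fun y => ?_
      change Additive.ofMul (Units.mk0 (e (x + x') y) _) =
        Additive.ofMul (Units.mk0 (e x y) _) + Additive.ofMul (Units.mk0 (e x' y) _)
      rw [← ofMul_mul]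
      congr 1
      exact Units.ext (P.add_left x x' y))

theorem IsPerfPair.homL_apply (P : IsPerfPair actV acts e) (x : V) (y : Vs) :
    (((P.homL x y).toMul : Qbˣ) : Qb) = e x y := rfl

theorem IsPerfPair.homL_apply_eq_zero_iff (P : IsPerfPair actV acts e) (x : V) (y : Vs) :
    P.homL x y = 0 ↔ e x y = 1 := by
  constructor
  · intro h
    rw [← P.homL_apply, h]
    rfl
  · intro h
    have : (P.homL x y).toMul = 1 := Units.ext (by rw [P.homL_apply, h]; rfl)
    exact this

theorem IsPerfPair.homL_injective (P : IsPerfPair actV acts e) : Function.Injective P.homL := by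
  rw [injective_iff_map_eq_zero]
  intro x hx
  refine P.nondeg_left x fun y => ?_
  rw [← P.homL_apply_eq_zero_iff, hx]
  rfl

/-- the transposed pairing (as a pairing of abstract groups; the actions are exchanged). -/
theorem IsPerfPair.swap (P : IsPerfPair actV acts e) : IsPerfPair acts actV (fun y x => e x y) where
  ne_zero y x := P.ne_zero x y
  add_left y y' x := P.add_right x y y'
  add_right y x x' := P.add_left x x' y
  nondeg_left := P.nondeg_right
  nondeg_right := P.nondeg_left
  equivariant σ y x := P.equivariant σ x y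

theorem IsPerfPair.card_le [Finite V] [Finite Vs] (P : IsPerfPair actV acts e) :
    Nat.card V ≤ Nat.card Vs := by
  rw [← card_addHom_units Vs]
  exact Nat.card_le_card_of_injective _ P.homL_injective

theorem IsPerfPair.card_eq [Finite V] [Finite Vs] (P : IsPerfPair actV acts e) :
    Nat.card V = Nat.card Vs :=
  le_antisymm P.card_le P.swap.card_le

/-- perfect pairings: the orthogonal of a subgroup `B ≤ Vs` has `#V / #B` elements
(only `≤` is needed: `#B^⊥ * #B ≤ #V`). -/
theorem IsPerfPair.card_perp_mul_card_le [Finite V] [Finite Vs]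
    (P : IsPerfPair actV acts e) (B : AddSubgroup Vs) (C : AddSubgroup V)
    (h : ∀ x ∈ C, ∀ y ∈ B, e x y = 1) : Nat.card C * Nat.card B ≤ Nat.card V := by
  let Φ : C → (Vs ⧸ B →+ Additive Qbˣ) := fun c =>
    QuotientAddGroup.lift B (P.homL c) (fun y hy => (P.homL_apply_eq_zero_iff _ _).2 (h c c.2 y hy))
  have hΦ : Function.Injective Φ := by
    intro c c' hcc
    apply Subtype.ext
    apply P.homL_injective
    refine AddMonoidHom.ext fun y => ?_
    have := DFunLike.congr_fun hcc (y : Vs ⧸ B)
    exact this
  have h1 : Nat.card C ≤ Nat.card (Vs ⧸ B) := by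
    rw [← card_addHom_units (Vs ⧸ B)]
    exact Nat.card_le_card_of_injective Φ hΦ
  rw [P.card_eq, AddSubgroup.card_eq_card_quotient_mul_card_addSubgroup B]
  exact Nat.mul_le_mul_right _ h1

/-- perfect pairings: exact orthogonal. -/
theorem IsPerfPair.card_perp_mul_card_eq [Finite V] [Finite Vs]
    (P : IsPerfPair actV acts e) (B : AddSubgroup Vs) (C : AddSubgroup V)
    (h : ∀ x, x ∈ C ↔ ∀ y ∈ B, e x y = 1) : Nat.card C * Nat.card B = Nat.card V := by
  refine le_antisymm (P.card_perp_mul_card_le B C fun x hx => (h x).1 hx) ?_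
  let Ψ : V →+ (B →+ Additive Qbˣ) :=
    AddMonoidHom.mk' (fun x => (P.homL x).comp B.subtype) (fun x x' => by
      rw [map_add]
      rfl)
  have hker : Ψ.ker = C := by
    ext x
    rw [AddMonoidHom.mem_ker, h x]
    constructor
    · intro hx y hy
      have := DFunLike.congr_fun hx (⟨y, hy⟩ : B)
      exact (P.homL_apply_eq_zero_iff x y).1 this
    · intro hx
      refine AddMonoidHom.ext fun y => ?_
      exact (P.homL_apply_eq_zero_iff x y).2 (hx y y.2)
  have h1 : Nat.card Ψ.range ≤ Nat.card B := by
    rw [← card_addHom_units B]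
    exact Nat.card_le_card_of_injective _ Subtype.val_injective
  rw [← AddSubgroup.card_mul_index Ψ.ker, AddSubgroup.index_ker, hker]
  exact Nat.mul_le_mul_left _ h1

end Fermat.Agent.MAZ
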