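import Fermat.Agent.MAZ.Abs.FinDefs
import Fermat.Agent.MAZ.Abs.FinF45
import Fermat.Agent.MAZ.Abs.FinF23
import Fermat.Agent.MAZ.Abs.FinPair
import Fermat.Agent.MAZ.Abs.FinCyc
import Fermat.Agent.MAZ.Abs.FinF1

/-!
# MAZ / Abs / (FIN) : the steps

Notation: `W := Y.comap ι` (connected part of `V`), `Ws` (connected part of `Vs`), `I = I_N`.

* [F1] `exists_inertia_one_add` : `ℚ(μ_{r^m})` is totally ramified at `r` and the cyclotomic character is onto:
  there is `s ∈ I_{Ar}` with `s ζ = ζ ^ (1 + r)` on `μ_{r^m}`.  (Surjectivity: `IsCyclotomicExtension`/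
  `Polynomial.cyclotomic.irreducible_rat` + `IsPrimitiveRoot.autToPow` is bijective, lift to `G_ℚ`; then the
  Minkowski argument of `exists_inertia_mul_mem_fixMu` (Abs/Line.lean) with `μ_r` replaced by `μ_{r^m}`.)
* [F2] `Adm.act_eq_one_add_smul` : `mult` + characters separate points (values of characters of an `r`-group killed
  by `r^m` are in `μ_{r^m}`) : `act s v = (1 + r) • v` for `v ∈ X0`.
* [F3] `pow_eq_one` : `x ∈ W`, `y ∈ Ws` : `e x y ^ (1+r)^2 = e (s x) (s y) = s (e x y) = e x y ^ (1+r)`, and `e x y` is a root of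
  unity of `r`-power order: `e x y ^ r = 1` (`(1+r) r` and `r` generate the same ideal mod `r^m`).
* [F4] `card_W_mul_card_Ws_le` : `r Ws ⊥ W`; perfect pairing: `#W ≤ #V / #(r Ws)`, `#(r Ws) = #Ws / #Ws[r]`.
* [F5] `card_Y_le` : `r • x = act s x - x ∈ ι V` for `x ∈ Y`; `X / ι V` cyclic.
* [F6] `card_invI_mul_index` : `V^I = ker (τ0 - 1) = ((τ0 - 1) Vs)^⊥` (`σ ∈ I_N` fixes the values of `e`, which are roots of
  unity of order prime to `N` : `FLAT.inertia_apply_eq_of_pow_eq_one`), `[Vs : Vs^I] = #(τ0 - 1) Vs`.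
  NOTE `V^I = ker(τ0 - 1 on V)` follows from `τ0_X`, `equiv`, `inj`.
* [F7] `index_invI_le` : `X / X^I ≅ (τ0 - 1) X ↪ V^I`.
-/

set_option autoImplicit false

noncomputable section

namespace Fermat.Agent.MAZ

open Fermat.Agent.FLAT (Qb GQ)

/-- **[F1]** -/
theorem exists_inertia_one_add {r : ℕ} (hr : r.Prime) {A : ValuationSubring Qb}
    (hA : A.LiesOverPrime r) (m : ℕ) :
    ∃ s ∈ A.inertiaSubgroupIn ℚ, ∀ ζ : Qb, ζ ^ r ^ m = 1 → s ζ = ζ ^ (1 + r) :=
  exists_inertia_one_add' hr hA m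

/-- **[F2]** -/
theorem Adm.act_eq_one_add_smul {r N : ℕ} {Ar AN : ValuationSubring Qb} {X : Type}
    [AddCommGroup X] {act : GQ →* AddMonoid.End X} {X0 Xf : AddSubgroup X}
    (h : Adm r N Ar AN act X0 Xf) {m : ℕ} (hm : ∀ v : X, r ^ m • v = 0) {s : GQ}
    (hs : s ∈ Ar.inertiaSubgroupIn ℚ) (hs' : ∀ ζ : Qb, ζ ^ r ^ m = 1 → s ζ = ζ ^ (1 + r)) :
    ∀ v ∈ X0, act s v = (1 + r) • v :=
  F23.act_eq_one_add_smul' h hm hs hs'

/-- a finite `r`-group is killed by a power of `r`. -/
theorem Adm.exists_pow_smul_eq_zero {r N : ℕ} {Ar AN : ValuationSubring Qb} {X : Type}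
    [AddCommGroup X] {act : GQ →* AddMonoid.End X} {X0 Xf : AddSubgroup X}
    (h : Adm r N Ar AN act X0 Xf) : ∃ m : ℕ, ∀ v : X, r ^ m • v = 0 :=
  F23.exists_pow_smul_eq_zero' h

variable {r N : ℕ} {Ar AN : ValuationSubring Qb} {X V Vs : Type} [AddCommGroup X]
  [AddCommGroup V] [AddCommGroup Vs] {act : GQ →* AddMonoid.End X}
  {actV : GQ →* AddMonoid.End V} {acts : GQ →* AddMonoid.End Vs} {ι : V →+ X} {x0 : X} {k : ℕ}
  {e : V → Vs → Qb} {Y : AddSubgroup X} {Ws : AddSubgroup Vs} {τ0 : GQ}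

theorem FinData.finite_V (D : FinData r N Ar AN act actV acts ι x0 k e Y Ws τ0) : Finite V :=
  have := D.admX.finite
  Finite.of_injective ι D.inj

/-- **[F3]** -/
theorem FinData.pow_eq_one (hr : r.Prime) (hAr : Ar.LiesOverPrime r)
    (D : FinData r N Ar AN act actV acts ι x0 k e Y Ws τ0) {x : V} (hx : ι x ∈ Y) {y : Vs}
    (hy : y ∈ Ws) : e x y ^ r = 1 :=
  F23.pow_eq_one' hr (fun m => exists_inertia_one_add hr hAr m) D hx hy

-- `IsPerfPair.card_perp_mul_card_le`, `card_perp_mul_card_eq`, `card_eq` : see `Abs/FinPair.lean`.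

/-- **[F4]** -/
theorem FinData.card_W_mul_card_Ws_le (hr : r.Prime) (hAr : Ar.LiesOverPrime r)
    (D : FinData r N Ar AN act actV acts ι x0 k e Y Ws τ0) :
    Nat.card (Y.comap ι) * Nat.card Ws ≤
      Nat.card V * Nat.card (nsmulAddMonoidHom (α := Vs) r).ker := by
  have := D.finite_V
  have := D.admS.finite
  exact F45.card_mul_card_le D.pair r (Y.comap ι) Ws
    (fun x hx y hy => D.pow_eq_one hr hAr hx hy)
    (fun B C h => D.pair.card_perp_mul_card_le B C h)

/-- **[F5]** -/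
theorem FinData.card_Y_le (hr : r.Prime) (hAr : Ar.LiesOverPrime r)
    (D : FinData r N Ar AN act actV acts ι x0 k e Y Ws τ0) :
    Nat.card Y ≤ r * Nat.card (Y.comap ι) := by
  have := D.admX.finite
  have := D.finite_V
  obtain ⟨m, hm⟩ := D.admX.exists_pow_smul_eq_zero
  obtain ⟨s, hs, hs'⟩ := exists_inertia_one_add hr hAr m
  refine F45.card_le_mul_card_comap ι x0 D.gen hr.pos Y (fun x hx => ?_)
  have h1 := D.admX.act_eq_one_add_smul hm hs hs' x hx
  have h2 := D.triv s x
  rw [h1, add_smul, one_smul, add_sub_cancel_left] at h2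
  exact h2

/-- **[F6]** -/
theorem FinData.card_invI_mul_index (hr : r.Prime) (hN : N.Prime) (hrN : r ≠ N)
    (hAN : AN.LiesOverPrime N) (D : FinData r N Ar AN act actV acts ι x0 k e Y Ws τ0) :
    Nat.card (invI AN actV) * (invI AN acts).index = Nat.card V := by
  have hfX : Finite X := D.admX.finite
  have hfV : Finite V := D.finite_V
  have hfS : Finite Vs := D.admS.finite
  have P := D.pair
  have : Fact N.Prime := ⟨hN⟩
  -- formal properties of the pairing
  have e_zero : ∀ y, e 0 y = 1 := by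
    intro y
    have h := P.add_left 0 0 y
    rw [add_zero] at h
    exact (mul_eq_left₀ (P.ne_zero 0 y)).1 h.symm
  have e_nsmul : ∀ (n : ℕ) x y, e (n • x) y = e x y ^ n := by
    intro n x y
    induction n with
    | zero => rw [zero_smul, pow_zero, e_zero]
    | succ n ih => rw [succ_nsmul, P.add_left, ih, pow_succ]
  -- the values of `e` are fixed by the inertia group at `N`
  have e_fix : ∀ x y, τ0 (e x y) = e x y := by
    intro x y
    obtain ⟨j, hj⟩ := D.admX.rgroup (ι x)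
    have hj' : r ^ j • x = 0 := by
      apply D.inj
      rw [map_nsmul, hj, map_zero]
    have h1 : e x y ^ r ^ j = 1 := by rw [← e_nsmul, hj', e_zero]
    have hcop : Nat.Coprime N (r ^ j) :=
      Nat.Coprime.pow_right j ((Nat.coprime_primes hN hr).2 (Ne.symm hrN))
    exact FLAT.inertia_apply_eq_of_pow_eq_one hAN hcop h1 D.τ0_mem
  have e_inv : ∀ x y, e (actV τ0 x) (acts τ0 y) = e x y := fun x y => by
    rw [P.equivariant, e_fix]
  -- `V^I = ker (τ0 - 1)`
  have hVI : ∀ x, x ∈ invI AN actV ↔ actV τ0 x = x := by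
    intro x
    constructor
    · intro h
      exact h τ0 D.τ0_mem
    · intro h σ hσ
      have h1 : ι x ∈ invI AN act := D.τ0_X _ (by rw [← D.equiv, h])
      apply D.inj
      rw [D.equiv]
      exact h1 σ hσ
  -- `B = (τ0 - 1) Vs`
  let a0 : Vs →+ Vs := acts τ0
  let δ : Vs →+ Vs := a0 - AddMonoidHom.id Vs
  have hδ : ∀ y, δ y = acts τ0 y - y := fun y => rfl
  have hker : δ.ker = invI AN acts := by
    ext y
    rw [AddMonoidHom.mem_ker, hδ, sub_eq_zero]
    exact ⟨fun h => D.τ0_S y h, fun h => h τ0 D.τ0_mem⟩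
  have hsurj : Function.Surjective (acts τ0) := by
    intro y
    refine ⟨acts τ0⁻¹ y, ?_⟩
    have : acts τ0 (acts τ0⁻¹ y) = (acts τ0 * acts τ0⁻¹) y := rfl
    rw [this, ← map_mul, mul_inv_cancel, map_one]
    rfl
  rw [← hker, AddSubgroup.index_ker]
  refine P.card_perp_mul_card_eq δ.range (invI AN actV) fun x => ?_
  rw [hVI]
  constructor
  · rintro hx _ ⟨y, rfl⟩
    have h1 : e x (acts τ0 y) = e x y := by
      conv_lhs => rw [← hx]
      exact e_inv x y
    have h2 : e x (acts τ0 y) = e x (δ y) * e x y := by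
      rw [← P.add_right, hδ, sub_add_cancel]
    rw [h1] at h2
    exact (mul_eq_right₀ (P.ne_zero x y)).1 h2.symm
  · intro hx
    have h0 : actV τ0 x - x = 0 := by
      apply P.nondeg_left
      intro y'
      obtain ⟨y, rfl⟩ := hsurj y'
      have h2 : e x (acts τ0 y) = e x (δ y) * e x y := by
        rw [← P.add_right, hδ, sub_add_cancel]
      rw [hx (δ y) ⟨y, rfl⟩, one_mul] at h2
      have h3 : e (actV τ0 x) (acts τ0 y) = e (actV τ0 x - x) (acts τ0 y) * e x (acts τ0 y) := by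
        rw [← P.add_left, sub_add_cancel]
      rw [e_inv, h2] at h3
      exact (mul_eq_right₀ (P.ne_zero x y)).1 h3.symm
    exact sub_eq_zero.1 h0

/-- **[F7]** -/
theorem FinData.index_invI_le (D : FinData r N Ar AN act actV acts ι x0 k e Y Ws τ0) :
    (invI AN act).index ≤ Nat.card (invI AN actV) := by
  have hfX : Finite X := D.admX.finite
  have hfV : Finite V := D.finite_V
  let a0 : X →+ X := act τ0
  let δ : X →+ X := a0 - AddMonoidHom.id X
  have hδ : ∀ x, δ x = act τ0 x - x := fun x => rfl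
  have hker : δ.ker = invI AN act := by
    ext x
    rw [AddMonoidHom.mem_ker, hδ, sub_eq_zero]
    exact ⟨fun h => D.τ0_X x h, fun h => h τ0 D.τ0_mem⟩
  rw [← hker, AddSubgroup.index_ker]
  have hle : δ.range ≤ (invI AN actV).map ι := by
    rintro _ ⟨x, rfl⟩
    obtain ⟨v, hv, hv'⟩ := D.unipW x
    exact ⟨v, hv, by rw [hv', hδ]⟩
  calc Nat.card δ.range ≤ Nat.card ((invI AN actV).map ι) := AddSubgroup.card_le_of_le hle
    _ = Nat.card (invI AN actV) := AddSubgroup.card_map_of_injective D.inj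

/-- a subgroup `S` of `X` whose intersection with `ι V` has at most `r^a` elements and with
`r^(k-c) ≤ #S * ...` : cyclic group argument.  If `r ^ k ≤ #S * r ^ c` and `#(S ∩ ι V) ≤ r ^ a` then
`r ^ (c + a) • x0 ∈ S + ι V`. -/
theorem FinData.exists_mem_of_card (hr : r.Prime)
    (D : FinData r N Ar AN act actV acts ι x0 k e Y Ws τ0) (S : AddSubgroup X) {c a : ℕ}
    (h1 : r ^ k ≤ Nat.card S * r ^ c) (h2 : Nat.card (S.comap ι) ≤ r ^ a) :
    ∃ x ∈ S, x - r ^ (c + a) • x0 ∈ ι.range :=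
  exists_mem_sub_mem_range_of_card hr ι D.inj D.index S h1 h2 x0

end Fermat.Agent.MAZ
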