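import Mathlib

set_option autoImplicit false

namespace Fermat.Agent.MAZ.ESU

/-- commutative version -/
theorem exists_pow_eq_one_comm {S : Type*} [CommRing S] {r k : ℕ} (hr : r.Prime)
    (hk : (r : S) ^ k = 0) (F η : S) {M : ℕ}
    (hη : η ^ M = 0) {ℓ a : ℕ} (hes : (F - 1) * (F - (ℓ : S)) = η * F)
    (ha : ℓ ^ a % r = 1) : ∃ m : ℕ, (F ^ a) ^ r ^ m = 1 := by
  -- `F ^ a - 1` is nilpotent
  have hnil : IsNilpotent (F ^ a - 1) := by
    rw [← mem_nilradical, nilradical_eq_sInf, Ideal.mem_sInf]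
    intro P hP
    have hP : P.IsPrime := hP
    have hrP : (r : S) ∈ P := hP.mem_of_pow_mem k (by rw [hk]; exact P.zero_mem)
    have hηP : η ∈ P := hP.mem_of_pow_mem M (by rw [hη]; exact P.zero_mem)
    have h1 : (F - 1) * (F - (ℓ : S)) ∈ P := by rw [hes]; exact P.mul_mem_right _ hηP
    rcases hP.mem_or_mem h1 with h | h
    · have := sub_dvd_pow_sub_pow F 1 a
      rw [one_pow] at this
      exact P.mem_of_dvd this h
    · have h2 : F ^ a - (ℓ : S) ^ a ∈ P := P.mem_of_dvd (sub_dvd_pow_sub_pow F (ℓ : S) a) h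
      have h3 : (ℓ : S) ^ a - 1 ∈ P := by
        have h4 : ℓ ^ a = r * (ℓ ^ a / r) + 1 := by
          conv_lhs => rw [← Nat.div_add_mod (ℓ ^ a) r, ha]
        have h5 : (ℓ : S) ^ a = (r : S) * ((ℓ ^ a / r : ℕ) : S) + 1 := by
          exact_mod_cast congrArg (Nat.cast : ℕ → S) h4
        rw [h5, add_sub_cancel_right]
        exact P.mul_mem_right _ hrP
      have := P.add_mem h2 h3
      rwa [sub_add_sub_cancel] at this
  obtain ⟨n, hn⟩ := hnil
  obtain ⟨t, ht⟩ := exists_add_pow_prime_pow_eq hr (F ^ a - 1) 1 n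
  have h0 : (F ^ a - 1) ^ r ^ n = 0 :=
    pow_eq_zero_of_le (Nat.lt_pow_self hr.one_lt).le hn
  rw [sub_add_cancel, h0, one_pow, zero_add] at ht
  have hd : (r : S) ∣ (F ^ a) ^ r ^ n - 1 := ⟨(F ^ a - 1) * 1 * t, by rw [ht]; ring⟩
  have h2 := dvd_sub_pow_of_dvd_sub hd k
  refine ⟨n + k, ?_⟩
  rw [one_pow, pow_succ, hk, zero_mul, zero_dvd_iff, sub_eq_zero, ← pow_mul, ← pow_add] at h2
  exact h2

open scoped IsMulCommutative in
theorem exists_pow_eq_one_of_es' {V : Type*} [AddCommGroup V] {r k : ℕ} (hr : r.Prime)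
    (hV : ∀ v : V, r ^ k • v = 0) (F η : AddMonoid.End V) (hc : Commute F η) {M : ℕ}
    (hη : η ^ M = 0) {ℓ a : ℕ} (hes : (F - 1) * (F - (ℓ : AddMonoid.End V)) = η * F)
    (ha : ℓ ^ a % r = 1) : ∃ m : ℕ, (F ^ a) ^ r ^ m = 1 := by
  let s : Set (AddMonoid.End V) := {F, η}
  have hcomm : ∀ x ∈ s, ∀ y ∈ s, x * y = y * x := by
    rintro x (rfl | rfl) y (rfl | rfl)
    · rfl
    · exact hc
    · exact hc.symm
    · rfl
  have hmc : IsMulCommutative (Subring.closure s) := Subring.isMulCommutative_closure hcomm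
  let F' : Subring.closure s := ⟨F, Subring.subset_closure (by simp [s])⟩
  let η' : Subring.closure s := ⟨η, Subring.subset_closure (by simp [s])⟩
  have hk : ((r : Subring.closure s)) ^ k = 0 := by
    apply Subtype.ext
    show ((r : AddMonoid.End V)) ^ k = 0
    ext v
    have : ((r : AddMonoid.End V)) ^ k = ((r ^ k : ℕ) : AddMonoid.End V) := by push_cast; rfl
    rw [this, AddMonoid.End.natCast_apply, hV]
    rfl
  obtain ⟨m, hm⟩ := exists_pow_eq_one_comm (S := Subring.closure s) hr hk F' η' (M := M)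
    (Subtype.ext hη) (ℓ := ℓ) (a := a) (Subtype.ext hes) ha
  exact ⟨m, congrArg Subtype.val hm⟩

end Fermat.Agent.MAZ.ESU
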