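import Fermat.Agent.MAZ.Abs.Jac
import Fermat.Agent.MAZ.Abs.LeafESU

/-!
# MAZ / Abs / abstract leaves for the instantiation of `JacHyp` : [FIT], [PERP], [ESU]
-/

set_option autoImplicit false

noncomputable section

namespace Fermat.Agent.MAZ

open Fermat.Agent.FLAT (Qb GQ)

variable {J : Type} [AddCommGroup J]

/-- the `n`-torsion subgroup. -/
def torsSub (J : Type) [AddCommGroup J] (n : ℕ) : AddSubgroup J :=
  (nsmulAddMonoidHom (α := J) n).ker

theorem mem_torsSub {n : ℕ} {x : J} : x ∈ torsSub J n ↔ n • x = 0 := Iff.rfl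

/-- the candidate projector `∏ (1 - η ^ M)`. -/
def fitProj (l : List (AddMonoid.End J)) (M : ℕ) : AddMonoid.End J :=
  (l.map (fun η => 1 - η ^ M)).prod

theorem fit_mul_apply (f g : AddMonoid.End J) (x : J) : (f * g) x = f (g x) := rfl

theorem fit_sub_apply (f g : AddMonoid.End J) (x : J) : (f - g) x = f x - g x := rfl

theorem fit_tors {n : ℕ} (f : AddMonoid.End J) {x : J} (hx : n • x = 0) : n • f x = 0 := by
  rw [← map_nsmul, hx, map_zero]

theorem fitProj_cons (η : AddMonoid.End J) (l : List (AddMonoid.End J)) (M : ℕ) :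
    fitProj (η :: l) M = (1 - η ^ M) * fitProj l M := by
  unfold fitProj
  rw [List.map_cons, List.prod_cons]

theorem fit_commute (l : List (AddMonoid.End J)) (M : ℕ) (g : AddMonoid.End J)
    (hg : ∀ η ∈ l, Commute g η) : Commute g (fitProj l M) := by
  unfold fitProj
  refine Commute.list_prod_right _ _ fun y hy => ?_
  obtain ⟨η, hη, rfl⟩ := List.mem_map.1 hy
  exact (Commute.one_right g).sub_right ((hg η hη).pow_right M)

/-- an idempotent power on `J[n]`. -/
theorem fit_exists_idem {n : ℕ} (hfin : {x : J | n • x = 0}.Finite) (η : AddMonoid.End J) :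
    ∃ M : ℕ, 0 < M ∧ ∀ x : J, n • x = 0 → (η ^ M) ((η ^ M) x) = (η ^ M) x := by
  have : Finite {x : J | n • x = 0} := hfin
  let F : ℕ → ({x : J | n • x = 0} → {x : J | n • x = 0}) := fun i x => ⟨(η ^ i) x, fit_tors _ x.2⟩
  obtain ⟨i, j, hij, hF⟩ : ∃ i j, i < j ∧ F i = F j := by
    obtain ⟨i, j, hne, hF⟩ := Finite.exists_ne_map_eq_of_infinite F
    rcases lt_or_gt_of_ne hne with h | h
    · exact ⟨i, j, h, hF⟩
    · exact ⟨j, i, h, hF.symm⟩
  obtain ⟨d, hd, rfl⟩ : ∃ d, 0 < d ∧ j = i + d := ⟨j - i, by omega, by omega⟩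
  have h0 : ∀ x : J, n • x = 0 → (η ^ (i + d)) x = (η ^ i) x := fun x hx =>
    (congrArg Subtype.val (congrFun hF ⟨x, hx⟩)).symm
  have h1 : ∀ m : ℕ, ∀ x : J, n • x = 0 → (η ^ (i + m + d)) x = (η ^ (i + m)) x := by
    intro m x hx
    have e1 : i + m + d = m + (i + d) := by ring
    have e2 : i + m = m + i := by ring
    rw [e1, e2, pow_add, pow_add η m i, fit_mul_apply, fit_mul_apply, h0 x hx]
  have h2 : ∀ k m : ℕ, ∀ x : J, n • x = 0 → (η ^ (i + m + k * d)) x = (η ^ (i + m)) x := by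
    intro k
    induction k with
    | zero => intro m x _; simp
    | succ k ih =>
      intro m x hx
      have e1 : i + m + (k + 1) * d = i + (m + k * d) + d := by ring
      rw [e1, h1 _ x hx, ← add_assoc, ih m x hx]
  refine ⟨(i + 1) * d, Nat.mul_pos (Nat.succ_pos i) hd, fun x hx => ?_⟩
  obtain ⟨m, hm⟩ : ∃ m, (i + 1) * d = i + m := ⟨(i + 1) * d - i, by
    have : i + 1 ≤ (i + 1) * d := Nat.le_mul_of_pos_right _ hd
    omega⟩
  rw [← fit_mul_apply, ← pow_add]
  nth_rewrite 1 [hm]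
  rw [h2 _ _ x hx, hm]

/-- multiples of an idempotent exponent. -/
theorem fit_pow_mul {n : ℕ} (η : AddMonoid.End J) {M : ℕ}
    (h : ∀ x : J, n • x = 0 → (η ^ M) ((η ^ M) x) = (η ^ M) x) (t : ℕ) :
    ∀ x : J, n • x = 0 → (η ^ (M * (t + 1))) x = (η ^ M) x := by
  induction t with
  | zero => intro x _; simp
  | succ t ih =>
    intro x hx
    rw [mul_add, mul_one, pow_add, fit_mul_apply, ih _ (fit_tors _ hx), h x hx]

theorem fit_idem_mul {n : ℕ} (η : AddMonoid.End J) {M : ℕ}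
    (h : ∀ x : J, n • x = 0 → (η ^ M) ((η ^ M) x) = (η ^ M) x) {t : ℕ} (ht : 0 < t) :
    ∀ x : J, n • x = 0 → (η ^ (M * t)) ((η ^ (M * t)) x) = (η ^ (M * t)) x := by
  obtain ⟨t, rfl⟩ : ∃ s, t = s + 1 := ⟨t - 1, by omega⟩
  intro x hx
  rw [fit_pow_mul η h t x hx, fit_pow_mul η h t _ (fit_tors _ hx), h x hx]

theorem fit_exists_common {n : ℕ} (hfin : {x : J | n • x = 0}.Finite)
    (l : List (AddMonoid.End J)) :
    ∃ M : ℕ, 0 < M ∧ ∀ η ∈ l, ∀ x : J, n • x = 0 → (η ^ M) ((η ^ M) x) = (η ^ M) x := by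
  induction l with
  | nil => exact ⟨1, one_pos, fun η hη => absurd hη (List.not_mem_nil)⟩
  | cons η l ih =>
    obtain ⟨M, hM, h⟩ := ih
    obtain ⟨M', hM', h'⟩ := fit_exists_idem hfin η
    refine ⟨M * M', Nat.mul_pos hM hM', fun ξ hξ => ?_⟩
    rcases List.mem_cons.1 hξ with rfl | hξ
    · rw [mul_comm]; exact fit_idem_mul ξ h' hM
    · exact fit_idem_mul ξ (h ξ hξ) hM'

theorem fit_idem {n M : ℕ} (l : List (AddMonoid.End J))
    (hcomm : ∀ a ∈ l, ∀ b ∈ l, Commute a b)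
    (h : ∀ η ∈ l, ∀ x : J, n • x = 0 → (η ^ M) ((η ^ M) x) = (η ^ M) x) :
    ∀ x : J, n • x = 0 → fitProj l M (fitProj l M x) = fitProj l M x := by
  induction l with
  | nil => intro x _; simp [fitProj]
  | cons η l ih =>
    intro x hx
    have ih' := ih (fun a ha b hb => hcomm a (List.mem_cons_of_mem _ ha) b
      (List.mem_cons_of_mem _ hb)) (fun ξ hξ => h ξ (List.mem_cons_of_mem _ hξ))
    have hc : Commute (1 - η ^ M) (fitProj l M) :=
      fit_commute l M _ fun ξ hξ => (Commute.one_left ξ).sub_left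
        ((hcomm η List.mem_cons_self ξ (List.mem_cons_of_mem _ hξ)).pow_left M)
    have hp : ∀ y : J, n • y = 0 → (1 - η ^ M) ((1 - η ^ M) y) = (1 - η ^ M) y := by
      intro y hy
      have := h η List.mem_cons_self y hy
      simp only [fit_sub_apply, AddMonoid.End.one_apply, map_sub, this]
      abel
    have e : ∀ y : J, fitProj l M ((1 - η ^ M) y) = (1 - η ^ M) (fitProj l M y) := fun y => by
      rw [← fit_mul_apply, ← fit_mul_apply, hc.eq]
    rw [fitProj_cons, fit_mul_apply, fit_mul_apply, e, ih' x hx,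
      hp _ (fit_tors _ hx)]

theorem fit_kill {n M : ℕ} (l : List (AddMonoid.End J))
    (hcomm : ∀ a ∈ l, ∀ b ∈ l, Commute a b)
    (h : ∀ η ∈ l, ∀ x : J, n • x = 0 → (η ^ M) ((η ^ M) x) = (η ^ M) x) :
    ∀ η ∈ l, ∀ x : J, n • x = 0 → (η ^ M) (fitProj l M x) = 0 := by
  induction l with
  | nil => intro η hη; exact absurd hη List.not_mem_nil
  | cons η l ih =>
    intro ξ hξ x hx
    have ih' := ih (fun a ha b hb => hcomm a (List.mem_cons_of_mem _ ha) b
      (List.mem_cons_of_mem _ hb)) (fun ξ hξ => h ξ (List.mem_cons_of_mem _ hξ))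
    rw [fitProj_cons, fit_mul_apply]
    rcases List.mem_cons.1 hξ with rfl | hξ'
    · have := h ξ List.mem_cons_self _ (fit_tors (fitProj l M) hx)
      simp only [fit_sub_apply, AddMonoid.End.one_apply, map_sub, this, sub_self]
    · have hc : Commute (ξ ^ M) (1 - η ^ M) :=
        (Commute.one_right _).sub_right
          ((hcomm ξ hξ η List.mem_cons_self).pow_pow M M)
      rw [← fit_mul_apply, hc.eq, fit_mul_apply, ih' ξ hξ' x hx, map_zero]

/-- **[FIT]** Fitting projector.  In the finite monoid of endomorphisms of `J[n]` every element has an idempotent power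
`η ^ M`, `M > 0` (pigeonhole), and then `η ^ (M t)` is the same idempotent for `t ≥ 1`: take a common `M`.  The factors
`1 - η ^ M` are commuting idempotents on `J[n]`; `η ^ M (1 - η ^ M) = 0` on `J[n]`. -/
theorem exists_fitting {n : ℕ} (hfin : {x : J | n • x = 0}.Finite) (l : List (AddMonoid.End J))
    (hcomm : ∀ a ∈ l, ∀ b ∈ l, Commute a b) :
    ∃ M : ℕ, 0 < M ∧
      (∀ x : J, n • x = 0 → fitProj l M (fitProj l M x) = fitProj l M x) ∧
      (∀ x : J, n • x = 0 → fitProj l M x = x → ∀ η ∈ l, (η ^ M) x = 0) := by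
  obtain ⟨M, hM, h⟩ := fit_exists_common hfin l
  refine ⟨M, hM, fit_idem l hcomm h, fun x hx hfx η hη => ?_⟩
  rw [← hfx]
  exact fit_kill l hcomm h η hη x hx

theorem fitProj_apply_of_forall_eq_zero (l : List (AddMonoid.End J)) {M : ℕ} (hM : 0 < M) {c : J}
    (hc : ∀ η ∈ l, η c = 0) : fitProj l M c = c := by
  induction l with
  | nil => simp [fitProj]
  | cons η l ih =>
    rw [fitProj_cons, fit_mul_apply, ih fun ξ hξ => hc ξ (List.mem_cons_of_mem _ hξ)]
    obtain ⟨m, rfl⟩ : ∃ m, M = m + 1 := ⟨M - 1, by omega⟩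
    rw [fit_sub_apply, pow_succ, fit_mul_apply, hc η List.mem_cons_self,
      map_zero, sub_zero, AddMonoid.End.one_apply]

theorem fitProj_comm (l : List (AddMonoid.End J)) (M : ℕ) (g : AddMonoid.End J)
    (hg : ∀ η ∈ l, Commute g η) (x : J) : fitProj l M (g x) = g (fitProj l M x) := by
  rw [← fit_mul_apply, ← fit_mul_apply, (fit_commute l M g hg).eq]

/-- **[PERP]** `S := (ker ε on J[n])^⊥` is in perfect duality with `V = ε J[n]`.
(`nondeg_right` : `J[n] = V + ker ε`.  `nondeg_left` : `v ⊥ S` ⟹ `v ∈ ((ker ε)^⊥)^⊥ = ker ε` (count with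
`IsPerfPair.card_perp_mul_card_eq`), and `ε v = v`.) -/
theorem exists_perp {actJ : GQ →* AddMonoid.End J} {n : ℕ} {ε : AddMonoid.End J}
    (comm : ∀ (σ : GQ) (x : J), ε (actJ σ x) = actJ σ (ε x))
    (idem : ∀ x : J, n • x = 0 → ε (ε x) = ε x) (hfin : {x : J | n • x = 0}.Finite)
    (w : J → J → Qb) (hT : ∀ σ : GQ, ∀ t ∈ torsSub J n, actJ σ t ∈ torsSub J n)
    (P : IsPerfPair (subAct actJ (torsSub J n) hT) (subAct actJ (torsSub J n) hT)
      (fun x y => w x y)) :
    ∃ (S : AddSubgroup J) (_ : ∀ s ∈ S, n • s = 0) (h2 : ∀ σ : GQ, ∀ s ∈ S, actJ σ s ∈ S),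
      IsPerfPair (epsAct (n := n) comm) (subAct actJ S h2)
        (fun (v : epsTors n ε) (s : S) => w v s) := by
  have hTfin : Finite (torsSub J n) := hfin
  -- pointwise forms of the pairing axioms
  have w_ne : ∀ x y : J, n • x = 0 → n • y = 0 → w x y ≠ 0 := fun x y hx hy =>
    P.ne_zero ⟨x, hx⟩ ⟨y, hy⟩
  have w_addl : ∀ x x' y : J, n • x = 0 → n • x' = 0 → n • y = 0 →
      w (x + x') y = w x y * w x' y := fun x x' y hx hx' hy =>
    P.add_left ⟨x, hx⟩ ⟨x', hx'⟩ ⟨y, hy⟩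
  have w_addr : ∀ x y y' : J, n • x = 0 → n • y = 0 → n • y' = 0 →
      w x (y + y') = w x y * w x y' := fun x y y' hx hy hy' =>
    P.add_right ⟨x, hx⟩ ⟨y, hy⟩ ⟨y', hy'⟩
  have w_eq : ∀ (σ : GQ) (x y : J), n • x = 0 → n • y = 0 →
      w (actJ σ x) (actJ σ y) = σ (w x y) := fun σ x y hx hy =>
    P.equivariant σ ⟨x, hx⟩ ⟨y, hy⟩
  have w_zero_r : ∀ x : J, n • x = 0 → w x 0 = 1 := fun x hx => by
    have h := w_addr x 0 0 hx (smul_zero n) (smul_zero n)
    rw [add_zero] at h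
    exact (mul_eq_left₀ (w_ne x 0 hx (smul_zero n))).1 h.symm
  have w_neg_r : ∀ x y : J, n • x = 0 → n • y = 0 → w x y = 1 → w x (-y) = 1 := by
    intro x y hx hy h
    have h1 := w_addr x y (-y) hx hy (by rw [smul_neg, hy, neg_zero])
    rw [add_neg_cancel, w_zero_r x hx, h, one_mul] at h1
    exact h1.symm
  have w_zero_l : ∀ y : J, n • y = 0 → w 0 y = 1 := fun y hy => by
    have h := w_addl 0 0 y (smul_zero n) (smul_zero n) hy
    rw [add_zero] at h
    exact (mul_eq_left₀ (w_ne 0 y (smul_zero n) hy)).1 h.symm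
  have w_neg_l : ∀ x y : J, n • x = 0 → n • y = 0 → w x y = 1 → w (-x) y = 1 := by
    intro x y hx hy h
    have h1 := w_addl x (-x) y hx (by rw [smul_neg, hx, neg_zero]) hy
    rw [add_neg_cancel, w_zero_l y hy, h, one_mul] at h1
    exact h1.symm
  -- the kernel of `ε` on `J[n]`
  let K : AddSubgroup (torsSub J n) :=
    { carrier := {x | ε (x : J) = 0}
      zero_mem' := map_zero ε
      add_mem' := fun {a b} ha hb => by
        change ε ((a : J) + b) = 0
        rw [map_add, ha, hb, add_zero]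
      neg_mem' := fun {a} ha => by
        change ε (-(a : J)) = 0
        rw [map_neg, ha, neg_zero] }
  -- its orthogonal
  let S0 : AddSubgroup (torsSub J n) :=
    { carrier := {s | ∀ x ∈ K, w (x : J) (s : J) = 1}
      zero_mem' := fun x _ => w_zero_r x x.2
      add_mem' := fun {a b} ha hb x hx => by
        change w (x : J) ((a : J) + b) = 1
        rw [w_addr _ _ _ x.2 a.2 b.2, ha x hx, hb x hx, one_mul]
      neg_mem' := fun {a} ha x hx => w_neg_r _ _ x.2 a.2 (ha x hx) }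
  -- the double orthogonal
  let K' : AddSubgroup (torsSub J n) :=
    { carrier := {x | ∀ s ∈ S0, w (x : J) (s : J) = 1}
      zero_mem' := fun s _ => w_zero_l s s.2
      add_mem' := fun {a b} ha hb s hs => by
        change w ((a : J) + b) (s : J) = 1
        rw [w_addl _ _ _ a.2 b.2 s.2, ha s hs, hb s hs, one_mul]
      neg_mem' := fun {a} ha s hs => w_neg_l _ _ a.2 s.2 (ha s hs) }
  have c1 : Nat.card S0 * Nat.card K = Nat.card (torsSub J n) :=
    P.swap.card_perp_mul_card_eq K S0 (fun s => Iff.rfl)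
  have c2 : Nat.card K' * Nat.card S0 = Nat.card (torsSub J n) :=
    P.card_perp_mul_card_eq S0 K' (fun x => Iff.rfl)
  have hKK' : K ≤ K' := fun x hx s hs => hs x hx
  have hcard : Nat.card K' = Nat.card K := by
    have h0 : 0 < Nat.card S0 := Nat.card_pos
    have : Nat.card S0 * Nat.card K' = Nat.card S0 * Nat.card K := by
      rw [c1, mul_comm, c2]
    exact Nat.eq_of_mul_eq_mul_left h0 this
  have hK : K = K' := AddSubgroup.eq_of_le_of_card_ge hKK' hcard.le
  have hS1 : ∀ s ∈ S0.map (torsSub J n).subtype, n • s = 0 := by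
    rintro _ ⟨s, -, rfl⟩
    exact s.2
  have hinv : ∀ (σ : GQ) (x : J), actJ σ (actJ σ⁻¹ x) = x := fun σ x => by
    rw [← fit_mul_apply, ← map_mul, mul_inv_cancel, map_one, AddMonoid.End.one_apply]
  have hS2 : ∀ σ : GQ, ∀ s ∈ S0.map (torsSub J n).subtype,
      actJ σ s ∈ S0.map (torsSub J n).subtype := by
    rintro σ _ ⟨s, hs, rfl⟩
    refine ⟨⟨actJ σ s, hT σ s s.2⟩, fun x hx => ?_, rfl⟩
    have hx' : (⟨actJ σ⁻¹ x, hT σ⁻¹ x x.2⟩ : torsSub J n) ∈ K := by
      change ε (actJ σ⁻¹ (x : J)) = 0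
      rw [comm, show ε (x : J) = 0 from hx, map_zero]
    have h1 := hs _ hx'
    change w (x : J) (actJ σ (s : J)) = 1
    rw [← hinv σ x, w_eq σ _ _ (hT σ⁻¹ x x.2) s.2]
    rw [show w (actJ σ⁻¹ (x : J)) (s : J) = 1 from h1, map_one]
  refine ⟨S0.map (torsSub J n).subtype, hS1, hS2, ?_⟩
  refine
    { ne_zero := fun v s => w_ne v s v.2.1 (hS1 s s.2)
      add_left := fun v v' s => w_addl v v' s v.2.1 v'.2.1 (hS1 s s.2)
      add_right := fun v s s' => w_addr v s s' v.2.1 (hS1 s s.2) (hS1 s' s'.2)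
      nondeg_left := fun v hv => ?_
      nondeg_right := fun s hs => ?_
      equivariant := fun σ v s => w_eq σ v s v.2.1 (hS1 s s.2) }
  · have h1 : (⟨v, v.2.1⟩ : torsSub J n) ∈ K' := fun s hs => hv ⟨s, ⟨s, hs, rfl⟩⟩
    rw [← hK] at h1
    have h2 : ε (v : J) = 0 := h1
    apply Subtype.ext
    rw [← v.2.2, h2]
    rfl
  · obtain ⟨s0, hs0, hs0'⟩ := s.2
    have h1 : (⟨s, hS1 s s.2⟩ : torsSub J n) = 0 := by
      refine P.nondeg_right _ fun x => ?_
      change w (x : J) (s : J) = 1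
      have hx : n • (x : J) = 0 := x.2
      have hεx : n • ε (x : J) = 0 := fit_tors ε hx
      have hd : n • ((x : J) - ε x) = 0 := by rw [smul_sub, hx, hεx, sub_zero]
      have e1 : (x : J) = ε x + (x - ε x) := by abel
      have e2 : w (ε (x : J)) (s : J) = 1 := hs ⟨ε x, hεx, idem x hx⟩
      have e3 : w ((x : J) - ε x) (s : J) = 1 := by
        have hk : (⟨(x : J) - ε x, hd⟩ : torsSub J n) ∈ K := by
          change ε ((x : J) - ε x) = 0
          rw [map_sub, idem x hx, sub_self]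
        have := hs0 _ hk
        rw [← hs0']
        exact this
      rw [e1, w_addl _ _ _ hεx hd (hS1 s s.2), e2, e3, one_mul]
    apply Subtype.ext
    exact congrArg (fun t : torsSub J n => (t : J)) h1

/-- **[ESU]** Eichler-Shimura ⟹ `(U)`.  `V` killed by `r ^ k`, `(F - 1)(F - ℓ) = η F` with `η` nilpotent commuting with `F`,
`ℓ ^ a ≡ 1 mod r`  ⟹  `F ^ a` has `r`-power order.
(`P(T) = (T-1)(T-ℓ)`; `P(F)` is nilpotent.  If `ℓ ≢ 1 mod r` then `P ∣ T^a - 1` modulo `r`; if `ℓ ≡ 1` then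
`(F-1)^2 ≡ P(F)` modulo `r`.  In both cases `F^a - 1` is nilpotent (`r` is nilpotent on `V`), and `(1 + ν)^(r^m) = 1` for `m` large.) -/
theorem exists_pow_eq_one_of_es {V : Type*} [AddCommGroup V] {r k : ℕ} (hr : r.Prime)
    (hV : ∀ v : V, r ^ k • v = 0) (F η : AddMonoid.End V) (hc : Commute F η) {M : ℕ}
    (hη : η ^ M = 0) {ℓ a : ℕ} (hes : (F - 1) * (F - (ℓ : AddMonoid.End V)) = η * F)
    (ha : ℓ ^ a % r = 1) : ∃ m : ℕ, (F ^ a) ^ r ^ m = 1 :=
  ESU.exists_pow_eq_one_of_es' hr hV F η hc hη hes ha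

end Fermat.Agent.MAZ
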