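import Fermat.Agent.MAZ.Abs.Defs

/-!
# MAZ / Abs / [QUOT] : admissibility passes to `X / F`; cardinalities

All statements are formal.  Characters of `X ⧸ F` are pulled back to `X`
(`lam.compAddMonoidHom (QuotientAddGroup.mk' F)`).
-/

set_option autoImplicit false

noncomputable section

namespace Fermat.Agent.MAZ

open Fermat.Agent.FLAT (Qb GQ)

variable {X : Type} [AddCommGroup X] {r N : ℕ} {Ar AN : ValuationSubring Qb}
  {act : GQ →* AddMonoid.End X} {X0 Xf : AddSubgroup X}

/-- **[QUOT]** -/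
theorem Adm.quot (h : Adm r N Ar AN act X0 Xf) (F : AddSubgroup X)
    (hF : ∀ σ : GQ, ∀ v ∈ F, act σ v ∈ F) :
    Adm r N Ar AN (quotAct act F hF) (X0.map (QuotientAddGroup.mk' F))
      (Xf.map (QuotientAddGroup.mk' F)) := by
  have hfin := h.finite
  refine ⟨inferInstance, ?_, ?_, ?_, ?_, ?_, ?_, ?_, ?_⟩
  · intro v
    induction v using QuotientAddGroup.induction_on with
    | H v =>
      obtain ⟨k, hk⟩ := h.rgroup v
      refine ⟨k, ?_⟩
      rw [← QuotientAddGroup.mk_nsmul, hk]
      rfl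
  · obtain ⟨L, hL, hfix⟩ := h.smooth
    refine ⟨L, hL, fun σ hσ v => ?_⟩
    induction v using QuotientAddGroup.induction_on with
    | H v => rw [quotAct_mk, hfix σ hσ v]
  · intro q hq hqr hqN
    obtain ⟨B, hB, hfix⟩ := h.unram q hq hqr hqN
    refine ⟨B, hB, fun σ hσ v => ?_⟩
    induction v using QuotientAddGroup.induction_on with
    | H v => rw [quotAct_mk, hfix σ hσ v]
  · intro σ hσ
    obtain ⟨n, hn⟩ := h.unip σ hσ
    refine ⟨n, fun v => ?_⟩
    induction v using QuotientAddGroup.induction_on with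
    | H v => rw [quotAct_mk, hn v]
  · rintro σ hσ _ ⟨v, hv, rfl⟩
    change quotAct act F hF σ (v : X ⧸ F) = _
    rw [quotAct_mk, h.fixN σ hσ v hv]
    rfl
  · intro σ hσ v
    induction v using QuotientAddGroup.induction_on with
    | H v =>
      exact ⟨act σ v - v, h.conn σ hσ v, rfl⟩
  · rintro σ hσ _ ⟨v, hv, rfl⟩ lam
    exact h.mult σ hσ v hv (lam.compAddMonoidHom (QuotientAddGroup.mk' F))
  · intro w lam
    induction w using QuotientAddGroup.induction_on with
    | H w =>
      exact h.peu w (lam.compAddMonoidHom (QuotientAddGroup.mk' F))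

/-- the map `preFix → fixedIn` of the quotient. -/
def preFixMap (act : GQ →* AddMonoid.End X) (Xf F : AddSubgroup X)
    (hF : ∀ σ : GQ, ∀ v ∈ F, act σ v ∈ F) :
    preFix act F Xf →+ fixedIn (quotAct act F hF) (Xf.map (QuotientAddGroup.mk' F)) where
  toFun v := ⟨((v : X) : X ⧸ F), ⟨v, v.2.1, rfl⟩, fun σ => by
    rw [quotAct_mk]
    exact (QuotientAddGroup.eq_iff_sub_mem.2 (v.2.2 σ))⟩
  map_zero' := rfl
  map_add' _ _ := rfl

theorem preFixMap_surjective (F : AddSubgroup X) (hF : ∀ σ : GQ, ∀ v ∈ F, act σ v ∈ F) :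
    Function.Surjective (preFixMap act Xf F hF) := by
  rintro ⟨_, ⟨v, hv, rfl⟩, hfix⟩
  refine ⟨⟨v, hv, fun σ => ?_⟩, rfl⟩
  have := hfix σ
  change quotAct act F hF σ (v : X ⧸ F) = (v : X ⧸ F) at this
  rw [quotAct_mk] at this
  exact QuotientAddGroup.eq_iff_sub_mem.1 this

/-- `preFix` maps onto the fixed points of the quotient, with kernel `F ⊓ Xf`. -/
theorem card_preFix [Finite X] (F : AddSubgroup X) (hF : ∀ σ : GQ, ∀ v ∈ F, act σ v ∈ F) :
    Nat.card (preFix act F Xf) =
      Nat.card (fixedIn (quotAct act F hF) (Xf.map (QuotientAddGroup.mk' F))) *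
        Nat.card (F ⊓ Xf : AddSubgroup X) := by
  have h1 := AddSubgroup.card_eq_card_quotient_mul_card_addSubgroup (preFixMap act Xf F hF).ker
  have h2 : Nat.card (preFix act F Xf ⧸ (preFixMap act Xf F hF).ker) =
      Nat.card (fixedIn (quotAct act F hF) (Xf.map (QuotientAddGroup.mk' F))) :=
    Nat.card_congr (QuotientAddGroup.quotientKerEquivOfSurjective _
      (preFixMap_surjective F hF)).toEquiv
  have h3 : Nat.card (preFixMap act Xf F hF).ker = Nat.card (F ⊓ Xf : AddSubgroup X) := by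
    refine Nat.card_congr ⟨fun v => ⟨((v : preFix act F Xf) : X), ?_, v.1.2.1⟩,
      fun v => ⟨⟨(v : X), v.2.2, fun σ => F.sub_mem (hF σ _ v.2.1) v.2.1⟩, ?_⟩,
      fun v => rfl, fun v => rfl⟩
    · have := v.2
      rw [AddMonoidHom.mem_ker] at this
      have h4 := congrArg Subtype.val this
      exact (QuotientAddGroup.eq_zero_iff _).1 h4
    · rw [AddMonoidHom.mem_ker]
      apply Subtype.ext
      exact (QuotientAddGroup.eq_zero_iff _).2 v.2.1
  rw [h1, h2, h3]

/-- `[X/F : image of Y] * #F = [X : Y] * #(F ∩ Y)`. -/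
theorem index_map_mk_mul [Finite X] (F Y : AddSubgroup X) :
    (Y.map (QuotientAddGroup.mk' F)).index * Nat.card F =
      Y.index * Nat.card (F ⊓ Y : AddSubgroup X) := by
  have h1 : (Y.map (QuotientAddGroup.mk' F)).index = (Y ⊔ F).index := by
    rw [AddSubgroup.index_map, QuotientAddGroup.ker_mk',
      AddMonoidHom.range_eq_top.2 (QuotientAddGroup.mk'_surjective F), AddSubgroup.index_top,
      mul_one]
  have h2 : Y.index = Y.relIndex (Y ⊔ F) * (Y ⊔ F).index :=
    (AddSubgroup.relIndex_mul_index le_sup_left).symm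
  have h3 : Y.relIndex (Y ⊔ F) = Y.relIndex F := AddSubgroup.relIndex_sup_left F Y
  have h4 : Y.relIndex F * Nat.card (F ⊓ Y : AddSubgroup X) = Nat.card F := by
    have h5 := AddSubgroup.index_mul_card (Y.addSubgroupOf F)
    have h6 : Nat.card (Y.addSubgroupOf F) = Nat.card (F ⊓ Y : AddSubgroup X) := by
      refine Nat.card_congr ⟨fun v => ⟨((v : F) : X), v.1.2, v.2⟩,
        fun v => ⟨⟨(v : X), v.2.1⟩, v.2.2⟩, fun v => rfl, fun v => rfl⟩
    rw [h6] at h5
    exact h5
  rw [h1, h2, h3, ← h4]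
  ring

theorem index_map_mk_of_le [Finite X] {F Y : AddSubgroup X} (h : F ≤ Y) :
    (Y.map (QuotientAddGroup.mk' F)).index = Y.index := by
  rw [AddSubgroup.index_map, QuotientAddGroup.ker_mk',
    AddMonoidHom.range_eq_top.2 (QuotientAddGroup.mk'_surjective F), AddSubgroup.index_top,
    mul_one, sup_eq_left.2 h]

end Fermat.Agent.MAZ
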